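import Fermat.Agent.S24.AnDefs

/-!
# S24 (W5): Taylor series of holomorphic functions on the upper half plane
-/

set_option autoImplicit false

open UpperHalfPlane ModularForm Matrix.SpecialLinearGroup
open scoped MatrixGroups Manifold Topology
open Fermat.Agent.S20Lib Fermat.Agent.S28Lib

namespace Fermat.Agent.S24Lib

noncomputable section

variable {f g : ℍ → ℂ}

theorem analyticAt_comp_ofComplex (hg : MDiff g) (τ₀ : ℍ) : AnalyticAt ℂ (g ∘ ofComplex) τ₀ := by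
  have h := UpperHalfPlane.mdifferentiable_iff.mp hg
  exact h.analyticAt (isOpen_upperHalfPlaneSet.mem_nhds τ₀.2)

theorem taylor_coeff_taylorPS (G : ℂ → ℂ) (p : ℂ) (m : ℕ) :
    (taylorPS G p).coeff m = (↑m.factorial)⁻¹ * iteratedDeriv m G p := by
  simp [taylorPS]

theorem order_taylorPS {G : ℂ → ℂ} {p : ℂ} (hG : AnalyticAt ℂ G p) :
    (taylorPS G p).order = analyticOrderAt G p := by
  have key : ∀ n : ℕ, (n : ℕ∞) ≤ (taylorPS G p).order ↔ (n : ℕ∞) ≤ analyticOrderAt G p := by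
    intro n
    rw [natCast_le_analyticOrderAt_iff_iteratedDeriv_eq_zero hG]
    constructor
    · intro h i hi
      have := PowerSeries.coeff_of_lt_order i (lt_of_lt_of_le (by exact_mod_cast hi) h)
      rw [taylor_coeff_taylorPS] at this
      rcases mul_eq_zero.mp this with h0 | h0
      · exact absurd h0 (inv_ne_zero (by exact_mod_cast Nat.factorial_ne_zero i))
      · exact h0
    · intro h
      apply PowerSeries.nat_le_order
      intro i hi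
      rw [taylor_coeff_taylorPS, h i hi, mul_zero]
  exact ENat.eq_of_forall_natCast_le_iff key

theorem taylor_taylorPS_add {F G : ℂ → ℂ} {p : ℂ} (hF : AnalyticAt ℂ F p) (hG : AnalyticAt ℂ G p) :
    taylorPS (F + G) p = taylorPS F p + taylorPS G p := by
  ext m
  simp [taylor_coeff_taylorPS, iteratedDeriv_add hF.contDiffAt hG.contDiffAt, mul_add]

theorem taylor_taylorPS_mul {F G : ℂ → ℂ} {p : ℂ} (hF : AnalyticAt ℂ F p) (hG : AnalyticAt ℂ G p) :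
    taylorPS (F * G) p = taylorPS F p * taylorPS G p := by
  ext
  simp only [taylor_coeff_taylorPS,
    iteratedDeriv_mul hF.contDiffAt hG.contDiffAt, Finset.mul_sum, PowerSeries.coeff_mul,
    Finset.Nat.sum_antidiagonal_eq_sum_range_succ_mk, Nat.succ_eq_add_one]
  refine Finset.sum_congr rfl fun i hi ↦ ?_
  rw [Nat.cast_choose _ (by grind)]
  field_simp [Nat.factorial_ne_zero]

theorem taylorH_add (hf : MDiff f) (hg : MDiff g) (τ₀ : ℍ) :
    taylorH (f + g) τ₀ = taylorH f τ₀ + taylorH g τ₀ :=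
  taylor_taylorPS_add (analyticAt_comp_ofComplex hf τ₀) (analyticAt_comp_ofComplex hg τ₀)

theorem taylorH_mul (hf : MDiff f) (hg : MDiff g) (τ₀ : ℍ) :
    taylorH (f * g) τ₀ = taylorH f τ₀ * taylorH g τ₀ :=
  taylor_taylorPS_mul (analyticAt_comp_ofComplex hf τ₀) (analyticAt_comp_ofComplex hg τ₀)

theorem taylorH_const (c : ℂ) (τ₀ : ℍ) : taylorH (Function.const ℍ c) τ₀ = PowerSeries.C c := by
  ext m
  have : (Function.const ℍ c ∘ ofComplex) = fun _ : ℂ => c := rfl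
  rw [taylorH, this, taylor_coeff_taylorPS, PowerSeries.coeff_C]
  rcases m with _ | m
  · simp
  · simp [iteratedDeriv_const]

theorem taylorH_eq_zero_iff (hf : MDiff f) (τ₀ : ℍ) : taylorH f τ₀ = 0 ↔ f = 0 := by
  constructor
  · intro h
    have h1 : analyticOrderAt (f ∘ ofComplex) (τ₀ : ℂ) = ⊤ := by
      rw [← order_taylorPS (analyticAt_comp_ofComplex hf τ₀)]
      exact PowerSeries.order_eq_top.mpr h
    rw [analyticOrderAt_eq_top] at h1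
    have hU : AnalyticOnNhd ℂ (f ∘ ofComplex) {z : ℂ | 0 < z.im} := fun z hz =>
      analyticAt_comp_ofComplex hf ⟨z, hz⟩
    have hpre : IsPreconnected {z : ℂ | 0 < z.im} :=
      (convex_halfSpace_im_gt 0).isPreconnected
    have := hU.eqOn_zero_of_preconnected_of_eventuallyEq_zero hpre τ₀.2 h1
    ext τ
    have h2 := this τ.2
    simpa using h2
  · rintro rfl
    have : (0 : ℍ → ℂ) = Function.const ℍ 0 := rfl
    rw [this, taylorH_const, map_zero]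

/-- the Möbius map on `ℂ` -/
def taylorMob (ε : SL(2, ℤ)) (z : ℂ) : ℂ :=
  ((ε 0 0 : ℤ) * z + (ε 0 1 : ℤ)) / ((ε 1 0 : ℤ) * z + (ε 1 1 : ℤ))

theorem taylor_coe_smul (ε : SL(2, ℤ)) (τ : ℍ) : ((ε • τ : ℍ) : ℂ) = taylorMob ε τ := by
  rw [UpperHalfPlane.coe_specialLinearGroup_apply]
  simp [taylorMob]

theorem taylor_denom_eq (ε : SL(2, ℤ)) (τ : ℍ) :
    denom ε τ = (ε 1 0 : ℤ) * (τ : ℂ) + (ε 1 1 : ℤ) := by
  simp [denom]

theorem taylor_denom_ne (ε : SL(2, ℤ)) (τ : ℍ) :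
    ((ε 1 0 : ℤ) * (τ : ℂ) + (ε 1 1 : ℤ) : ℂ) ≠ 0 := by
  rw [← taylor_denom_eq]
  exact denom_ne_zero _ _

theorem taylor_det (ε : SL(2, ℤ)) :
    ((ε 0 0 : ℤ) : ℂ) * (ε 1 1 : ℤ) - (ε 0 1 : ℤ) * (ε 1 0 : ℤ) = 1 := by
  have := ε.det_coe
  rw [Matrix.det_fin_two] at this
  exact_mod_cast this

theorem taylor_mob_sub (ε : SL(2, ℤ)) (τ₀ : ℍ) {z : ℂ}
    (hz : ((ε 1 0 : ℤ) * z + (ε 1 1 : ℤ) : ℂ) ≠ 0) :
    taylorMob ε z - taylorMob ε τ₀ =
      (z - τ₀) * (((ε 1 0 : ℤ) * z + (ε 1 1 : ℤ)) * denom ε τ₀)⁻¹ := by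
  have h0 := taylor_denom_ne ε τ₀
  rw [taylor_denom_eq]
  unfold taylorMob
  rw [div_sub_div _ _ hz h0, ← div_eq_mul_inv, div_left_inj' (mul_ne_zero hz h0)]
  linear_combination (z - (τ₀ : ℂ)) * taylor_det ε

theorem taylor_analyticAt_mob (ε : SL(2, ℤ)) (τ₀ : ℍ) : AnalyticAt ℂ (taylorMob ε) τ₀ := by
  unfold taylorMob
  exact AnalyticAt.fun_div (by fun_prop) (by fun_prop) (taylor_denom_ne ε τ₀)

theorem taylor_hasDerivAt_mob (ε : SL(2, ℤ)) (τ₀ : ℍ) :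
    HasDerivAt (taylorMob ε) ((denom ε τ₀ ^ 2)⁻¹) τ₀ := by
  have h0 := taylor_denom_ne ε τ₀
  have h1 : HasDerivAt (fun z : ℂ => ((ε 0 0 : ℤ) : ℂ) * z + (ε 0 1 : ℤ)) ((ε 0 0 : ℤ) : ℂ) τ₀ := by
    simpa using ((hasDerivAt_id (τ₀ : ℂ)).const_mul ((ε 0 0 : ℤ) : ℂ)).add_const ((ε 0 1 : ℤ) : ℂ)
  have h2 : HasDerivAt (fun z : ℂ => ((ε 1 0 : ℤ) : ℂ) * z + (ε 1 1 : ℤ)) ((ε 1 0 : ℤ) : ℂ) τ₀ := by
    simpa using ((hasDerivAt_id (τ₀ : ℂ)).const_mul ((ε 1 0 : ℤ) : ℂ)).add_const ((ε 1 1 : ℤ) : ℂ)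
  have h3 := h1.fun_div h2 h0
  have h4 : (denom ε τ₀ ^ 2)⁻¹ = ((((ε 0 0 : ℤ) : ℂ) * (((ε 1 0 : ℤ) : ℂ) * τ₀ + (ε 1 1 : ℤ)) -
      (((ε 0 0 : ℤ) : ℂ) * τ₀ + (ε 0 1 : ℤ)) * ((ε 1 0 : ℤ) : ℂ)) /
      (((ε 1 0 : ℤ) : ℂ) * τ₀ + (ε 1 1 : ℤ)) ^ 2) := by
    rw [taylor_denom_eq, inv_eq_one_div, div_left_inj' (pow_ne_zero _ h0)]
    linear_combination (-1 : ℂ) * taylor_det ε
  rw [h4]
  exact h3

theorem taylor_slash_eventuallyEq (f : ℍ → ℂ) (ε : SL(2, ℤ)) (τ₀ : ℍ) :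
    ((f ∣[(0 : ℤ)] ε) ∘ ofComplex) =ᶠ[𝓝 (τ₀ : ℂ)] ((f ∘ ofComplex) ∘ taylorMob ε) := by
  filter_upwards [isOpen_upperHalfPlaneSet.mem_nhds τ₀.2] with z hz
  simp only [Function.comp_apply]
  rw [ofComplex_apply_of_im_pos hz, ModularForm.SL_slash_apply]
  have : taylorMob ε z = ((ε • (⟨z, hz⟩ : ℍ) : ℍ) : ℂ) := (taylor_coe_smul ε ⟨z, hz⟩).symm
  rw [this, ofComplex_apply]
  simp

/-- the order of vanishing is invariant under Möbius transformations -/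
theorem order_taylorH_slash (hf : MDiff f) (ε : SL(2, ℤ)) (τ₀ : ℍ) :
    (taylorH (f ∣[(0 : ℤ)] ε) τ₀).order = (taylorH f (ε • τ₀)).order := by
  have hfs : MDiff (f ∣[(0 : ℤ)] ε) := hf.slash _ _
  rw [taylorH, taylorH, order_taylorPS (analyticAt_comp_ofComplex hfs τ₀),
    order_taylorPS (analyticAt_comp_ofComplex hf _),
    analyticOrderAt_congr (taylor_slash_eventuallyEq f ε τ₀),
    analyticOrderAt_comp_of_deriv_ne_zero (taylor_analyticAt_mob ε τ₀), taylor_coe_smul]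
  rw [(taylor_hasDerivAt_mob ε τ₀).deriv]
  exact inv_ne_zero (pow_ne_zero _ (denom_ne_zero _ _))

/-- if `f ∘ ε = f` and `ε τ₀ = τ₀` then `ε'(τ₀) ^ ord = 1` (`ε'(τ₀) = denom⁻²`). -/
theorem pow_order_taylorH_eq_one (hf : MDiff f) (hf0 : f ≠ 0) (ε : SL(2, ℤ)) (τ₀ : ℍ)
    (hε : ε • τ₀ = τ₀) (hinv : f ∣[(0 : ℤ)] ε = f) :
    (denom ε τ₀ ^ 2) ^ (taylorH f τ₀).order.toNat = 1 := by
  have hF := analyticAt_comp_ofComplex hf τ₀
  set m := (taylorH f τ₀).order.toNat with hm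
  have hne : (taylorH f τ₀).order ≠ ⊤ := by
    rw [Ne, PowerSeries.order_eq_top, taylorH_eq_zero_iff hf]
    exact hf0
  have hord : analyticOrderAt (f ∘ ofComplex) (τ₀ : ℂ) = m := by
    rw [← order_taylorPS hF, hm]
    exact (ENat.natCast_toNat hne).symm
  obtain ⟨H, hHa, hH0, hHeq⟩ := (hF.analyticOrderAt_eq_natCast).mp hord
  have hfix : taylorMob ε τ₀ = τ₀ := by rw [← taylor_coe_smul, hε]
  have hmobc : ContinuousAt (taylorMob ε) τ₀ := (taylor_analyticAt_mob ε τ₀).continuousAt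
  -- the functional equation near `τ₀`
  have h1 := taylor_slash_eventuallyEq f ε τ₀
  rw [hinv] at h1
  have h2 : ∀ᶠ z in 𝓝 (τ₀ : ℂ), (f ∘ ofComplex) (taylorMob ε z) =
      (taylorMob ε z - τ₀) ^ m • H (taylorMob ε z) := by
    have : Filter.Tendsto (taylorMob ε) (𝓝 (τ₀ : ℂ)) (𝓝 (τ₀ : ℂ)) := by
      have := hmobc.tendsto
      rwa [hfix] at this
    exact this.eventually hHeq
  have h3 : ∀ᶠ z in 𝓝 (τ₀ : ℂ), ((ε 1 0 : ℤ) * z + (ε 1 1 : ℤ) : ℂ) ≠ 0 := by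
    have hc : ContinuousAt (fun z : ℂ => ((ε 1 0 : ℤ) * z + (ε 1 1 : ℤ) : ℂ)) τ₀ := by fun_prop
    exact hc.eventually_ne (taylor_denom_ne ε τ₀)
  set K : ℂ → ℂ := fun z => (((ε 1 0 : ℤ) * z + (ε 1 1 : ℤ)) * denom ε τ₀)⁻¹ with hK
  have h4 : ∀ᶠ z in 𝓝[≠] (τ₀ : ℂ), K z ^ m * H (taylorMob ε z) = H z := by
    have := (h1.and (h2.and (h3.and hHeq)))
    filter_upwards [this.filter_mono nhdsWithin_le_nhds, self_mem_nhdsWithin] with z hz hzne
    obtain ⟨e1, e2, e3, e4⟩ := hz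
    have e5 := taylor_mob_sub ε τ₀ e3
    rw [hfix] at e5
    simp only [Function.comp_apply] at e1 e2 e4
    rw [e4, e2, e5, smul_eq_mul, smul_eq_mul, mul_pow, mul_assoc] at e1
    have hz0 : (z - (τ₀ : ℂ)) ^ m ≠ 0 := pow_ne_zero _ (sub_ne_zero.mpr hzne)
    exact (mul_left_cancel₀ hz0 e1).symm
  have hKc : ContinuousAt K τ₀ := by
    apply ContinuousAt.inv₀ (by fun_prop)
    exact mul_ne_zero (taylor_denom_ne ε τ₀) (denom_ne_zero _ _)
  have hL : Filter.Tendsto (fun z => K z ^ m * H (taylorMob ε z)) (𝓝[≠] (τ₀ : ℂ))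
      (𝓝 (K τ₀ ^ m * H τ₀)) := by
    have hc : ContinuousAt (fun z => K z ^ m * H (taylorMob ε z)) τ₀ := by
      apply (hKc.pow m).mul
      have : ContinuousAt H (taylorMob ε τ₀) := by rw [hfix]; exact hHa.continuousAt
      exact ContinuousAt.comp this hmobc
    have := hc.tendsto
    simp only [hfix] at this
    exact this.mono_left nhdsWithin_le_nhds
  have hR : Filter.Tendsto H (𝓝[≠] (τ₀ : ℂ)) (𝓝 (H τ₀)) :=
    hHa.continuousAt.tendsto.mono_left nhdsWithin_le_nhds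
  have heq : K τ₀ ^ m * H τ₀ = H τ₀ :=
    tendsto_nhds_unique (hL.congr' h4) hR |>.symm ▸ rfl
  have hK1 : K τ₀ ^ m = 1 := by
    have : (K τ₀ ^ m - 1) * H τ₀ = 0 := by linear_combination heq
    rcases mul_eq_zero.mp this with h | h
    · linear_combination h
    · exact absurd h hH0
  have hKval : K τ₀ = (denom ε τ₀ ^ 2)⁻¹ := by
    simp only [hK]
    rw [← taylor_denom_eq, sq]
  rw [hKval, inv_pow] at hK1
  exact inv_eq_one.mp hK1

end

end Fermat.Agent.S24Lib
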