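import Fermat.Agent.S24.Theta
import Fermat.Prelude.Thm_ModularForm_sturm_bound_Gamma0

/-!
# S24 library, piece W7: `[F : Q̄(j)] ≤ [SL₂(ℤ) : Γ₀(N)]`
-/

set_option autoImplicit false

open UpperHalfPlane ModularForm Matrix.SpecialLinearGroup CongruenceSubgroup ModularCurve
open AlgebraicCurve IntermediateField
open scoped MatrixGroups Manifold Polynomial
open Fermat.Agent.S20Lib Fermat.Agent.S28Lib

namespace Fermat.Agent.S24Lib

noncomputable section

local notation "Kb" => AlgebraicClosure ℚ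

/-- `j` as a Laurent series over `Q̄` -/
def W7_jE : LaurentSeries Kb := coeffEmb Kb (qExpand ℚ 1 jq)

theorem W7_coe_jBar (N : ℕ) : ((jBar N : modularFunctionFieldBar N) : LaurentSeries Kb) = W7_jE := rfl

theorem W7_jE_eq : W7_jE = coeffEmb Kb jq := by rw [W7_jE, qExpand_one_apply]

theorem W7_coeff_jE_pow_self (n : ℕ) : (W7_jE ^ n).coeff (-(n : ℤ)) = 1 := by
  rw [W7_jE_eq, ← map_pow, coeffEmb_coeff, coeff_jq_pow_self, map_one]

theorem W7_coeff_jE_pow_of_lt {n : ℕ} {m : ℤ} (hm : m < -(n : ℤ)) : (W7_jE ^ n).coeff m = 0 := by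
  rw [W7_jE_eq, ← map_pow, coeffEmb_coeff, coeff_jq_pow_of_lt hm, map_zero]

theorem W7_coeff_algebraMap_mul (a : Kb) (x : LaurentSeries Kb) (k : ℤ) :
    (algebraMap Kb (LaurentSeries Kb) a * x).coeff k = a * x.coeff k := by
  rw [algebraMap_laurentSeries_eq_single, HahnSeries.coeff_single_mul, sub_zero]

theorem W7_transcendental_jE : Transcendental Kb W7_jE := by
  rw [transcendental_iff]
  intro p hp
  by_contra hp0
  have h1 := congrArg (fun x => HahnSeries.coeff x (-(p.natDegree : ℤ))) hp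
  simp only [Polynomial.aeval_eq_sum_range, HahnSeries.coeff_sum, Algebra.smul_def,
    W7_coeff_algebraMap_mul, HahnSeries.coeff_zero] at h1
  rw [Finset.sum_eq_single p.natDegree] at h1
  · rw [W7_coeff_jE_pow_self, mul_one] at h1
    exact hp0 (Polynomial.leadingCoeff_eq_zero.mp h1)
  · intro i hi hne
    rw [Finset.mem_range] at hi
    have hlt : (-(p.natDegree : ℤ)) < -(i : ℤ) := by omega
    rw [W7_coeff_jE_pow_of_lt hlt, mul_zero]
  · intro h
    exact absurd (Finset.mem_range.mpr (Nat.lt_succ_self _)) h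

theorem transcendental_jBar (N : ℕ) [NeZero N] : Transcendental Kb (jBar N) := by
  rw [transcendental_iff]
  intro p hp
  apply transcendental_iff.mp W7_transcendental_jE
  have := congrArg (modularFunctionFieldBar N).val hp
  rw [← Polynomial.aeval_algHom_apply, map_zero] at this
  exact this

/-- `Δ` as a Laurent series over `Q̄` -/
def W7_DK : LaurentSeries Kb :=
  HahnSeries.ofPowerSeries ℤ Kb ((PowerSeries.X * dedekindEtaUnit).map (Int.castRingHom Kb))

theorem W7_coeffMap_ofPowerSeries (p : PowerSeries Kb) :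
    coeffMap iotaC (HahnSeries.ofPowerSeries ℤ Kb p) =
      HahnSeries.ofPowerSeries ℤ ℂ (p.map iotaC) := by
  ext k
  rw [coeffMap_coeff]
  rcases le_or_gt 0 k with hk | hk
  · lift k to ℕ using hk
    rw [HahnSeries.ofPowerSeries_apply_coeff, HahnSeries.ofPowerSeries_apply_coeff,
      PowerSeries.coeff_map]
  · rw [ofPowerSeries_coeff_of_neg _ hk, ofPowerSeries_coeff_of_neg _ hk, map_zero]

theorem W7_coeffMap_DK :
    coeffMap iotaC W7_DK = HahnSeries.ofPowerSeries ℤ ℂ (qExpansion 1 Dl) := by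
  rw [W7_DK, W7_coeffMap_ofPowerSeries, qExpansion_Delta]
  congr 1
  ext n
  simp only [PowerSeries.coeff_map]
  simp

theorem W7_coeffMap_injective : Function.Injective (coeffMap iotaC) := by
  intro x y h
  ext k
  have := congrArg (fun z => HahnSeries.coeff z k) h
  simp only [coeffMap_coeff] at this
  exact iotaC.injective this

/-- `x` is the expansion of `G/Δ^M` with `G` a modular form of weight `12 M`. -/
def W7_Rep (N M : ℕ) (x : LaurentSeries Kb) : Prop :=
  ∃ g : ℍ → ℂ, IsWH (Gamma0 N) g ∧ laurentFun 1 g = coeffMap iotaC x ∧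
    IsMF (Gamma0 N) (12 * (M : ℤ)) (g * Dl ^ M)

variable {N M M' : ℕ} {x y : LaurentSeries Kb}

theorem W7_Rep.add (hx : W7_Rep N M x) (hy : W7_Rep N M y) : W7_Rep N M (x + y) := by
  obtain ⟨g₁, h₁, e₁, m₁⟩ := hx
  obtain ⟨g₂, h₂, e₂, m₂⟩ := hy
  refine ⟨g₁ + g₂, h₁.add h₂, ?_, ?_⟩
  · rw [laurentFun_add one_pos h₁.isMerInf_one h₂.isMerInf_one, e₁, e₂, map_add]
  · rw [add_mul]; exact m₁.add m₂

theorem W7_Rep.mul (hx : W7_Rep N M x) (hy : W7_Rep N M' y) : W7_Rep N (M + M') (x * y) := by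
  obtain ⟨g₁, h₁, e₁, m₁⟩ := hx
  obtain ⟨g₂, h₂, e₂, m₂⟩ := hy
  refine ⟨g₁ * g₂, h₁.mul h₂, ?_, ?_⟩
  · rw [laurentFun_mul one_pos h₁.isMerInf_one h₂.isMerInf_one, e₁, e₂, map_mul]
  · rw [pow_add, mul_mul_mul_comm]
    exact m₁.mul' m₂ (by push_cast; ring)

theorem W7_Rep_const (N : ℕ) (a : Kb) : W7_Rep N 0 (algebraMap Kb (LaurentSeries Kb) a) := by
  refine ⟨Function.const ℍ (iotaC a), isWH_const _, ?_, ?_⟩
  · rw [laurentFun_const one_pos, W6_coeffMap_iotaC_algebraMap]
  · rw [pow_zero, mul_one]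
    simpa using isMF_const (Γ := Gamma0 N) (iotaC a)

theorem W7_Rep_zero (N M : ℕ) : W7_Rep N M 0 := by
  refine ⟨0, isWH_const 0, ?_, ?_⟩
  · have := laurentFun_const (h := 1) one_pos 0
    rw [map_zero] at this
    rw [map_zero]
    exact this
  · rw [zero_mul]; exact IsMF.zero_mf

theorem W7_Rep.smul (a : Kb) (hx : W7_Rep N M x) :
    W7_Rep N M (algebraMap Kb (LaurentSeries Kb) a * x) := by
  have := (W7_Rep_const N a).mul hx
  rwa [zero_add] at this

theorem W7_Rep_one_one (N : ℕ) : W7_Rep N 1 1 := by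
  refine ⟨Function.const ℍ 1, isWH_const _, ?_, ?_⟩
  · rw [laurentFun_const one_pos, map_one, map_one]
  · rw [pow_one]
    have : (Function.const ℍ (1 : ℂ)) * Dl = Dl := by
      ext τ; simp
    rw [this]
    simpa using isMF_Dl.mono (Γ' := Gamma0 N) le_top

theorem W7_jan_mul_Dl : jan * Dl = E4 ^ 3 := by
  ext τ
  simp only [Pi.mul_apply, Pi.pow_apply, jan]
  exact div_mul_cancel₀ _ (Dl_ne_zero τ)

theorem W7_Rep_jE (N : ℕ) : W7_Rep N 1 W7_jE := by
  refine ⟨jan, isWH_jan.mono le_top, ?_, ?_⟩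
  · rw [← janD_one, laurentFun_janD, W7_jE, W6_coeffMap_iotaC_coeffEmb]
  · rw [pow_one, W7_jan_mul_Dl]
    have h : IsMF ⊤ 12 (E4 ^ 3) := by
      have := (isMF_E4.mul isMF_E4).mul isMF_E4
      have e : E4 ^ 3 = E4 * E4 * E4 := by ring
      rw [e]
      exact this
    simpa using h.mono (Γ' := Gamma0 N) le_top

theorem W7_Rep.cast (h : M = M') (hx : W7_Rep N M x) : W7_Rep N M' x := h ▸ hx

theorem W7_Rep_one (N M : ℕ) : W7_Rep N M 1 := by
  induction M with
  | zero => simpa using W7_Rep_const N 1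
  | succ k ih => simpa using ih.mul (W7_Rep_one_one N)

theorem W7_Rep.lift (hx : W7_Rep N M x) (h : M ≤ M') : W7_Rep N M' x := by
  obtain ⟨k, rfl⟩ := Nat.exists_eq_add_of_le h
  simpa using hx.mul (W7_Rep_one N k)

theorem W7_Rep_jE_pow (N l : ℕ) : W7_Rep N l (W7_jE ^ l) := by
  induction l with
  | zero => simpa using W7_Rep_one N 0
  | succ k ih => rw [pow_succ]; exact ih.mul (W7_Rep_jE N)

theorem W7_Rep.sum {α : Type*} (s : Finset α) (v : α → LaurentSeries Kb)
    (h : ∀ i ∈ s, W7_Rep N M (v i)) : W7_Rep N M (∑ i ∈ s, v i) :=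
  Finset.sum_induction _ _ (fun _ _ => W7_Rep.add) (W7_Rep_zero N M) h

theorem W7_Rep_aeval (N : ℕ) {L : ℕ} {P : Kb[X]} (hP : P.natDegree < L + 1) :
    W7_Rep N L (Polynomial.aeval W7_jE P) := by
  rw [Polynomial.aeval_eq_sum_range' hP]
  refine W7_Rep.sum _ _ fun i hi => ?_
  rw [Finset.mem_range] at hi
  rw [Algebra.smul_def]
  exact ((W7_Rep_jE_pow N i).lift (Nat.lt_succ_iff.mp hi)).smul _

theorem W7_Rep_of_mem (N : ℕ) [NeZero N] {c : LaurentSeries Kb}
    (hc : c ∈ Algebra.adjoin Kb (gensBar N)) : ∃ M₀ : ℕ, W7_Rep N M₀ c := by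
  obtain ⟨g, hg, e⟩ := exists_isWH_of_mem_adjoin N c hc
  obtain ⟨M₀, h⟩ := hg.exists_isMF
  exact ⟨M₀, g, hg, e, h M₀ le_rfl⟩

theorem W7_Rep.eq_zero [NeZero N] (hx : W7_Rep N M x)
    (h0 : ∀ k : ℕ, k ≤ M * (Gamma0 N).index → (x * W7_DK ^ M).coeff (k : ℤ) = 0) : x = 0 := by
  obtain ⟨g, hg, e, m⟩ := hx
  have hb : IsBoundedAtImInfty (g * Dl ^ M) := by simpa using m.bdd 1
  have h1 := laurentFun_mul_pow one_pos hg.isMerInf_one hb
  rw [Nat.cast_one, e, ← W7_coeffMap_DK, ← map_pow, ← map_mul] at h1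
  have h2 : m.toModularForm = 0 := by
    apply ModularForm.sturm_bound_Gamma0 N
    intro k hk
    have hk' : k ≤ M * (Gamma0 N).index := by
      have e1 : ((12 : ℤ) * (M : ℤ) * ((Gamma0 N).index : ℤ)) =
          ((12 * (M * (Gamma0 N).index) : ℕ) : ℤ) := by push_cast; ring
      rwa [e1, Int.toNat_natCast, Nat.mul_div_cancel_left _ (by norm_num)] at hk
    have h3 := congrArg (fun z => HahnSeries.coeff z (k : ℤ)) h1
    simp only [coeffMap_coeff, HahnSeries.ofPowerSeries_apply_coeff] at h3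
    rw [h0 k hk', map_zero] at h3
    exact h3.symm
  have h3 : g * Dl ^ M = 0 := by
    have := congrArg (fun F : ModularForm _ _ => (F : ℍ → ℂ)) h2
    simpa using this
  have h4 : g = 0 := by
    ext τ
    have := congrFun h3 τ
    simp only [Pi.mul_apply, Pi.pow_apply, Pi.zero_apply, mul_eq_zero] at this
    rcases this with h | h
    · exact h
    · exact absurd (eq_zero_of_pow_eq_zero h) (Dl_ne_zero τ)
  apply W7_coeffMap_injective
  rw [← e, map_zero]
  exact (laurentFun_eq_zero_iff one_pos hg.isMerInf_one).mpr h4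

theorem W7_natDegree_lt {p : Kb[X]} {n : ℕ} (hn : 0 < n) (h : p ∈ Polynomial.degreeLT Kb n) :
    p.natDegree < n := by
  by_cases hp : p = 0
  · simp [hp, hn]
  · exact (Polynomial.natDegree_lt_iff_degree_lt hp).mpr (Polynomial.mem_degreeLT.mp h)

theorem W7_core (N : ℕ) [NeZero N] {α : Type} [Fintype α] (c : α → LaurentSeries Kb)
    (hc : ∀ i, c i ∈ Algebra.adjoin Kb (gensBar N))
    (hind : ∀ P : α → Kb[X], ∑ i, Polynomial.aeval W7_jE (P i) * c i = 0 → ∀ i, P i = 0) :
    Fintype.card α ≤ (Gamma0 N).index := by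
  classical
  set n := (Gamma0 N).index with hn
  choose M₀ hM₀ using fun i => W7_Rep_of_mem N (hc i)
  set M1 := Finset.univ.sup M₀ with hM1def
  have hM1 : ∀ i, W7_Rep N M1 (c i) := fun i => (hM₀ i).lift (Finset.le_sup (Finset.mem_univ i))
  by_contra hlt
  rw [not_le] at hlt
  set L := M1 * n + 1 with hL
  set M := L + M1 with hM
  set B := M * n with hB
  let S : (α → Polynomial.degreeLT Kb (L + 1)) → LaurentSeries Kb :=
    fun P => ∑ i, Polynomial.aeval W7_jE (P i : Kb[X]) * c i
  have hSadd : ∀ P Q, S (P + Q) = S P + S Q := by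
    intro P Q
    simp only [S, Pi.add_apply, Submodule.coe_add, map_add, add_mul, Finset.sum_add_distrib]
  have hSsmul : ∀ (a : Kb) P, S (a • P) = algebraMap Kb (LaurentSeries Kb) a * S P := by
    intro a P
    simp only [S, Pi.smul_apply, Submodule.coe_smul, Algebra.smul_def, Finset.mul_sum,
      map_mul, mul_assoc]
    refine Finset.sum_congr rfl fun i _ => ?_
    congr 1
    simp
  let Φ : (α → Polynomial.degreeLT Kb (L + 1)) →ₗ[Kb] (Fin (B + 1) → Kb) :=
    { toFun := fun P k => (S P * W7_DK ^ M).coeff ((k : ℕ) : ℤ)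
      map_add' := by
        intro P Q
        funext k
        simp only [hSadd, add_mul, HahnSeries.coeff_add, Pi.add_apply]
      map_smul' := by
        intro a P
        funext k
        simp only [hSsmul, mul_assoc, W7_coeff_algebraMap_mul, Pi.smul_apply, smul_eq_mul,
          RingHom.id_apply] }
  have hinj : Function.Injective Φ := by
    rw [injective_iff_map_eq_zero]
    intro P hP
    have hrep : W7_Rep N M (S P) := by
      refine W7_Rep.sum _ _ fun i _ => ?_
      exact (W7_Rep_aeval N (W7_natDegree_lt (Nat.succ_pos L) (P i).2)).mul (hM1 i)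
    have hS0 : S P = 0 := by
      apply hrep.eq_zero
      intro k hk
      exact congrFun hP ⟨k, Nat.lt_succ_of_le hk⟩
    funext i
    exact Subtype.ext (hind (fun i => (P i : Kb[X])) hS0 i)
  have : Module.Finite Kb (Polynomial.degreeLT Kb (L + 1)) :=
    Module.Finite.equiv (Polynomial.degreeLTEquiv Kb (L + 1)).symm
  have h1 := LinearMap.finrank_le_finrank_of_injective hinj
  rw [Module.finrank_pi_fintype, Module.finrank_fin_fun] at h1
  simp only [(Polynomial.degreeLTEquiv Kb (L + 1)).finrank_eq, Module.finrank_fin_fun,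
    Finset.sum_const, Finset.card_univ, smul_eq_mul] at h1
  have h2 : (n + 1) * (L + 1) ≤ Fintype.card α * (L + 1) := Nat.mul_le_mul_right _ hlt
  have h3 : (n + 1) * (L + 1) ≤ (L + M1) * n + 1 := h2.trans h1
  nlinarith

theorem W7_coe_aeval_gen (N : ℕ) (p : Kb[X]) :
    (((Polynomial.aeval (AdjoinSimple.gen Kb (jBar N)) p : Kb⟮jBar N⟯) :
      modularFunctionFieldBar N) : LaurentSeries Kb) = Polynomial.aeval W7_jE p := by
  have e1 : ((Polynomial.aeval (AdjoinSimple.gen Kb (jBar N)) p : Kb⟮jBar N⟯) :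
      modularFunctionFieldBar N) = Polynomial.aeval (jBar N) p :=
    (Polynomial.aeval_algHom_apply (Kb⟮jBar N⟯).val (AdjoinSimple.gen Kb (jBar N)) p).symm
  have e2 : ((Polynomial.aeval (jBar N) p : modularFunctionFieldBar N) : LaurentSeries Kb) =
      Polynomial.aeval W7_jE p :=
    (Polynomial.aeval_algHom_apply (modularFunctionFieldBar N).val (jBar N) p).symm
  rw [e1, e2]

theorem W7_card_le (N : ℕ) [NeZero N] (s : Finset (modularFunctionFieldBar N))
    (hs : LinearIndependent Kb⟮jBar N⟯ (fun i : s => (i : modularFunctionFieldBar N))) :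
    s.card ≤ (Gamma0 N).index := by
  classical
  have hden : ∀ i : s, ∃ r t : LaurentSeries Kb, r ∈ Algebra.adjoin Kb (gensBar N) ∧
      t ∈ Algebra.adjoin Kb (gensBar N) ∧ t ≠ 0 ∧
      ((i : modularFunctionFieldBar N) : LaurentSeries Kb) * t = r := by
    intro i
    have hi : ((i : modularFunctionFieldBar N) : LaurentSeries Kb) ∈
        IntermediateField.adjoin Kb (gensBar N) := by
      rw [← bar_eq_adjoin]; exact (i : modularFunctionFieldBar N).2
    obtain ⟨r, hr, t, ht, e⟩ := IntermediateField.mem_adjoin_iff_div.mp hi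
    by_cases ht0 : t = 0
    · refine ⟨0, 1, zero_mem _, one_mem _, one_ne_zero, ?_⟩
      rw [e, ht0, div_zero, zero_mul]
    · exact ⟨r, t, hr, ht, ht0, by rw [e, div_mul_cancel₀ _ ht0]⟩
  choose r t hr ht ht0 hrt using hden
  set b := ∏ i, t i with hb
  have hb0 : b ≠ 0 := Finset.prod_ne_zero_iff.mpr fun i _ => ht0 i
  have key := W7_core N
    (fun i : s => ((i : modularFunctionFieldBar N) : LaurentSeries Kb) * b) ?_ ?_
  · simpa using key
  · intro i
    have h1 : b = t i * ∏ k ∈ Finset.univ.erase i, t k :=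
      (Finset.mul_prod_erase _ _ (Finset.mem_univ i)).symm
    show ((i : modularFunctionFieldBar N) : LaurentSeries Kb) * b ∈ _
    rw [h1, ← mul_assoc, hrt]
    exact mul_mem (hr i) (Subalgebra.prod_mem _ fun k _ => ht k)
  · intro P hP i
    have h1 : (∑ i : s, Polynomial.aeval W7_jE (P i) *
        ((i : modularFunctionFieldBar N) : LaurentSeries Kb)) = 0 := by
      have h : (∑ i : s, Polynomial.aeval W7_jE (P i) *
          ((i : modularFunctionFieldBar N) : LaurentSeries Kb)) * b = 0 := by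
        rw [Finset.sum_mul, ← hP]
        exact Finset.sum_congr rfl fun i _ => by ring
      exact (mul_eq_zero.mp h).resolve_right hb0
    have h2 : ∑ i : s, (Polynomial.aeval (AdjoinSimple.gen Kb (jBar N)) (P i) : Kb⟮jBar N⟯) •
        (i : modularFunctionFieldBar N) = 0 := by
      apply (modularFunctionFieldBar N).val.toRingHom.injective
      rw [map_sum, map_zero, ← h1]
      refine Finset.sum_congr rfl fun i _ => ?_
      rw [Algebra.smul_def, map_mul]
      congr 1
      exact W7_coe_aeval_gen N (P i)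
    have h3 := Fintype.linearIndependent_iff.mp hs _ h2 i
    apply transcendental_iff.mp W7_transcendental_jE
    rw [← W7_coe_aeval_gen N, h3]
    rfl

theorem finrank_le_index (N : ℕ) [NeZero N] :
    FiniteDimensional Kb⟮jBar N⟯ (modularFunctionFieldBar N) ∧
      Module.finrank Kb⟮jBar N⟯ (modularFunctionFieldBar N) ≤ (Gamma0 N).index := by
  have h := rank_le (R := Kb⟮jBar N⟯) (M := modularFunctionFieldBar N)
    (n := (Gamma0 N).index) (W7_card_le N)
  have hfree : Module.Free Kb⟮jBar N⟯ (modularFunctionFieldBar N) :=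
    Module.Free.of_divisionRing _ _
  exact ⟨Module.rank_lt_aleph0_iff.mp (h.trans_lt (Cardinal.natCast_lt_aleph0)),
    Module.finrank_le_of_rank_le h⟩

end

end Fermat.Agent.S24Lib
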