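import Mathlib
import Fermat.Prelude.Def_AlgebraicCurve_CanonicalDivisor

/-!
# S24 library: basic algebraic definitions (function fields in one variable)
-/

set_option autoImplicit false

open AlgebraicCurve IntermediateField

namespace Fermat.Agent.S24Lib

/-- `F/K` is a function field in one variable. -/
def IsFF (K F : Type*) [Field K] [Field F] [Algebra K F] : Prop :=
  ∃ x : F, Transcendental K x ∧ FiniteDimensional K⟮x⟯ F

/-- the set of places of `F/K` at which `y` vanishes -/
def zerosOf (K : Type*) {F : Type*} [Field K] [Field F] [Algebra K F] (y : F) :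
    Set (Place K F) :=
  {v | 0 < v.ord y}

theorem mem_zerosOf {K F : Type*} [Field K] [Field F] [Algebra K F] {y : F} {v : Place K F} :
    v ∈ zerosOf K y ↔ 0 < v.ord y := Iff.rfl

end Fermat.Agent.S24Lib
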