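import Fermat.Agent.S24.FormalLink
import Fermat.Agent.S24.AlgDefs

/-!
# S24 library, piece W6: the embedding of the function field into `Frac (WH (Γ₀(N)))`
-/

set_option autoImplicit false

open UpperHalfPlane ModularForm Matrix.SpecialLinearGroup CongruenceSubgroup ModularCurve
open AlgebraicCurve IntermediateField
open scoped MatrixGroups Manifold
open Fermat.Agent.S20Lib Fermat.Agent.S28Lib

namespace Fermat.Agent.S24Lib

noncomputable section

local notation "Kb" => AlgebraicClosure ℚ

variable {Γ : Subgroup SL(2, ℤ)} {f g : ℍ → ℂ}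

theorem W6_coeffEmb_algebraMap (c : ℚ) :
    coeffEmb Kb (algebraMap ℚ (LaurentSeries ℚ) c) =
      algebraMap Kb (LaurentSeries Kb) (algebraMap ℚ Kb c) := by
  rw [algebraMap_laurentSeries_eq_single, algebraMap_laurentSeries_eq_single, coeffEmb,
    coeffMap_single]

theorem bar_eq_adjoin (N : ℕ) [NeZero N] :
    modularFunctionFieldBar N = IntermediateField.adjoin Kb (gensBar N) := by
  apply le_antisymm
  · show IntermediateField.adjoin Kb _ ≤ _
    rw [IntermediateField.adjoin_le_iff]
    rintro _ ⟨x, hx, rfl⟩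
    have hx' : x ∈ IntermediateField.adjoin ℚ (divisorExpansions N) := hx
    show coeffEmb Kb x ∈ IntermediateField.adjoin Kb (gensBar N)
    induction hx' using IntermediateField.adjoin_induction with
    | mem y hy => exact IntermediateField.subset_adjoin _ _ ⟨y, hy, rfl⟩
    | algebraMap c =>
      rw [W6_coeffEmb_algebraMap]
      exact IntermediateField.algebraMap_mem _ _
    | add y z _ _ hy hz => rw [map_add]; exact add_mem (hy (by assumption)) (hz (by assumption))
    | inv y _ hy => rw [map_inv₀]; exact inv_mem (hy (by assumption))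
    | mul y z _ _ hy hz => rw [map_mul]; exact mul_mem (hy (by assumption)) (hz (by assumption))
  · apply IntermediateField.adjoin.mono
    rintro _ ⟨x, hx, rfl⟩
    exact ⟨x, IntermediateField.subset_adjoin _ _ hx, rfl⟩

theorem W6_coeffMap_iotaC_coeffEmb (x : LaurentSeries ℚ) :
    coeffMap iotaC (coeffEmb Kb x) = coeffMap (algebraMap ℚ ℂ) x := by
  rw [coeffEmb, coeffMap_coeffMap]
  exact coeffMap_congr (Subsingleton.elim _ _) x

theorem W6_coeffMap_iotaC_algebraMap (c : Kb) :
    coeffMap iotaC (algebraMap Kb (LaurentSeries Kb) c) = HahnSeries.C (iotaC c) := by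
  rw [algebraMap_laurentSeries_eq_single, coeffMap_single]
  rfl

theorem exists_isWH_of_mem_adjoin (N : ℕ) [NeZero N] (a : LaurentSeries Kb)
    (ha : a ∈ Algebra.adjoin Kb (gensBar N)) :
    ∃ g, IsWH (Gamma0 N) g ∧ laurentFun 1 g = coeffMap iotaC a := by
  induction ha using Algebra.adjoin_induction with
  | mem x hx =>
    obtain ⟨y, ⟨d, hne, hd, rfl⟩, rfl⟩ := hx
    exact ⟨janD d, isWH_janD hd, by rw [laurentFun_janD, W6_coeffMap_iotaC_coeffEmb]⟩
  | algebraMap c =>
    exact ⟨Function.const ℍ (iotaC c), isWH_const _, by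
      rw [laurentFun_const one_pos, W6_coeffMap_iotaC_algebraMap]⟩
  | add x y _ _ hx hy =>
    obtain ⟨g₁, h₁, e₁⟩ := hx
    obtain ⟨g₂, h₂, e₂⟩ := hy
    exact ⟨g₁ + g₂, h₁.add h₂, by
      rw [laurentFun_add one_pos h₁.isMerInf_one h₂.isMerInf_one, e₁, e₂, map_add]⟩
  | mul x y _ _ hx hy =>
    obtain ⟨g₁, h₁, e₁⟩ := hx
    obtain ⟨g₂, h₂, e₂⟩ := hy
    exact ⟨g₁ * g₂, h₁.mul h₂, by
      rw [laurentFun_mul one_pos h₁.isMerInf_one h₂.isMerInf_one, e₁, e₂, map_mul]⟩

/-- the `q`-expansion ring hom on weakly holomorphic functions -/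
def W6_laurHom (N : ℕ) : WH (Gamma0 N) →+* LaurentSeries ℂ where
  toFun g := laurentFun 1 (g : ℍ → ℂ)
  map_one' := by
    have := laurentFun_const (h := 1) one_pos 1
    rw [map_one] at this
    exact this
  map_zero' := by
    have := laurentFun_const (h := 1) one_pos 0
    rw [map_zero] at this
    exact this
  map_add' a b := laurentFun_add one_pos a.2.isMerInf_one b.2.isMerInf_one
  map_mul' a b := laurentFun_mul one_pos a.2.isMerInf_one b.2.isMerInf_one

theorem W6_laurHom_apply (N : ℕ) (g : WH (Gamma0 N)) :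
    W6_laurHom N g = laurentFun 1 (g : ℍ → ℂ) := rfl

theorem W6_laurHom_injective (N : ℕ) : Function.Injective (W6_laurHom N) := by
  rw [injective_iff_map_eq_zero]
  intro a ha
  exact Subtype.ext ((laurentFun_eq_zero_iff one_pos a.2.isMerInf_one).mp ha)

/-- the extension of `W6_laurHom` to the fraction field -/
def W6_laurFrac (N : ℕ) : FractionRing (WH (Gamma0 N)) →+* LaurentSeries ℂ :=
  IsFractionRing.lift (W6_laurHom_injective N)

theorem W6_laurFrac_algebraMap (N : ℕ) (g : WH (Gamma0 N)) :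
    W6_laurFrac N (algebraMap _ _ g) = laurentFun 1 (g : ℍ → ℂ) :=
  IsFractionRing.lift_algebraMap _ _

theorem W6_mem_fieldRange (N : ℕ) [NeZero N] (x : LaurentSeries Kb)
    (hx : x ∈ modularFunctionFieldBar N) : coeffMap iotaC x ∈ (W6_laurFrac N).fieldRange := by
  rw [bar_eq_adjoin] at hx
  induction hx using IntermediateField.adjoin_induction with
  | mem y hy =>
    obtain ⟨g, hg, e⟩ := exists_isWH_of_mem_adjoin N y (Algebra.subset_adjoin hy)
    exact ⟨algebraMap _ _ (⟨g, hg⟩ : WH (Gamma0 N)), by rw [W6_laurFrac_algebraMap, e]⟩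
  | algebraMap c =>
    obtain ⟨g, hg, e⟩ := exists_isWH_of_mem_adjoin N _
      (Subalgebra.algebraMap_mem (Algebra.adjoin Kb (gensBar N)) c)
    exact ⟨algebraMap _ _ (⟨g, hg⟩ : WH (Gamma0 N)), by rw [W6_laurFrac_algebraMap, e]⟩
  | add y z _ _ hy hz => rw [map_add]; exact add_mem hy hz
  | inv y _ hy => rw [map_inv₀]; exact inv_mem hy
  | mul y z _ _ hy hz => rw [map_mul]; exact mul_mem hy hz

/-- `Θ` -/
def W6_theta (N : ℕ) [NeZero N] : modularFunctionFieldBar N →+* FractionRing (WH (Gamma0 N)) :=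
  ((W6_laurFrac N).rangeRestrictFieldEquiv.symm : _ →+* _).comp
    (((coeffMap iotaC).comp (modularFunctionFieldBar N).val.toRingHom).codRestrict
      (W6_laurFrac N).fieldRange (fun x => W6_mem_fieldRange N x x.2))

theorem W6_laurFrac_theta (N : ℕ) [NeZero N] (x : modularFunctionFieldBar N) :
    W6_laurFrac N (W6_theta N x) = coeffMap iotaC (x : LaurentSeries Kb) := by
  have h := (W6_laurFrac N).rangeRestrictFieldEquiv.apply_symm_apply
    ((((coeffMap iotaC).comp (modularFunctionFieldBar N).val.toRingHom).codRestrict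
      (W6_laurFrac N).fieldRange (fun x => W6_mem_fieldRange N x x.2)) x)
  exact congrArg Subtype.val h

theorem exists_theta (N : ℕ) [NeZero N] :
    ∃ Θ : modularFunctionFieldBar N →+* FractionRing (WH (Gamma0 N)),
      (∀ a : Kb, Θ (algebraMap Kb (modularFunctionFieldBar N) a) =
        algebraMap (WH (Gamma0 N)) _ (whConst _ (iotaC a))) ∧
      (∀ (d : ℕ) [NeZero d] (hd : d ∣ N), Θ (jBarD N d hd) =
        algebraMap (WH (Gamma0 N)) _ ⟨janD d, isWH_janD hd⟩) := by
  refine ⟨W6_theta N, fun a => ?_, fun d _ hd => ?_⟩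
  · apply (W6_laurFrac N).injective
    rw [W6_laurFrac_theta, W6_laurFrac_algebraMap]
    have h1 : ((algebraMap Kb (modularFunctionFieldBar N) a : modularFunctionFieldBar N) :
        LaurentSeries Kb) = algebraMap Kb (LaurentSeries Kb) a := rfl
    rw [h1, W6_coeffMap_iotaC_algebraMap]
    exact (laurentFun_const one_pos _).symm
  · apply (W6_laurFrac N).injective
    rw [W6_laurFrac_theta, W6_laurFrac_algebraMap]
    show coeffMap iotaC (coeffEmb Kb (qExpand ℚ d jq)) = laurentFun 1 (janD d)
    rw [W6_coeffMap_iotaC_coeffEmb, laurentFun_janD]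

end

end Fermat.Agent.S24Lib
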