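import Fermat.Agent.S24.EmbCommon
import Fermat.Agent.S24.Theta
import Fermat.Agent.S24.Taylor

/-!
# S24, piece W8 : embeddings of the function field from Taylor expansions at `τ₀`
-/

set_option autoImplicit false

open UpperHalfPlane ModularForm Matrix.SpecialLinearGroup CongruenceSubgroup ModularCurve
open AlgebraicCurve IntermediateField
open scoped MatrixGroups Manifold
open Fermat.Agent.S20Lib Fermat.Agent.S28Lib

namespace Fermat.Agent.S24Lib

noncomputable section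

local notation "Kb" => AlgebraicClosure ℚ

namespace W8

variable {Γ : Subgroup SL(2, ℤ)}

lemma conj_const (c : ℂ) (x : SL(2, ℤ) ⧸ Γ) :
    conj Γ 0 (Function.const ℍ c) x = Function.const ℍ c := is_invariant_const _ c

lemma conj_eq_zero_iff (g : ℍ → ℂ) (x : SL(2, ℤ) ⧸ Γ) : conj Γ 0 g x = 0 ↔ g = 0 := by
  constructor
  · intro h
    have h1 : (conj Γ 0 g x) ∣[(0 : ℤ)] x.out = g := by
      unfold conj
      rw [← SlashAction.slash_mul]; simp
    rw [← h1, h, SlashAction.zero_slash]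
  · rintro rfl
    exact SlashAction.zero_slash _ _

/-- Taylor expansion at `τ₀` of the conjugate by `x`. -/
def EAt (Γ : Subgroup SL(2, ℤ)) (τ₀ : ℍ) (x : SL(2, ℤ) ⧸ Γ) : WH Γ →+* LaurentSeries ℂ where
  toFun g := HahnSeries.ofPowerSeries ℤ ℂ (taylorH (conj Γ 0 g.1 x) τ₀)
  map_one' := by
    have : ((1 : WH Γ) : ℍ → ℂ) = Function.const ℍ 1 := rfl
    rw [this, conj_const, taylorH_const, map_one, map_one]
  map_mul' a b := by
    have : ((a * b : WH Γ) : ℍ → ℂ) = a.1 * b.1 := rfl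
    rw [this, conj_mul (k := 0) (l := 0) (by norm_num), taylorH_mul (a.2.conj_holo x)
      (b.2.conj_holo x), map_mul]
  map_zero' := by
    have : ((0 : WH Γ) : ℍ → ℂ) = Function.const ℍ 0 := rfl
    rw [this, conj_const, taylorH_const, map_zero, map_zero]
  map_add' a b := by
    have : ((a + b : WH Γ) : ℍ → ℂ) = a.1 + b.1 := rfl
    rw [this, conj_add, taylorH_add (a.2.conj_holo x) (b.2.conj_holo x), map_add]

lemma EAt_apply (τ₀ : ℍ) (x : SL(2, ℤ) ⧸ Γ) (g : WH Γ) :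
    EAt Γ τ₀ x g = HahnSeries.ofPowerSeries ℤ ℂ (taylorH (conj Γ 0 g.1 x) τ₀) := rfl

lemma EAt_injective (τ₀ : ℍ) (x : SL(2, ℤ) ⧸ Γ) : Function.Injective (EAt Γ τ₀ x) := by
  rw [injective_iff_map_eq_zero]
  intro g hg
  rw [EAt_apply, ← map_zero (HahnSeries.ofPowerSeries ℤ ℂ)] at hg
  have h1 := HahnSeries.ofPowerSeries_injective hg
  rw [taylorH_eq_zero_iff (g.2.conj_holo x), conj_eq_zero_iff] at h1
  exact Subtype.ext h1

lemma taylor_ne_zero (τ₀ : ℍ) (x : SL(2, ℤ) ⧸ Γ) {g : WH Γ} (hg : g ≠ 0) :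
    taylorH (conj Γ 0 g.1 x) τ₀ ≠ 0 := by
  intro h1
  rw [taylorH_eq_zero_iff (g.2.conj_holo x), conj_eq_zero_iff] at h1
  exact hg (Subtype.ext h1)

lemma order_EAt (τ₀ : ℍ) (x : SL(2, ℤ) ⧸ Γ) {g : WH Γ} (hg : g ≠ 0) :
    (EAt Γ τ₀ x g).order = ((taylorH (conj Γ 0 g.1 x) τ₀).order.toNat : ℤ) := by
  rw [EAt_apply, Emb.order_ofPowerSeries (taylor_ne_zero τ₀ x hg)]

lemma order_EAt_smul (τ₀ : ℍ) (ε : SL(2, ℤ)) (hε : ε • τ₀ = τ₀) (x : SL(2, ℤ) ⧸ Γ) (g : WH Γ) :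
    (EAt Γ τ₀ (ε • x) g).order = (EAt Γ τ₀ x g).order := by
  by_cases hg : g = 0
  · rw [hg, map_zero, map_zero]
  rw [order_EAt τ₀ _ hg, order_EAt τ₀ _ hg]
  have h1 : conj Γ 0 g.1 (ε • x) = (conj Γ 0 g.1 x) ∣[(0 : ℤ)] ε⁻¹ := by
    rw [conj_slash g.2.inv, inv_inv]
  have h2 : ε⁻¹ • τ₀ = τ₀ := by
    conv_lhs => rw [← hε]
    rw [inv_smul_smul]
  rw [h1, order_taylorH_slash (g.2.conj_holo x), h2]

lemma pow_order_EAt (τ₀ : ℍ) (ε : SL(2, ℤ)) (hε : ε • τ₀ = τ₀) (x : SL(2, ℤ) ⧸ Γ)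
    (hx : ε • x = x) {g : WH Γ} (hg : g ≠ 0) :
    (denom ε τ₀ ^ 2) ^ (EAt Γ τ₀ x g).order = 1 := by
  rw [order_EAt τ₀ _ hg, zpow_natCast]
  apply pow_order_taylorH_eq_one (g.2.conj_holo x) _ ε τ₀ hε
  · rw [conj_slash g.2.inv]
    congr 1
    conv_lhs => rw [← hx]
    rw [inv_smul_smul]
  · intro h
    rw [conj_eq_zero_iff] at h
    exact hg (Subtype.ext h)

theorem exists_embeddings_at_of (N : ℕ) [NeZero N] (τ₀ : ℍ)
    (Θ : modularFunctionFieldBar N →+* FractionRing (WH (Gamma0 N)))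
    (hΘ1 : ∀ a : Kb, Θ (algebraMap Kb (modularFunctionFieldBar N) a) =
        algebraMap (WH (Gamma0 N)) _ (whConst _ (iotaC a)))
    (hΘ2 : ∀ (d : ℕ) [NeZero d] (hd : d ∣ N), Θ (jBarD N d hd) =
        algebraMap (WH (Gamma0 N)) _ ⟨janD d, isWH_janD hd⟩) :
    ∃ σ : (SL(2, ℤ) ⧸ Gamma0 N) → modularFunctionFieldBar N →+* LaurentSeries ℂ,
      Function.Injective σ ∧
      (∀ x (a : Kb), σ x (algebraMap Kb (modularFunctionFieldBar N) a) = HahnSeries.C (iotaC a)) ∧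
      (∀ x, σ x (jBar N) = HahnSeries.ofPowerSeries ℤ ℂ (taylorH jan τ₀)) ∧
      (∀ ε : SL(2, ℤ), ε • τ₀ = τ₀ → ∀ x f, (σ (ε • x) f).order = (σ x f).order) ∧
      (∀ ε : SL(2, ℤ), ε • τ₀ = τ₀ → ∀ x, ε • x = x → ∀ f, f ≠ 0 →
        (denom ε τ₀ ^ 2) ^ (σ x f).order = 1) := by
  refine ⟨fun x => (Emb.lift (EAt (Gamma0 N) τ₀ x) (EAt_injective τ₀ x)).comp Θ,
    ?_, ?_, ?_, ?_, ?_⟩
  · intro x y hxy
    have h1 := DFunLike.congr_fun hxy (jBarD N N dvd_rfl)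
    simp only [RingHom.comp_apply, hΘ2, Emb.lift_algebraMap, EAt_apply] at h1
    have h2 := HahnSeries.ofPowerSeries_injective h1
    apply conj_janD_injective N
    have hol := fun z => (isWH_janD (N := N) (d := N) dvd_rfl).conj_holo z
    have hc : MDiff (Function.const ℍ (-1 : ℂ)) := mdifferentiable_const
    -- the difference has zero Taylor series
    have h3 : taylorH (conj (Gamma0 N) 0 (janD N) x +
        Function.const ℍ (-1 : ℂ) * conj (Gamma0 N) 0 (janD N) y) τ₀ = 0 := by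
      rw [taylorH_add (hol x) (hc.mul (hol y)),
        taylorH_mul hc (hol y), taylorH_const, h2]
      simp
    rw [taylorH_eq_zero_iff ((hol x).add (hc.mul (hol y)))] at h3
    funext τ
    have h4 := congrFun h3 τ
    simp only [Pi.add_apply, Pi.mul_apply, Function.const_apply, Pi.zero_apply] at h4
    linear_combination h4
  · intro x a
    simp only [RingHom.comp_apply, hΘ1, Emb.lift_algebraMap, EAt_apply]
    have : ((whConst (Gamma0 N) (iotaC a) : WH (Gamma0 N)) : ℍ → ℂ)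
        = Function.const ℍ (iotaC a) := rfl
    rw [this, conj_const, taylorH_const, HahnSeries.ofPowerSeries_C]
  · intro x
    have h1 : jBar N = jBarD N 1 (one_dvd N) := rfl
    simp only [RingHom.comp_apply, h1, hΘ2, Emb.lift_algebraMap, EAt_apply]
    congr 2
    rw [janD_one]
    exact isWH_jan.inv _ trivial
  · intro ε hε x f
    simp only [RingHom.comp_apply]
    exact Emb.order_lift_eq _ _ _ _ (order_EAt_smul τ₀ ε hε x) _
  · intro ε hε x hx f hf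
    simp only [RingHom.comp_apply]
    have hden : denom ε τ₀ ^ 2 ≠ 0 := pow_ne_zero _ (denom_ne_zero _ _)
    refine Emb.order_lift_prop _ _ (fun m => (denom ε τ₀ ^ 2) ^ m = 1) ?_
      (fun g hg => pow_order_EAt τ₀ ε hε x hx hg) _ ?_
    · intro m n hm hn
      rw [zpow_sub₀ hden, hm, hn, div_one]
    · intro h
      exact hf (Θ.injective (by rw [h, map_zero]))

end W8

/-- (W8) -/
theorem exists_embeddings_at (N : ℕ) [NeZero N] (τ₀ : ℍ) :
    ∃ σ : (SL(2, ℤ) ⧸ Gamma0 N) → modularFunctionFieldBar N →+* LaurentSeries ℂ,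
      Function.Injective σ ∧
      (∀ x (a : Kb), σ x (algebraMap Kb (modularFunctionFieldBar N) a) = HahnSeries.C (iotaC a)) ∧
      (∀ x, σ x (jBar N) = HahnSeries.ofPowerSeries ℤ ℂ (taylorH jan τ₀)) ∧
      (∀ ε : SL(2, ℤ), ε • τ₀ = τ₀ → ∀ x f, (σ (ε • x) f).order = (σ x f).order) ∧
      (∀ ε : SL(2, ℤ), ε • τ₀ = τ₀ → ∀ x, ε • x = x → ∀ f, f ≠ 0 →
        (denom ε τ₀ ^ 2) ^ (σ x f).order = 1) := by
  obtain ⟨Θ, h1, h2⟩ := exists_theta N
  exact W8.exists_embeddings_at_of N τ₀ Θ h1 h2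

end

end Fermat.Agent.S24Lib
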