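import Fermat.Agent.S24.AnDefs
import Fermat.Agent.S28.QI
import Fermat.Agent.S28.Bridge

/-!
# S24, piece (W1): Laurent expansions at `i∞`
-/

set_option autoImplicit false

open UpperHalfPlane ModularForm Matrix.SpecialLinearGroup ModularCurve
open scoped MatrixGroups Manifold
open Fermat.Agent.S20Lib Fermat.Agent.S28Lib

namespace Fermat.Agent.S24Lib

noncomputable section

variable {f g : ℍ → ℂ} {h : ℕ}

local notation "ι" => HahnSeries.ofPowerSeries ℤ ℂ
local notation "𝕢" => Function.Periodic.qParam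

/-! ### auxiliary -/

lemma W1_per_Dl (h : ℕ) : Function.Periodic (Dl ∘ ofComplex) (h : ℂ) := by
  have h1 : Function.Periodic (Dl ∘ ofComplex) ((1 : ℝ) : ℂ) :=
    SlashInvariantFormClass.periodic_comp_ofComplex CuspForm.discriminant
      one_mem_strictPeriods_SL
  simpa using h1.nat_mul h

lemma W1_bdd_Dl : IsBoundedAtImInfty Dl := by simpa using isMF_Dl.bdd 1

lemma W1_qi_Dl (h : ℕ) : QI ⊤ h Dl :=
  ⟨W1_per_Dl h, isMF_Dl.holo, W1_bdd_Dl, fun _ => Subring.mem_top _⟩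

lemma W1_qi (hg : IsMerInf h g) {M : ℕ} (hM : IsBoundedAtImInfty (g * Dl ^ M)) :
    QI ⊤ h (g * Dl ^ M) where
  per := by
    have h2 : Function.Periodic ((Dl ^ M) ∘ ofComplex) (h : ℂ) := by
      intro w
      have := W1_per_Dl h w
      simp only [Function.comp_apply, Pi.pow_apply] at this ⊢
      rw [this]
    exact hg.per.mul h2
  holo := hg.holo.mul (isMF_Dl.holo.pow M)
  bdd := hM
  int _ := Subring.mem_top _

lemma W1_bdd_add {M : ℕ} (hM : IsBoundedAtImInfty (g * Dl ^ M)) (k : ℕ) :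
    IsBoundedAtImInfty (g * Dl ^ (M + k)) := by
  rw [pow_add, ← mul_assoc]
  exact hM.mul (isBoundedAtImInfty_Dl_pow k)

lemma W1_bdd_of_le {M M' : ℕ} (hM : IsBoundedAtImInfty (g * Dl ^ M)) (hle : M ≤ M') :
    IsBoundedAtImInfty (g * Dl ^ M') := by
  obtain ⟨k, rfl⟩ := Nat.exists_eq_add_of_le hle
  exact W1_bdd_add hM k

lemma W1_qExp_pow (hh : 0 < h) {u : ℍ → ℂ} (hu : QI ⊤ h u) (k : ℕ) :
    qExpansion h (u ^ k) = qExpansion h u ^ k := by
  induction k with
  | zero => rw [pow_zero, pow_zero, qExpansion_one]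
  | succ k ih =>
    rw [pow_succ, pow_succ, qExpansion_mul ((hu.pow hh k).analytic hh) (hu.analytic hh), ih]

lemma W1_qExp_ne_zero (hh : 0 < h) : qExpansion h Dl ≠ 0 := by
  intro h0
  have hq := W1_qi_Dl h
  have := (qExpansion_eq_zero_iff (by exact_mod_cast hh) hq.per' hq.holo hq.bdd).1 h0
  exact Dl_ne_zero I (congrFun this I)

lemma W1_iota_injective : Function.Injective (ι) := HahnSeries.ofPowerSeries_injective

lemma W1_d_ne_zero (hh : 0 < h) : ι (qExpansion h Dl) ≠ 0 := by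
  intro h0
  exact W1_qExp_ne_zero hh (W1_iota_injective (by rw [h0, map_zero]))

lemma W1_qExp_mul_pow (hh : 0 < h) (hg : IsMerInf h g) {m : ℕ}
    (hm : IsBoundedAtImInfty (g * Dl ^ m)) (k : ℕ) :
    qExpansion h (g * Dl ^ (m + k)) = qExpansion h (g * Dl ^ m) * qExpansion h Dl ^ k := by
  rw [pow_add, ← mul_assoc, qExpansion_mul ((W1_qi hg hm).analytic hh)
    (((W1_qi_Dl h).pow hh k).analytic hh), W1_qExp_pow hh (W1_qi_Dl h)]

/-! ### the statements -/

theorem isMerInf_const (h : ℕ) (c : ℂ) : IsMerInf h (Function.const ℍ c) where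
  holo := mdifferentiable_const
  per := fun _ => rfl
  bdd := ⟨0, by
    rw [pow_zero, mul_one]
    exact Filter.const_boundedAtFilter _ c⟩

theorem IsMerInf.add (hf : IsMerInf h f) (hg : IsMerInf h g) : IsMerInf h (f + g) where
  holo := hf.holo.add hg.holo
  per := hf.per.add hg.per
  bdd := by
    obtain ⟨M₁, h₁⟩ := hf.bdd
    obtain ⟨M₂, h₂⟩ := hg.bdd
    refine ⟨max M₁ M₂, ?_⟩
    rw [add_mul]
    exact (W1_bdd_of_le h₁ (le_max_left _ _)).add (W1_bdd_of_le h₂ (le_max_right _ _))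

theorem IsMerInf.mul (hf : IsMerInf h f) (hg : IsMerInf h g) : IsMerInf h (f * g) where
  holo := hf.holo.mul hg.holo
  per := hf.per.mul hg.per
  bdd := by
    obtain ⟨M₁, h₁⟩ := hf.bdd
    obtain ⟨M₂, h₂⟩ := hg.bdd
    refine ⟨M₁ + M₂, ?_⟩
    rw [pow_add, mul_mul_mul_comm]
    exact h₁.mul h₂

theorem isMerInf_Dl (h : ℕ) : IsMerInf h Dl where
  holo := isMF_Dl.holo
  per := W1_per_Dl h
  bdd := ⟨0, by rw [pow_zero, mul_one]; exact W1_bdd_Dl⟩

theorem laurentFun_mul_pow (hh : 0 < h) (hg : IsMerInf h g) {M : ℕ}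
    (hM : IsBoundedAtImInfty (g * Dl ^ M)) :
    laurentFun h g * (HahnSeries.ofPowerSeries ℤ ℂ (qExpansion h Dl)) ^ M =
      HahnSeries.ofPowerSeries ℤ ℂ (qExpansion h (g * Dl ^ M)) := by
  classical
  have hex : ∃ M : ℕ, IsBoundedAtImInfty (g * Dl ^ M) := ⟨M, hM⟩
  rw [laurentFun, dif_pos hex]
  have hm : IsBoundedAtImInfty (g * Dl ^ (Nat.find hex)) := Nat.find_spec hex
  have hle : Nat.find hex ≤ M := Nat.find_min' hex hM
  obtain ⟨k, hk⟩ := Nat.exists_eq_add_of_le hle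
  have hd := W1_d_ne_zero hh
  conv_rhs => rw [hk, W1_qExp_mul_pow hh hg hm k, map_mul, map_pow]
  conv_lhs => rw [hk, pow_add]
  field_simp

theorem laurentFun_of_bdd (hh : 0 < h) (hg : IsMerInf h g) (hb : IsBoundedAtImInfty g) :
    laurentFun h g = HahnSeries.ofPowerSeries ℤ ℂ (qExpansion h g) := by
  have := laurentFun_mul_pow hh hg (M := 0) (by rwa [pow_zero, mul_one])
  rwa [pow_zero, mul_one, pow_zero, mul_one] at this

lemma W1_qExp_const (hh : 0 < h) (c : ℂ) :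
    qExpansion h (Function.const ℍ c) = PowerSeries.C c := by
  have h1 : (Function.const ℍ c) = c • (1 : ℍ → ℂ) := by
    ext τ; simp
  have h2 : QI ⊤ h (1 : ℍ → ℂ) := QI.const hh (Subring.mem_top (1 : ℂ))
  rw [h1, qExpansion_smul (h2.analytic hh), qExpansion_one, PowerSeries.smul_eq_C_mul, mul_one]

theorem laurentFun_const (hh : 0 < h) (c : ℂ) :
    laurentFun h (Function.const ℍ c) = HahnSeries.C c := by
  rw [laurentFun_of_bdd hh (isMerInf_const h c) (Filter.const_boundedAtFilter _ c),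
    W1_qExp_const hh, HahnSeries.ofPowerSeries_C]

theorem laurentFun_add (hh : 0 < h) (hf : IsMerInf h f) (hg : IsMerInf h g) :
    laurentFun h (f + g) = laurentFun h f + laurentFun h g := by
  obtain ⟨M₁, h₁⟩ := hf.bdd
  obtain ⟨M₂, h₂⟩ := hg.bdd
  have b₁ := W1_bdd_of_le h₁ (le_max_left M₁ M₂)
  have b₂ := W1_bdd_of_le h₂ (le_max_right M₁ M₂)
  have b₃ : IsBoundedAtImInfty ((f + g) * Dl ^ (max M₁ M₂)) := by
    rw [add_mul]; exact b₁.add b₂
  apply mul_right_cancel₀ (pow_ne_zero (max M₁ M₂) (W1_d_ne_zero hh))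
  rw [add_mul, laurentFun_mul_pow hh (hf.add hg) b₃, laurentFun_mul_pow hh hf b₁,
    laurentFun_mul_pow hh hg b₂, add_mul,
    qExpansion_add ((W1_qi hf b₁).analytic hh) ((W1_qi hg b₂).analytic hh), map_add]

theorem laurentFun_mul (hh : 0 < h) (hf : IsMerInf h f) (hg : IsMerInf h g) :
    laurentFun h (f * g) = laurentFun h f * laurentFun h g := by
  obtain ⟨M₁, h₁⟩ := hf.bdd
  obtain ⟨M₂, h₂⟩ := hg.bdd
  have b₃ : IsBoundedAtImInfty ((f * g) * Dl ^ (M₁ + M₂)) := by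
    rw [pow_add, mul_mul_mul_comm]; exact h₁.mul h₂
  apply mul_right_cancel₀ (pow_ne_zero (M₁ + M₂) (W1_d_ne_zero hh))
  rw [laurentFun_mul_pow hh (hf.mul hg) b₃, pow_add, mul_mul_mul_comm,
    qExpansion_mul ((W1_qi hf h₁).analytic hh) ((W1_qi hg h₂).analytic hh), map_mul,
    pow_add, mul_mul_mul_comm, laurentFun_mul_pow hh hf h₁, laurentFun_mul_pow hh hg h₂]

theorem laurentFun_eq_zero_iff (hh : 0 < h) (hg : IsMerInf h g) : laurentFun h g = 0 ↔ g = 0 := by
  obtain ⟨M, hM⟩ := hg.bdd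
  have hq := W1_qi hg hM
  have key := laurentFun_mul_pow hh hg hM
  constructor
  · intro h0
    rw [h0, zero_mul] at key
    have h1 : qExpansion h (g * Dl ^ M) = 0 := W1_iota_injective (by rw [← key, map_zero])
    have h2 := (qExpansion_eq_zero_iff (by exact_mod_cast hh) hq.per' hq.holo hq.bdd).1 h1
    ext τ
    have h3 := congrFun h2 τ
    simp only [Pi.mul_apply, Pi.pow_apply, Pi.zero_apply, mul_eq_zero] at h3
    exact h3.resolve_right (pow_ne_zero _ (Dl_ne_zero τ))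
  · rintro rfl
    rw [zero_mul, qExpansion_zero, map_zero] at key
    exact (mul_eq_zero.1 key).resolve_right (pow_ne_zero _ (W1_d_ne_zero hh))

/-! ### orders -/

lemma W1_order_eq {x : LaurentSeries ℂ} {n : ℤ} (h1 : x.coeff n ≠ 0)
    (h2 : ∀ m < n, x.coeff m = 0) : x.order = n := by
  have hx : x ≠ 0 := HahnSeries.ne_zero_of_coeff_ne_zero h1
  refine le_antisymm (HahnSeries.order_le_of_coeff_ne_zero h1) ?_
  by_contra hlt
  rw [not_le] at hlt
  exact hx (HahnSeries.coeff_order_eq_zero.1 (h2 _ hlt))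

lemma W1_order_congr {x x' : LaurentSeries ℂ} (hxx : ∀ m, x'.coeff m = 0 ↔ x.coeff m = 0) :
    x'.order = x.order := by
  by_cases hx : x = 0
  · have : x' = 0 := by
      ext m
      rw [HahnSeries.coeff_zero, hxx, hx, HahnSeries.coeff_zero]
    rw [this, hx]
  · refine W1_order_eq (fun h0 => hx (HahnSeries.coeff_order_eq_zero.1 ((hxx _).1 h0)))
      (fun m hm => (hxx m).2 (HahnSeries.coeff_eq_zero_of_lt_order hm))

lemma W1_coeff_Dl (hh : 0 < h) (n : ℕ) :
    (qExpansion h Dl).coeff n = if h ∣ n then (qExpansion 1 Dl).coeff (n / h) else 0 := by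
  have hq := W1_qi_Dl 1
  have := UpperHalfPlane.qExpansion_coeff_nat_mul (h := 1) one_pos (F := Dl)
    (by simpa using hq.per') hq.holo hq.bdd hh n
  rwa [mul_one] at this

lemma W1_order_d (hh : 0 < h) : (ι (qExpansion h Dl)).order = h := by
  have hD : qExpansion 1 Dl = (PowerSeries.X * dedekindEtaUnit).map (Int.castRingHom ℂ) :=
    qExpansion_Delta
  refine W1_order_eq ?_ ?_
  · rw [HahnSeries.ofPowerSeries_apply_coeff, W1_coeff_Dl hh, if_pos dvd_rfl, Nat.div_self hh, hD,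
      PowerSeries.coeff_map, show (1 : ℕ) = 0 + 1 from rfl, PowerSeries.coeff_succ_X_mul,
      PowerSeries.coeff_zero_eq_constantCoeff_apply, constantCoeff_dedekindEtaUnit]
    simp
  · intro m hm
    rcases lt_or_ge m 0 with hm0 | hm0
    · exact ofPowerSeries_coeff_of_neg _ hm0
    · lift m to ℕ using hm0
      have hm' : m < h := by exact_mod_cast hm
      rw [HahnSeries.ofPowerSeries_apply_coeff, W1_coeff_Dl hh]
      split_ifs with hd
      · have : m = 0 := Nat.eq_zero_of_dvd_of_lt hd hm'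
        rw [this, Nat.zero_div, hD, PowerSeries.coeff_map, PowerSeries.coeff_zero_X_mul, map_zero]
      · rfl

theorem order_laurentFun_Dl (hh : 0 < h) : (laurentFun h Dl).order = h := by
  rw [laurentFun_of_bdd hh (isMerInf_Dl h) W1_bdd_Dl, W1_order_d hh]

lemma W1_order_laurentFun (hh : 0 < h) (hg : IsMerInf h g) (hg0 : g ≠ 0) {M : ℕ}
    (hM : IsBoundedAtImInfty (g * Dl ^ M)) :
    (laurentFun h g).order + M * h = (ι (qExpansion h (g * Dl ^ M))).order := by
  have hL : laurentFun h g ≠ 0 := fun h0 => hg0 ((laurentFun_eq_zero_iff hh hg).1 h0)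
  rw [← laurentFun_mul_pow hh hg hM, HahnSeries.order_mul hL (pow_ne_zero _ (W1_d_ne_zero hh)),
    HahnSeries.order_pow, W1_order_d hh]
  simp

lemma W1_mdiff_vadd {u : ℍ → ℂ} (hu : MDiff u) (x : ℝ) : MDiff (fun τ : ℍ => u (x +ᵥ τ)) := by
  rw [mdifferentiable_iff] at hu ⊢
  have h1 : DifferentiableOn ℂ ((u ∘ ofComplex) ∘ (fun z : ℂ => (x : ℂ) + z)) {z | 0 < z.im} := by
    refine hu.comp (by fun_prop) ?_
    intro z hz
    simpa using hz
  refine h1.congr fun z hz => ?_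
  have hz' : 0 < ((x : ℂ) + z).im := by simpa using hz
  simp only [Function.comp_apply, ofComplex_apply_of_im_pos hz, ofComplex_apply_of_im_pos hz']
  congr 1

lemma W1_qParam_vadd (h : ℕ) (k : ℤ) (τ : ℍ) :
    𝕢 h (((k : ℝ) +ᵥ τ : ℍ) : ℂ) = Complex.exp (2 * Real.pi * Complex.I * k / h) * 𝕢 h (τ : ℂ) := by
  simp only [Function.Periodic.qParam, coe_vadd]
  rw [← Complex.exp_add]
  congr 1
  push_cast
  ring

lemma W1_vadd (hh : 0 < h) {u : ℍ → ℂ} (hu : QI ⊤ h u) (k : ℤ) :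
    QI ⊤ h (fun τ : ℍ => u ((k : ℝ) +ᵥ τ)) ∧
      ∀ n, (qExpansion h (fun τ : ℍ => u ((k : ℝ) +ᵥ τ))).coeff n =
        (qExpansion h u).coeff n * Complex.exp (2 * Real.pi * Complex.I * k / h) ^ n := by
  have hs : ∀ τ : ℍ, HasSum (fun m => ((qExpansion h u).coeff m *
      Complex.exp (2 * Real.pi * Complex.I * k / h) ^ m) • 𝕢 h (τ : ℂ) ^ m)
      (u ((k : ℝ) +ᵥ τ)) := by
    intro τ
    have := hu.hasSum hh ((k : ℝ) +ᵥ τ)
    rw [W1_qParam_vadd h] at this
    convert this using 2 with m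
    simp only [smul_eq_mul, mul_pow]
    ring
  have hq : QI ⊤ h (fun τ : ℍ => u ((k : ℝ) +ᵥ τ)) :=
    QI.of_hasSum hh (W1_mdiff_vadd hu.holo k) (fun _ => Subring.mem_top _) hs
  exact ⟨hq, fun n => (QIAux.coeff_unique (by exact_mod_cast hh) (hq.analytic hh) hs n).symm⟩

lemma W1_Dl_vadd (k : ℤ) (τ : ℍ) : Dl ((k : ℝ) +ᵥ τ) = Dl τ := by
  have h1 : Function.Periodic (Dl ∘ ofComplex) ((1 : ℝ) : ℂ) :=
    SlashInvariantFormClass.periodic_comp_ofComplex CuspForm.discriminant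
      one_mem_strictPeriods_SL
  have h2 := (h1.int_mul k) (τ : ℂ)
  simp only [Function.comp_apply, ofComplex_apply] at h2
  rw [← h2]
  have h3 : ((τ : ℂ) + (k : ℂ) * ((1 : ℝ) : ℂ)) = (((k : ℝ) +ᵥ τ : ℍ) : ℂ) := by
    rw [coe_vadd]; push_cast; ring
  rw [h3, ofComplex_apply]

lemma W1_isMerInf_vadd (hh : 0 < h) (hg : IsMerInf h g) (k : ℤ) :
    IsMerInf h (fun τ => g ((k : ℝ) +ᵥ τ)) := by
  obtain ⟨M, hM⟩ := hg.bdd
  have hq := (W1_vadd hh (W1_qi hg hM) k).1
  have he : (fun τ : ℍ => (g * Dl ^ M) ((k : ℝ) +ᵥ τ)) = (fun τ => g ((k : ℝ) +ᵥ τ)) * Dl ^ M := by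
    ext τ
    simp [W1_Dl_vadd]
  refine ⟨W1_mdiff_vadd hg.holo k, ?_, ⟨M, he ▸ hq.bdd⟩⟩
  intro w
  by_cases hw : 0 < w.im
  · have hw' : 0 < (w + (h : ℂ)).im := by simpa using hw
    have hp := hg.per ((k : ℂ) + w)
    have hw1 : 0 < ((k : ℂ) + w).im := by simpa using hw
    have hw2 : 0 < ((k : ℂ) + w + (h : ℂ)).im := by simpa using hw
    simp only [Function.comp_apply, ofComplex_apply_of_im_pos hw', ofComplex_apply_of_im_pos hw,
      ofComplex_apply_of_im_pos hw1, ofComplex_apply_of_im_pos hw2] at hp ⊢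
    convert hp using 2
    · ext; simp [coe_vadd]; ring
    · ext; simp [coe_vadd]
  · have hw1 : w.im ≤ 0 := not_lt.mp hw
    have hw' : (w + (h : ℂ)).im ≤ 0 := by simpa using hw1
    simp only [Function.comp_apply, ofComplex_apply_of_im_nonpos hw',
      ofComplex_apply_of_im_nonpos hw1]

/-- translation by an integer does not change the order at `i∞` -/
theorem order_laurentFun_vadd (hh : 0 < h) (hg : IsMerInf h g) (k : ℤ) :
    (laurentFun h (fun τ => g ((k : ℝ) +ᵥ τ))).order = (laurentFun h g).order := by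
  by_cases hg0 : g = 0
  · subst hg0; rfl
  obtain ⟨M, hM⟩ := hg.bdd
  obtain ⟨hq, hc⟩ := W1_vadd hh (W1_qi hg hM) k
  have he : (fun τ : ℍ => (g * Dl ^ M) ((k : ℝ) +ᵥ τ)) = (fun τ => g ((k : ℝ) +ᵥ τ)) * Dl ^ M := by
    ext τ
    simp [W1_Dl_vadd]
  have hg' := W1_isMerInf_vadd hh hg k
  have hg0' : (fun τ => g ((k : ℝ) +ᵥ τ)) ≠ 0 := by
    intro h0
    apply hg0
    ext τ
    have := congrFun h0 ((-k : ℝ) +ᵥ τ)
    simpa [vadd_vadd] using this
  have h1 := W1_order_laurentFun hh hg hg0 hM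
  have h2 := W1_order_laurentFun hh hg' hg0' (M := M) (he ▸ hq.bdd)
  have h3 : (ι (qExpansion h ((fun τ => g ((k : ℝ) +ᵥ τ)) * Dl ^ M))).order
      = (ι (qExpansion h (g * Dl ^ M))).order := by
    apply W1_order_congr
    intro m
    rcases lt_or_ge m 0 with hm0 | hm0
    · rw [ofPowerSeries_coeff_of_neg _ hm0, ofPowerSeries_coeff_of_neg _ hm0]
    · lift m to ℕ using hm0
      rw [HahnSeries.ofPowerSeries_apply_coeff, HahnSeries.ofPowerSeries_apply_coeff, ← he, hc]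
      simp [Complex.exp_ne_zero]
  omega

/-- a `k`-periodic function has its `exp(2πiτ/h)`-expansion supported on `{n | h ∣ k n}` -/
theorem dvd_mul_order_laurentFun (hh : 0 < h) (hg : IsMerInf h g) (k : ℤ)
    (hk : ∀ τ, g ((k : ℝ) +ᵥ τ) = g τ) : (h : ℤ) ∣ k * (laurentFun h g).order := by
  by_cases hg0 : g = 0
  · subst hg0
    have : laurentFun h (0 : ℍ → ℂ) = 0 := (laurentFun_eq_zero_iff hh hg).2 rfl
    rw [this]; simp
  obtain ⟨M, hM⟩ := hg.bdd
  have hqu := W1_qi hg hM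
  obtain ⟨hq, hc⟩ := W1_vadd hh hqu k
  have he : (fun τ : ℍ => (g * Dl ^ M) ((k : ℝ) +ᵥ τ)) = g * Dl ^ M := by
    ext τ
    simp [W1_Dl_vadd, hk]
  rw [he] at hc
  have h1 := W1_order_laurentFun hh hg hg0 hM
  set p := qExpansion h (g * Dl ^ M) with hp
  have hp0 : ι p ≠ 0 := by
    rw [← laurentFun_mul_pow hh hg hM]
    exact mul_ne_zero (fun h0 => hg0 ((laurentFun_eq_zero_iff hh hg).1 h0))
      (pow_ne_zero _ (W1_d_ne_zero hh))
  have hco : (ι p).coeff (ι p).order ≠ 0 := fun h0 => hp0 (HahnSeries.coeff_order_eq_zero.1 h0)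
  have hnn : 0 ≤ (ι p).order := by
    by_contra hlt
    rw [not_le] at hlt
    exact hco (ofPowerSeries_coeff_of_neg _ hlt)
  obtain ⟨m0, hm0⟩ := Int.eq_ofNat_of_zero_le hnn
  rw [hm0, HahnSeries.ofPowerSeries_apply_coeff] at hco
  have hw : Complex.exp (2 * Real.pi * Complex.I * k / h) ^ m0 = 1 := by
    have := hc m0
    have h2 : p.coeff m0 * 1 = p.coeff m0 * Complex.exp (2 * Real.pi * Complex.I * k / h) ^ m0 := by
      rw [mul_one]; exact this
    exact (mul_left_cancel₀ hco h2).symm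
  rw [← Complex.exp_nat_mul, Complex.exp_eq_one_iff] at hw
  obtain ⟨t, ht⟩ := hw
  have hhC : (h : ℂ) ≠ 0 := by exact_mod_cast hh.ne'
  have hpi : (2 * Real.pi * Complex.I : ℂ) ≠ 0 := Complex.two_pi_I_ne_zero
  have h3 : (k : ℂ) * m0 = h * t := by
    field_simp at ht
    linear_combination ht
  have h4 : k * (m0 : ℤ) = h * t := by exact_mod_cast h3
  have h5 : (laurentFun h g).order = m0 - M * h := by omega
  rw [h5, mul_sub, h4]
  exact Dvd.dvd.sub (Dvd.intro _ rfl) ⟨k * M, by ring⟩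

end

end Fermat.Agent.S24Lib
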