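import Fermat.Agent.S24.EmbCommon
import Fermat.Agent.S24.Theta
import Fermat.Agent.S24.Laurent

/-!
# S24, piece W9 : embeddings of the function field from Laurent expansions at `i∞`
-/

set_option autoImplicit false

open UpperHalfPlane ModularForm Matrix.SpecialLinearGroup CongruenceSubgroup ModularCurve
open AlgebraicCurve IntermediateField
open scoped MatrixGroups Manifold
open Fermat.Agent.S20Lib Fermat.Agent.S28Lib

namespace Fermat.Agent.S24Lib

noncomputable section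

local notation "Kb" => AlgebraicClosure ℚ

namespace W9

variable {Γ : Subgroup SL(2, ℤ)}

lemma conj_const (c : ℂ) (x : SL(2, ℤ) ⧸ Γ) :
    conj Γ 0 (Function.const ℍ c) x = Function.const ℍ c := is_invariant_const _ c

lemma conj_eq_zero_iff (g : ℍ → ℂ) (x : SL(2, ℤ) ⧸ Γ) : conj Γ 0 g x = 0 ↔ g = 0 := by
  constructor
  · intro h
    have h1 : (conj Γ 0 g x) ∣[(0 : ℤ)] x.out = g := by
      unfold conj
      rw [← SlashAction.slash_mul]; simp
    rw [← h1, h, SlashAction.zero_slash]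
  · rintro rfl
    exact SlashAction.zero_slash _ _

lemma slash_T_zpow_apply (g : ℍ → ℂ) (n : ℤ) (τ : ℍ) :
    (g ∣[(0 : ℤ)] (ModularGroup.T ^ n)) τ = g ((n : ℝ) +ᵥ τ) := by
  rw [SL_slash_apply, modular_T_zpow_smul]; simp

variable {N : ℕ}

/-- Laurent expansion at `i∞` of the conjugate by `x`. -/
def EInf (hN : 0 < N) (hΓ : Gamma N ≤ Γ) (x : SL(2, ℤ) ⧸ Γ) : WH Γ →+* LaurentSeries ℂ where
  toFun g := laurentFun N (conj Γ 0 g.1 x)
  map_one' := by
    have : ((1 : WH Γ) : ℍ → ℂ) = Function.const ℍ 1 := rfl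
    rw [this, conj_const, laurentFun_const hN, map_one]
  map_mul' a b := by
    have : ((a * b : WH Γ) : ℍ → ℂ) = a.1 * b.1 := rfl
    rw [this, conj_mul (k := 0) (l := 0) (by norm_num), laurentFun_mul hN (a.2.isMerInf_conj hΓ x)
      (b.2.isMerInf_conj hΓ x)]
  map_zero' := by
    have : ((0 : WH Γ) : ℍ → ℂ) = Function.const ℍ 0 := rfl
    rw [this, conj_const, laurentFun_const hN, map_zero]
  map_add' a b := by
    have : ((a + b : WH Γ) : ℍ → ℂ) = a.1 + b.1 := rfl
    rw [this, conj_add, laurentFun_add hN (a.2.isMerInf_conj hΓ x) (b.2.isMerInf_conj hΓ x)]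

lemma EInf_apply (hN : 0 < N) (hΓ : Gamma N ≤ Γ) (x : SL(2, ℤ) ⧸ Γ) (g : WH Γ) :
    EInf hN hΓ x g = laurentFun N (conj Γ 0 g.1 x) := rfl

lemma EInf_injective (hN : 0 < N) (hΓ : Gamma N ≤ Γ) (x : SL(2, ℤ) ⧸ Γ) :
    Function.Injective (EInf hN hΓ x) := by
  rw [injective_iff_map_eq_zero]
  intro g hg
  rw [EInf_apply, laurentFun_eq_zero_iff hN (g.2.isMerInf_conj hΓ x), conj_eq_zero_iff] at hg
  exact Subtype.ext hg

lemma order_EInf_T (hN : 0 < N) (hΓ : Gamma N ≤ Γ) (x : SL(2, ℤ) ⧸ Γ) (g : WH Γ) :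
    (EInf hN hΓ (ModularGroup.T • x) g).order = (EInf hN hΓ x g).order := by
  rw [EInf_apply, EInf_apply]
  have h1 : conj Γ 0 g.1 (ModularGroup.T • x)
      = fun τ => conj Γ 0 g.1 x ((((-1 : ℤ)) : ℝ) +ᵥ τ) := by
    funext τ
    rw [← slash_T_zpow_apply (conj Γ 0 g.1 x), conj_slash g.2.inv]
    simp
  rw [h1, order_laurentFun_vadd hN (g.2.isMerInf_conj hΓ x)]

lemma dvd_order_EInf (hN : 0 < N) (hΓ : Gamma N ≤ Γ) (x : SL(2, ℤ) ⧸ Γ) (k : ℕ)
    (hk : ModularGroup.T ^ k • x = x) (g : WH Γ) :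
    (N : ℤ) ∣ k * (EInf hN hΓ x g).order := by
  rw [EInf_apply]
  apply dvd_mul_order_laurentFun hN (g.2.isMerInf_conj hΓ x) (k : ℤ)
  intro τ
  rw [← slash_T_zpow_apply (conj Γ 0 g.1 x), conj_slash g.2.inv]
  congr 1
  conv_lhs => rw [← hk]
  rw [zpow_natCast, inv_smul_smul]

theorem exists_embeddings_inf_of (N : ℕ) [NeZero N]
    (Θ : modularFunctionFieldBar N →+* FractionRing (WH (Gamma0 N)))
    (hΘ1 : ∀ a : Kb, Θ (algebraMap Kb (modularFunctionFieldBar N) a) =
        algebraMap (WH (Gamma0 N)) _ (whConst _ (iotaC a)))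
    (hΘ2 : ∀ (d : ℕ) [NeZero d] (hd : d ∣ N), Θ (jBarD N d hd) =
        algebraMap (WH (Gamma0 N)) _ ⟨janD d, isWH_janD hd⟩) :
    ∃ σ : (SL(2, ℤ) ⧸ Gamma0 N) → modularFunctionFieldBar N →+* LaurentSeries ℂ,
      Function.Injective σ ∧
      (∀ x (a : Kb), σ x (algebraMap Kb (modularFunctionFieldBar N) a) = HahnSeries.C (iotaC a)) ∧
      (∀ x, σ x (jBar N) = laurentFun N jan) ∧
      (∀ x f, (σ (ModularGroup.T • x) f).order = (σ x f).order) ∧
      (∀ x (k : ℕ), ModularGroup.T ^ k • x = x → ∀ f, f ≠ 0 →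
        (N : ℤ) ∣ k * (σ x f).order) := by
  have hN : 0 < N := Nat.pos_of_ne_zero (NeZero.ne N)
  have hΓ : Gamma N ≤ Gamma0 N := by
    intro γ hγ
    rw [Gamma_mem] at hγ
    rw [Gamma0_mem]
    exact hγ.2.2.1
  refine ⟨fun x => (Emb.lift (EInf hN hΓ x) (EInf_injective hN hΓ x)).comp Θ,
    ?_, ?_, ?_, ?_, ?_⟩
  · intro x y hxy
    have h1 := DFunLike.congr_fun hxy (jBarD N N dvd_rfl)
    simp only [RingHom.comp_apply, hΘ2, Emb.lift_algebraMap, EInf_apply] at h1
    apply conj_janD_injective N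
    have hol := fun z => (isWH_janD (N := N) (d := N) dvd_rfl).isMerInf_conj hΓ z
    have hc : IsMerInf N (Function.const ℍ (-1 : ℂ)) := isMerInf_const N _
    have h3 : laurentFun N (conj (Gamma0 N) 0 (janD N) x +
        Function.const ℍ (-1 : ℂ) * conj (Gamma0 N) 0 (janD N) y) = 0 := by
      rw [laurentFun_add hN (hol x) (hc.mul (hol y)),
        laurentFun_mul hN hc (hol y), laurentFun_const hN, h1, map_neg, map_one]
      ring
    rw [laurentFun_eq_zero_iff hN ((hol x).add (hc.mul (hol y)))] at h3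
    funext τ
    have h4 := congrFun h3 τ
    simp only [Pi.add_apply, Pi.mul_apply, Function.const_apply, Pi.zero_apply] at h4
    linear_combination h4
  · intro x a
    simp only [RingHom.comp_apply, hΘ1, Emb.lift_algebraMap, EInf_apply]
    have : ((whConst (Gamma0 N) (iotaC a) : WH (Gamma0 N)) : ℍ → ℂ)
        = Function.const ℍ (iotaC a) := rfl
    rw [this, conj_const, laurentFun_const hN]
  · intro x
    have h1 : jBar N = jBarD N 1 (one_dvd N) := rfl
    simp only [RingHom.comp_apply, h1, hΘ2, Emb.lift_algebraMap, EInf_apply]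
    congr 1
    rw [janD_one]
    exact isWH_jan.inv _ trivial
  · intro x f
    simp only [RingHom.comp_apply]
    exact Emb.order_lift_eq _ _ _ _ (order_EInf_T hN hΓ x) _
  · intro x k hk f hf
    simp only [RingHom.comp_apply]
    refine Emb.order_lift_prop _ _ (fun m => (N : ℤ) ∣ k * m) ?_
      (fun g _ => dvd_order_EInf hN hΓ x k hk g) _ ?_
    · intro m n hm hn
      rw [mul_sub]
      exact dvd_sub hm hn
    · intro h
      exact hf (Θ.injective (by rw [h, map_zero]))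

end W9

/-- (W9) -/
theorem exists_embeddings_inf (N : ℕ) [NeZero N] :
    ∃ σ : (SL(2, ℤ) ⧸ Gamma0 N) → modularFunctionFieldBar N →+* LaurentSeries ℂ,
      Function.Injective σ ∧
      (∀ x (a : Kb), σ x (algebraMap Kb (modularFunctionFieldBar N) a) = HahnSeries.C (iotaC a)) ∧
      (∀ x, σ x (jBar N) = laurentFun N jan) ∧
      (∀ x f, (σ (ModularGroup.T • x) f).order = (σ x f).order) ∧
      (∀ x (k : ℕ), ModularGroup.T ^ k • x = x → ∀ f, f ≠ 0 →
        (N : ℤ) ∣ k * (σ x f).order) := by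
  obtain ⟨Θ, h1, h2⟩ := exists_theta N
  exact W9.exists_embeddings_inf_of N Θ h1 h2

end

end Fermat.Agent.S24Lib
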