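import Fermat.Agent.S24.AnDefs
import Fermat.Agent.S20.Cusps
import Fermat.Agent.S20.Separating
import Fermat.Agent.S28.IsQ

/-!
# S24 library, piece (W3): the functions `j(dτ)` as weakly holomorphic modular functions
-/

set_option autoImplicit false

open UpperHalfPlane ModularForm Matrix.SpecialLinearGroup CongruenceSubgroup
open Filter Topology
open scoped MatrixGroups Manifold Real
open Fermat.Agent.S20Lib Fermat.Agent.S28Lib Fermat.Agent.S20Lib.Cusps

namespace Fermat.Agent.S24Lib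

noncomputable section

variable {Γ : Subgroup SL(2, ℤ)} {f g : ℍ → ℂ}

namespace W3

lemma im_utr {a b a' : ℕ} (ha : 0 < a) (ha' : 0 < a') (τ : ℍ) :
    (utr a b a' τ).im = (a : ℝ) / a' * τ.im := by
  have h := congrArg Complex.im (coe_utr (b := b) ha ha' τ)
  rw [UpperHalfPlane.coe_im] at h
  rw [h]
  have : (((a : ℂ) * τ + b) / a') = (((a : ℝ) * τ.re + b) / a' : ℝ) + ((a : ℝ) / a' * τ.im : ℝ) * Complex.I := by
    have ha'' : (a' : ℂ) ≠ 0 := by exact_mod_cast ha'.ne'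
    apply Complex.ext <;> simp [Complex.div_natCast_re, Complex.div_natCast_im]; ring
  rw [this]
  simp

lemma tendsto_utr {a b a' : ℕ} (ha : 0 < a) (ha' : 0 < a') :
    Tendsto (utr a b a') atImInfty atImInfty := by
  rw [atImInfty, tendsto_comap_iff]
  have : (UpperHalfPlane.im ∘ utr a b a') = fun τ : ℍ => (a : ℝ) / a' * τ.im := by
    funext τ; exact im_utr ha ha' τ
  rw [this]
  exact (tendsto_comap (f := UpperHalfPlane.im) (x := atTop)).const_mul_atTop (by positivity)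

lemma ee_one_eq (τ : ℍ) : ee 1 τ = Function.Periodic.qParam 1 τ := by
  simp [ee, Function.Periodic.qParam]

/-- `Δ / q → 1`. -/
lemma tendsto_Dl_mul_ee : Tendsto (fun τ => Dl τ * ee (-1) τ) atImInfty (𝓝 1) := by
  have h := tendsto_atImInfty_tprod_one_sub_eta_q_pow
  refine h.congr fun τ => ?_
  rw [show Dl τ = _ from discriminant_eq_q_prod τ, ← ee_one_eq]
  have := ee_neg_mul 1 τ
  linear_combination (-(∏' n, (1 - eta_q n τ) ^ 24)) * this

lemma jan_eq : jan = E4 ^ 3 / Dl := rfl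

lemma isMF_E4_cube : IsMF ⊤ 12 (E4 ^ 3) := by
  simpa using SeparatingAux.isMF_pow isMF_E4 3

lemma mdiff_jan : MDiff jan := by
  rw [jan_eq]
  exact isMF_E4_cube.holo.div isCF_Dl.holo Dl_ne_zero

lemma jan_slash (γ : SL(2, ℤ)) : jan ∣[(0 : ℤ)] γ = jan := by
  have := div_slash_SL2 12 12 γ (E4 ^ 3) Dl
  rw [isMF_E4_cube.top_slash, isMF_Dl.top_slash, sub_self] at this
  exact this

lemma tendsto_jan_mul_ee : Tendsto (fun τ => jan τ * ee 1 τ) atImInfty (𝓝 1) := by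
  have h1 : Tendsto (fun τ => E4 τ ^ 3 / (Dl τ * ee (-1) τ)) atImInfty (𝓝 (1 ^ 3 / 1)) :=
    (tendsto_E4.pow 3).div tendsto_Dl_mul_ee one_ne_zero
  simp only [one_pow, div_one] at h1
  refine h1.congr fun τ => ?_
  have h2 := ee_neg_mul 1 τ
  have h3 := ee_ne_zero (-1) τ
  have h4 := Dl_ne_zero τ
  rw [jan]
  field_simp
  linear_combination (-(E4 τ ^ 3)) * h2

lemma janD_slash {d : ℕ} (hd : 0 < d) (γ : SL(2, ℤ)) :
    ∃ a b a' : ℕ, 0 < a ∧ 0 < a' ∧ a * a' = d ∧ a = Int.gcd d (γ 1 0) ∧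
      ∀ τ : ℍ, (janD d ∣[(0 : ℤ)] γ) τ = jan (utr a b a' τ) := by
  obtain ⟨a, b, a', ha, ha', h1, h2, h3⟩ := slash_dilate (k := 0) (f := jan) jan_slash hd γ
  refine ⟨a, b, a', ha, ha', h1, h2, fun τ => ?_⟩
  have := h3 τ
  simp only [neg_zero, zpow_zero, one_mul] at this
  exact this

lemma bdd_of_tendsto {u : ℍ → ℂ} {L : ℂ} (h : Tendsto u atImInfty (𝓝 L)) :
    IsBoundedAtImInfty u := h.isBigO_one ℝ

lemma bdd_of_norm_le_one {u : ℍ → ℂ} (h : ∀ τ, ‖u τ‖ ≤ 1) : IsBoundedAtImInfty u :=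
  Asymptotics.IsBigO.of_bound 1 (Filter.Eventually.of_forall fun τ => by simpa using h τ)

lemma bdd_jan_utr_mul {d a b a' : ℕ} (ha : 0 < a) (ha' : 0 < a') (h : a * a' = d) :
    IsBoundedAtImInfty ((fun τ => jan (utr a b a' τ)) * Dl ^ d) := by
  have h1 : IsBoundedAtImInfty (fun τ => jan (utr a b a' τ) * ee 1 (utr a b a' τ)) :=
    bdd_of_tendsto (tendsto_jan_mul_ee.comp (tendsto_utr ha ha'))
  have h2 : IsBoundedAtImInfty (fun τ => (Dl τ * ee (-1) τ) ^ d) :=
    bdd_of_tendsto (tendsto_Dl_mul_ee.pow d)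
  have h3 : IsBoundedAtImInfty (fun τ => ee 1 τ ^ d * ee (-1) (utr a b a' τ)) := by
    apply bdd_of_norm_le_one
    intro τ
    rw [norm_mul, norm_pow, norm_ee, norm_ee, im_utr ha ha', ← Real.exp_nat_mul, ← Real.exp_add]
    apply Real.exp_le_one_iff.mpr
    have hle : (a : ℝ) / a' ≤ d := by
      rw [div_le_iff₀ (by positivity)]
      have h5 : (1 : ℝ) ≤ a' := by exact_mod_cast ha'
      have h6 : (a : ℝ) * a' = d := by exact_mod_cast h
      have h7 : (0 : ℝ) ≤ a := by positivity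
      nlinarith
    have hy := τ.im_pos
    have hpi := Real.pi_pos
    have : 0 ≤ 2 * π * τ.im * ((d : ℝ) - a / a') := by
      apply mul_nonneg (by positivity) (by linarith)
    nlinarith
  have := (h1.mul h2).mul h3
  refine this.congr' ?_ (by rfl)
  refine Filter.Eventually.of_forall fun τ => ?_
  simp only [Pi.mul_apply, Pi.pow_apply]
  have e1 := ee_neg_mul 1 τ
  have e2 := ee_neg_mul 1 (utr a b a' τ)
  calc jan (utr a b a' τ) * ee 1 (utr a b a' τ) * (Dl τ * ee (-1) τ) ^ d *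
        (ee 1 τ ^ d * ee (-1) (utr a b a' τ))
      = jan (utr a b a' τ) * Dl τ ^ d * (ee (-1) τ * ee 1 τ) ^ d *
        (ee (-1) (utr a b a' τ) * ee 1 (utr a b a' τ)) := by ring
    _ = jan (utr a b a' τ) * Dl τ ^ d := by rw [e1, e2]; ring

lemma periodic_of_vadd_nat {f : ℍ → ℂ} (n : ℕ) (h : ∀ τ, f (((n : ℕ) : ℝ) +ᵥ τ) = f τ) :
    Function.Periodic (f ∘ ofComplex) (n : ℂ) := by
  intro w
  by_cases! hw : 0 < Complex.im w
  · have h1 : 0 < Complex.im (w + (n : ℂ)) := by simp [hw]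
    simp only [Function.comp_apply, ofComplex_apply_of_im_pos h1, ofComplex_apply_of_im_pos hw]
    rw [← h ⟨w, hw⟩]
    congr 1
    ext
    simp [add_comm]
  · have h1 : Complex.im (w + (n : ℂ)) ≤ 0 := by simpa using hw
    simp only [Function.comp_apply, ofComplex_apply_of_im_nonpos h1,
      ofComplex_apply_of_im_nonpos hw]

lemma slash_T_pow_apply (f : ℍ → ℂ) (n : ℕ) (τ : ℍ) :
    (f ∣[(0 : ℤ)] (ModularGroup.T ^ n)) τ = f (((n : ℕ) : ℝ) +ᵥ τ) := by
  induction n generalizing τ with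
  | zero => simp
  | succ n ih =>
    rw [pow_succ, SlashAction.slash_mul, slash_T_apply, ih]
    congr 1
    ext
    simp
    ring

end W3

open W3

theorem janD_one : janD 1 = jan := by
  funext τ
  rw [janD]
  congr 1
  ext
  rw [coe_utr one_pos one_pos]
  simp

theorem isWH_jan : IsWH ⊤ jan where
  holo := mdiff_jan
  inv γ _ := jan_slash γ
  bdd := ⟨1, fun γ => by
    rw [jan_slash]
    have : jan * Dl ^ 1 = E4 ^ 3 := by
      funext τ
      simp only [Pi.mul_apply, Pi.pow_apply, pow_one, jan]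
      field_simp [Dl_ne_zero τ]
    rw [this]
    simpa using isMF_E4_cube.bdd 1⟩

theorem isWH_janD {N d : ℕ} [NeZero N] (hd : d ∣ N) : IsWH (Gamma0 N) (janD d) := by
  have hd0 : 0 < d := Nat.pos_of_ne_zero (by
    rintro rfl
    exact NeZero.ne N (Nat.eq_zero_of_zero_dvd hd))
  refine ⟨QIAux.mdiff_comp_utr mdiff_jan hd0 one_pos, fun γ hγ => ?_, d, fun γ => ?_⟩
  · have h1 := isMF_dilate N isMF_E4_cube hd
    have h2 := isMF_dilate N isMF_Dl hd
    have h3 : janD d = (fun τ => (E4 ^ 3) (utr d 0 1 τ)) / (fun τ => Dl (utr d 0 1 τ)) := rfl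
    have := div_slash_SL2 12 12 γ (fun τ => (E4 ^ 3) (utr d 0 1 τ)) (fun τ => Dl (utr d 0 1 τ))
    rw [h1.inv γ hγ, h2.inv γ hγ, sub_self] at this
    rw [h3]; exact this
  · obtain ⟨a, b, a', ha, ha', h1, _, h3⟩ := janD_slash hd0 γ
    have : (janD d ∣[(0 : ℤ)] γ) = fun τ => jan (utr a b a' τ) := funext h3
    rw [this]
    exact bdd_jan_utr_mul ha ha' h1

theorem IsWH.mono {Γ' : Subgroup SL(2, ℤ)} (h : Γ' ≤ Γ) (hg : IsWH Γ g) : IsWH Γ' g :=
  ⟨hg.holo, fun γ hγ => hg.inv γ (h hγ), hg.bdd⟩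

theorem IsWH.conj_holo (hg : IsWH Γ g) (x : SL(2, ℤ) ⧸ Γ) : MDiff (conj Γ 0 g x) :=
  hg.holo.slash 0 _

theorem IsWH.isMerInf_conj {N : ℕ} (hΓ : Gamma N ≤ Γ) (hg : IsWH Γ g) (x : SL(2, ℤ) ⧸ Γ) :
    IsMerInf N (conj Γ 0 g x) where
  holo := hg.conj_holo x
  per := by
    apply periodic_of_vadd_nat
    intro τ
    rw [← slash_T_pow_apply (conj Γ 0 g x), conj_slash hg.inv]
    have := sT_iterate_N hΓ x
    rw [sT_iterate, inv_pow] at this
    rw [this]
  bdd := by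
    obtain ⟨M, hM⟩ := hg.bdd
    exact ⟨M, hM _⟩

theorem IsWH.isMerInf_one {N : ℕ} (hg : IsWH (Gamma0 N) g) : IsMerInf 1 g where
  holo := hg.holo
  per := by
    have := periodic_of_vadd_nat (f := g) 1 (fun τ => by
      rw [← slash_T_pow_apply g, pow_one, hg.inv]
      rw [Gamma0_mem, ModularGroup.coe_T]
      simp)
    simpa using this
  bdd := by
    obtain ⟨M, hM⟩ := hg.bdd
    exact ⟨M, by simpa using hM 1⟩

theorem IsWH.exists_isMF (hg : IsWH Γ g) :
    ∃ M₀ : ℕ, ∀ M : ℕ, M₀ ≤ M → IsMF Γ (12 * M) (g * Dl ^ M) := by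
  obtain ⟨M₀, h⟩ := hg.bdd_of_le
  refine ⟨M₀, fun M hM => ?_⟩
  have hD : IsMF ⊤ (12 * M) (Dl ^ M) := by
    have := SeparatingAux.isMF_pow isMF_Dl M
    rwa [mul_comm] at this
  have hsl : ∀ γ : SL(2, ℤ), (g * Dl ^ M) ∣[(12 * M : ℤ)] γ = (g ∣[(0 : ℤ)] γ) * Dl ^ M := by
    intro γ
    have := mul_slash_SL2 0 (12 * M) γ g (Dl ^ M)
    rw [zero_add, hD.top_slash] at this
    exact this
  exact ⟨hg.holo.mul hD.holo, fun γ hγ => by rw [hsl, hg.inv γ hγ], fun γ => by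
    rw [hsl]; exact h M hM γ⟩

namespace W3

lemma mem_Gamma0_of_janD_slash_eq {N : ℕ} [NeZero N] (γ : SL(2, ℤ))
    (h : janD N ∣[(0 : ℤ)] γ = janD N) : γ ∈ Gamma0 N := by
  have hN : 0 < N := NeZero.pos N
  obtain ⟨a, b, a', ha, ha', h1, h2, h3⟩ := janD_slash hN γ
  have hA : Tendsto (fun τ => jan (utr N 0 1 τ) * ee 1 (utr N 0 1 τ)) atImInfty (𝓝 1) :=
    tendsto_jan_mul_ee.comp (tendsto_utr hN one_pos)
  have hB : Tendsto (fun τ => jan (utr a b a' τ) * ee 1 (utr a b a' τ)) atImInfty (𝓝 1) :=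
    tendsto_jan_mul_ee.comp (tendsto_utr ha ha')
  have heq : ∀ τ, jan (utr N 0 1 τ) = jan (utr a b a' τ) := by
    intro τ
    rw [← h3 τ, h]; rfl
  have ha'1 : a' = 1 := by
    by_contra hne
    have ha'2 : 2 ≤ a' := by omega
    -- c = N - a / a' > 0
    set c : ℝ := (N : ℝ) - (a : ℝ) / a' with hc
    have hcpos : 0 < c := by
      have h5 : (2 : ℝ) ≤ a' := by exact_mod_cast ha'2
      have h6 : (a : ℝ) * a' = N := by exact_mod_cast h1
      have h7 : (0 : ℝ) < a := by exact_mod_cast ha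
      have : (a : ℝ) / a' < N := by
        rw [div_lt_iff₀ (by positivity), ← h6]
        nlinarith
      linarith
    have hrel : ∀ τ : ℍ, ‖jan (utr N 0 1 τ) * ee 1 (utr N 0 1 τ)‖ =
        ‖jan (utr a b a' τ) * ee 1 (utr a b a' τ)‖ * ‖ee c τ‖ := by
      intro τ
      rw [norm_mul, norm_mul, heq τ, norm_ee, norm_ee, norm_ee, im_utr hN one_pos, im_utr ha ha',
        mul_assoc ‖_‖, ← Real.exp_add]
      congr 2
      rw [hc]
      simp only [Nat.cast_one, div_one]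
      ring
    have hL : Tendsto (fun τ => ‖jan (utr N 0 1 τ) * ee 1 (utr N 0 1 τ)‖) atImInfty (𝓝 (‖(1 : ℂ)‖ * ‖(0 : ℂ)‖)) := by
      simp_rw [hrel]
      exact hB.norm.mul (tendsto_ee hcpos).norm
    have := tendsto_nhds_unique hA.norm hL
    simp at this
  subst ha'1
  rw [mul_one] at h1
  rw [Gamma0_mem, ZMod.intCast_zmod_eq_zero_iff_dvd]
  have : ((Int.gcd N (γ 1 0) : ℕ) : ℤ) ∣ γ 1 0 := Int.gcd_dvd_right _ _
  rwa [← h2, h1] at this

end W3

/-- separation: the conjugates of `j(Nτ)` are pairwise distinct (compare growth at `i∞`) -/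
theorem conj_janD_injective (N : ℕ) [NeZero N] :
    Function.Injective (conj (Gamma0 N) 0 (janD N)) := by
  have hinv := (isWH_janD (N := N) (dvd_refl N)).inv
  intro x y hxy
  induction x using QuotientGroup.induction_on with
  | H a =>
    induction y using QuotientGroup.induction_on with
    | H b =>
      rw [conj_mk hinv, conj_mk hinv] at hxy
      rw [QuotientGroup.eq]
      apply W3.mem_Gamma0_of_janD_slash_eq
      rw [SlashAction.slash_mul, hxy, ← SlashAction.slash_mul]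
      simp

end

end Fermat.Agent.S24Lib
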