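import Fermat.Agent.S24.Laurent
import Fermat.Agent.S24.JFun
import Fermat.Agent.S28.Count

/-!
# S24 library, piece (W2): the analytic expansion of `j(dτ)` is the formal `j(q^d)`
-/

set_option autoImplicit false

open UpperHalfPlane ModularForm Matrix.SpecialLinearGroup CongruenceSubgroup ModularCurve
open Filter Topology
open scoped MatrixGroups Manifold
open Fermat.Agent.S20Lib Fermat.Agent.S28Lib

namespace Fermat.Agent.S24Lib

noncomputable section

namespace W2

lemma coeffMap_ofPowerSeries {R S : Type*} [CommRing R] [CommRing S] (φ : R →+* S)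
    (p : PowerSeries R) :
    coeffMap φ (HahnSeries.ofPowerSeries ℤ R p) = HahnSeries.ofPowerSeries ℤ S (p.map φ) := by
  ext k
  rw [coeffMap_coeff]
  rcases le_or_gt 0 k with hk | hk
  · lift k to ℕ using hk
    rw [HahnSeries.ofPowerSeries_apply_coeff, HahnSeries.ofPowerSeries_apply_coeff,
      PowerSeries.coeff_map]
  · rw [ofPowerSeries_coeff_of_neg _ hk, ofPowerSeries_coeff_of_neg _ hk, map_zero]

lemma map_map_int (p : PowerSeries ℤ) :
    (p.map (Int.castRingHom ℚ)).map (algebraMap ℚ ℂ) = p.map (Int.castRingHom ℂ) := by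
  ext n
  simp

/-- the formal relation over `ℂ` -/
lemma formal_rel (d : ℕ) [NeZero d] (hd : d ≠ 0) :
    coeffMap (algebraMap ℚ ℂ) (qExpand ℚ d jq) *
      HahnSeries.ofPowerSeries ℤ ℂ (PowerSeries.expand d hd
        ((PowerSeries.X * dedekindEtaUnit).map (Int.castRingHom ℂ))) =
      HahnSeries.ofPowerSeries ℤ ℂ (PowerSeries.expand d hd
        ((eisenstein4.map (Int.castRingHom ℂ)) ^ 3)) := by
  have h := congrArg (fun x => coeffMap (algebraMap ℚ ℂ) (qExpand ℚ d x)) Cnt.j_mul_D
  simp only [map_mul, Cnt.qExpand_iota d hd, coeffMap_ofPowerSeries, PowerSeries.map_expand] at h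
  rw [Cnt.Dq, map_map_int, map_pow, Cnt.E4q, map_map_int, jqModC_rat] at h
  exact h

lemma qi_of_isMF_top {k : ℤ} {f : ℍ → ℂ} (hf : IsMF ⊤ k f) : QI ⊤ 1 f where
  per := by simpa using hf.periodic_one
  holo := hf.holo
  bdd := by simpa using hf.bdd 1
  int _ := Subring.mem_top _

lemma analytic_of_isMF_top {k : ℤ} {f : ℍ → ℂ} (hf : IsMF ⊤ k f) :
    AnalyticAt ℂ (cuspFunction 1 f) 0 :=
  analyticAt_cuspFunction_zero one_pos (by simpa using hf.periodic_one) hf.holo
    (by simpa using hf.bdd 1)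

lemma isMF_E4_cube : IsMF ⊤ 12 (E4 ^ 3) := by
  simpa using SeparatingAux.isMF_pow isMF_E4 3

lemma qExpansion_E4_cube :
    qExpansion 1 (E4 ^ 3) = (eisenstein4.map (Int.castRingHom ℂ)) ^ 3 := by
  have h4 := analytic_of_isMF_top isMF_E4
  have h8 : AnalyticAt ℂ (cuspFunction 1 (E4 * E4)) 0 :=
    analytic_of_isMF_top (isMF_E4.mul isMF_E4)
  rw [show E4 ^ 3 = E4 * E4 * E4 by ring, qExpansion_mul h8 h4, qExpansion_mul h4 h4,
    qExpansion_E4]
  ring

lemma isMerInf_of_isMF {N : ℕ} {k : ℤ} {f : ℍ → ℂ} (hf : IsMF (Gamma0 N) k f) [NeZero N] :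
    IsMerInf 1 f where
  holo := hf.holo
  per := by simpa using IsQAux.periodic hf
  bdd := ⟨0, by simpa using hf.bdd 1⟩

end W2

open W2

theorem laurentFun_janD (d : ℕ) [NeZero d] :
    laurentFun 1 (janD d) = coeffMap (algebraMap ℚ ℂ) (qExpand ℚ d jq) := by
  have hd : d ≠ 0 := NeZero.ne d
  have hA := isMF_dilate d W2.isMF_E4_cube (dvd_refl d)
  have hB := isMF_dilate d isMF_Dl (dvd_refl d)
  have hJ : IsMerInf 1 (janD d) := (isWH_janD (N := d) (dvd_refl d)).isMerInf_one
  have hmul : janD d * (fun τ => Dl (utr d 0 1 τ)) = fun τ => (E4 ^ 3) (utr d 0 1 τ) := by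
    funext τ
    simp only [Pi.mul_apply, janD, jan, Pi.pow_apply]
    field_simp [Dl_ne_zero (utr d 0 1 τ)]
  have h1 := laurentFun_mul one_pos hJ (isMerInf_of_isMF hB)
  rw [hmul, laurentFun_of_bdd one_pos (isMerInf_of_isMF hA) (by simpa using hA.bdd 1),
    laurentFun_of_bdd one_pos (isMerInf_of_isMF hB) (by simpa using hB.bdd 1)] at h1
  simp only [Nat.cast_one] at h1
  rw [qExpansion_dilate (qi_of_isMF_top W2.isMF_E4_cube) hd,
    qExpansion_dilate (qi_of_isMF_top isMF_Dl) hd, qExpansion_E4_cube,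
    show qExpansion 1 Dl = _ from qExpansion_Delta, ← formal_rel d hd] at h1
  refine (mul_right_cancel₀ ?_ h1).symm
  intro h0
  have h2 : PowerSeries.expand d hd ((PowerSeries.X * dedekindEtaUnit).map (Int.castRingHom ℂ)) = 0 :=
    HahnSeries.ofPowerSeries_injective (by rw [h0, map_zero])
  have h3 := congrArg (PowerSeries.coeff (d * 1)) h2
  rw [PowerSeries.coeff_expand_mul, PowerSeries.coeff_map, show (1 : ℕ) = 0 + 1 from rfl,
    PowerSeries.coeff_succ_X_mul, PowerSeries.coeff_zero_eq_constantCoeff_apply,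
    constantCoeff_dedekindEtaUnit] at h3
  simp at h3

theorem order_laurentFun_jan {h : ℕ} (hh : 0 < h) : (laurentFun h jan).order = -(h : ℤ) := by
  have hJ : IsMerInf h jan := by
    have := isWH_jan.isMerInf_conj (N := h) le_top ((1 : SL(2, ℤ)) : SL(2, ℤ) ⧸ (⊤ : Subgroup SL(2, ℤ)))
    rwa [conj_one isWH_jan.inv] at this
  have hD := isMerInf_Dl h
  have hmul : jan * Dl = E4 ^ 3 := by
    funext τ
    simp only [Pi.mul_apply, jan, Pi.pow_apply]
    field_simp [Dl_ne_zero τ]
  have hE : IsMerInf h (E4 ^ 3) := hmul ▸ hJ.mul hD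
  have hEb : IsBoundedAtImInfty (E4 ^ 3) := by simpa using W2.isMF_E4_cube.bdd 1
  have h1 := laurentFun_mul hh hJ hD
  rw [hmul, laurentFun_of_bdd hh hE hEb] at h1
  have hh' : (0 : ℝ) < (h : ℝ) := by exact_mod_cast hh
  have hper : Function.Periodic ((E4 ^ 3) ∘ ofComplex) ((h : ℝ) : ℂ) := by
    simpa using hE.per
  have hc0 : (qExpansion h (E4 ^ 3)).coeff 0 = 1 := by
    rw [qExpansion_coeff_zero hh' (analyticAt_cuspFunction_zero hh' hper hE.holo hEb) hper]
    have : Tendsto (E4 ^ 3) atImInfty (𝓝 (1 ^ 3)) := tendsto_E4.pow 3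
    rw [one_pow] at this
    exact this.limUnder_eq
  have hord : (HahnSeries.ofPowerSeries ℤ ℂ (qExpansion h (E4 ^ 3))).order = 0 := by
    apply le_antisymm
    · apply HahnSeries.order_le_of_coeff_ne_zero
      rw [show (0 : ℤ) = ((0 : ℕ) : ℤ) from rfl, HahnSeries.ofPowerSeries_apply_coeff, hc0]
      exact one_ne_zero
    · refine (HahnSeries.le_order_iff_forall ?_).mpr fun j hj => ofPowerSeries_coeff_of_neg _ hj
      intro h0
      have := congrArg (fun x => x.coeff 0) h0
      simp only [HahnSeries.coeff_zero] at this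
      rw [show (0 : ℤ) = ((0 : ℕ) : ℤ) from rfl, HahnSeries.ofPowerSeries_apply_coeff, hc0] at this
      exact one_ne_zero this
  have hJ0 : laurentFun h jan ≠ 0 := by
    intro h0
    rw [h0, zero_mul] at h1
    have := congrArg (fun x => x.coeff 0) h1
    simp only [HahnSeries.coeff_zero] at this
    rw [show (0 : ℤ) = ((0 : ℕ) : ℤ) from rfl, HahnSeries.ofPowerSeries_apply_coeff, hc0] at this
    exact one_ne_zero this
  have hD0 : laurentFun h Dl ≠ 0 := by
    intro h0
    rw [h0, mul_zero] at h1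
    have := congrArg (fun x => x.coeff 0) h1
    simp only [HahnSeries.coeff_zero] at this
    rw [show (0 : ℤ) = ((0 : ℕ) : ℤ) from rfl, HahnSeries.ofPowerSeries_apply_coeff, hc0] at this
    exact one_ne_zero this
  have h2 := congrArg HahnSeries.order h1
  rw [hord, HahnSeries.order_mul hJ0 hD0, order_laurentFun_Dl hh] at h2
  omega

end

end Fermat.Agent.S24Lib
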