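import Fermat.Agent.S24.Taylor
import Fermat.Agent.S20.Serre

/-!
# S24 (W4): local behaviour of the `j`-function
-/

set_option autoImplicit false

open UpperHalfPlane ModularForm Matrix.SpecialLinearGroup Derivative EisensteinSeries
open scoped MatrixGroups Manifold Topology
open Fermat.Agent.S20Lib Fermat.Agent.S28Lib

namespace Fermat.Agent.S24Lib

noncomputable section

theorem jlocal_jan_eq : jan = E4 ^ 3 / Dl := rfl

theorem jlocal_mdiff_jan : MDiff jan :=
  (isMF_E4.holo.pow 3).div isCF_Dl.holo Dl_ne_zero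

theorem S_smul_I : ModularGroup.S • (I : ℍ) = I := by
  rw [UpperHalfPlane.modular_S_smul]
  ext
  simp [Complex.inv_I]

theorem jlocal_ST10 : (ModularGroup.S * ModularGroup.T : SL(2, ℤ)) 1 0 = 1 := by decide
theorem jlocal_ST11 : (ModularGroup.S * ModularGroup.T : SL(2, ℤ)) 1 1 = 1 := by decide
theorem jlocal_ST00 : (ModularGroup.S * ModularGroup.T : SL(2, ℤ)) 0 0 = 0 := by decide
theorem jlocal_ST01 : (ModularGroup.S * ModularGroup.T : SL(2, ℤ)) 0 1 = -1 := by decide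
theorem jlocal_S10 : (ModularGroup.S : SL(2, ℤ)) 1 0 = 1 := by decide
theorem jlocal_S11 : (ModularGroup.S : SL(2, ℤ)) 1 1 = 0 := by decide

theorem jlocal_denom_S_I : denom ModularGroup.S I = Complex.I := by
  rw [taylor_denom_eq, jlocal_S10, jlocal_S11]
  simp

theorem jlocal_coe_rhoH : (rhoH : ℂ) = ⟨-1 / 2, Real.sqrt 3 / 2⟩ := rfl

theorem jlocal_rho_sq_add : (rhoH : ℂ) ^ 2 + rhoH + 1 = 0 := by
  have h3 : Real.sqrt 3 * Real.sqrt 3 = 3 := Real.mul_self_sqrt (by norm_num)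
  rw [jlocal_coe_rhoH]
  apply Complex.ext
  · simp [sq]
    nlinarith
  · simp [sq]
    ring

theorem jlocal_denom_ST_rhoH' :
    denom ((ModularGroup.S * ModularGroup.T : SL(2, ℤ)) : GL (Fin 2) ℝ) rhoH = (rhoH : ℂ) + 1 := by
  rw [taylor_denom_eq, jlocal_ST10, jlocal_ST11]
  simp

theorem jlocal_denom_ST_rhoH : denom (ModularGroup.S * ModularGroup.T) rhoH = (rhoH : ℂ) + 1 := by
  rw [← jlocal_denom_ST_rhoH']
  simp

theorem ST_smul_rhoH : (ModularGroup.S * ModularGroup.T) • rhoH = rhoH := by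
  ext
  rw [taylor_coe_smul, taylorMob, jlocal_ST00, jlocal_ST01, jlocal_ST10, jlocal_ST11]
  have h := jlocal_rho_sq_add
  have hne : (rhoH : ℂ) + 1 ≠ 0 := by
    rw [← jlocal_denom_ST_rhoH]; exact denom_ne_zero _ _
  have hne' : (((1 : ℤ) : ℂ) * (rhoH : ℂ) + ((1 : ℤ) : ℂ)) ≠ 0 := by simpa using hne
  rw [div_eq_iff hne']
  push_cast
  linear_combination (-1 : ℂ) * h

theorem two_dvd_of_zpow_eq_one (k : ℤ) (hk : (denom ModularGroup.S I ^ 2) ^ k = 1) : (2 : ℤ) ∣ k := by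
  rw [jlocal_denom_S_I, Complex.I_sq] at hk
  rcases Int.even_or_odd k with h | h
  · exact even_iff_two_dvd.mp h
  · rw [h.neg_one_zpow] at hk
    norm_num at hk

theorem three_dvd_of_zpow_eq_one (k : ℤ)
    (hk : (denom (ModularGroup.S * ModularGroup.T) rhoH ^ 2) ^ k = 1) : (3 : ℤ) ∣ k := by
  rw [jlocal_denom_ST_rhoH] at hk
  have h := jlocal_rho_sq_add
  have h1 : ((rhoH : ℂ) + 1) ^ 2 = rhoH := by linear_combination h
  rw [h1] at hk
  have hne1 : (rhoH : ℂ) ≠ 1 := by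
    intro h2
    rw [h2] at h
    norm_num at h
  have hprim : IsPrimitiveRoot (rhoH : ℂ) 3 := by
    apply IsPrimitiveRoot.mk_of_lt _ (by norm_num)
    · linear_combination ((rhoH : ℂ) - 1) * h
    · intro l hl0 hl3 hl
      interval_cases l
      · exact hne1 (by simpa using hl)
      · apply hne1
        have h4 : (rhoH : ℂ) = -2 := by linear_combination h - hl
        rw [h4] at hl
        norm_num at hl
  exact_mod_cast (hprim.zpow_eq_one_iff_dvd k).mp hk

theorem jlocal_E6_I : E6 I = 0 := by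
  have h := congrFun (isMF_E6.top_slash ModularGroup.S) I
  rw [ModularForm.SL_slash_apply, S_smul_I, jlocal_denom_S_I] at h
  have h6 : (Complex.I : ℂ) ^ (-(6 : ℤ)) = -1 := by
    rw [zpow_neg, show (6 : ℤ) = ((6 : ℕ) : ℤ) from rfl, zpow_natCast,
      show (6 : ℕ) = 2 * 3 from rfl, pow_mul, Complex.I_sq]
    norm_num
  rw [h6] at h
  have : (2 : ℂ) * E6 I = 0 := by linear_combination -h
  simpa using this

theorem jlocal_E4_rhoH : E4 rhoH = 0 := by
  have h := congrFun (isMF_E4.top_slash (ModularGroup.S * ModularGroup.T)) rhoH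
  rw [ModularForm.SL_slash_apply, ST_smul_rhoH, jlocal_denom_ST_rhoH'] at h
  have hr := jlocal_rho_sq_add
  have hne : (rhoH : ℂ) + 1 ≠ 0 := by
    rw [← jlocal_denom_ST_rhoH]; exact denom_ne_zero _ _
  have h4 : ((rhoH : ℂ) + 1) ^ (-(4 : ℤ)) = (((rhoH : ℂ) + 1) ^ 4)⁻¹ := by
    rw [zpow_neg, show (4 : ℤ) = ((4 : ℕ) : ℤ) from rfl, zpow_natCast]
  rw [h4] at h
  have h5 : ((rhoH : ℂ) + 1) ^ 4 = (rhoH : ℂ) ^ 2 := by
    linear_combination ((rhoH : ℂ) ^ 2 + 3 * rhoH + 1) * hr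
  have h6 : E4 rhoH = E4 rhoH * ((rhoH : ℂ) + 1) ^ 4 := by
    have := pow_ne_zero 4 hne
    field_simp at h
    exact h
  rw [h5] at h6
  have h7 : E4 rhoH * ((rhoH : ℂ) ^ 2 - 1) = 0 := by linear_combination -h6
  rcases mul_eq_zero.mp h7 with h8 | h8
  · exact h8
  · exfalso
    have h9 : (rhoH : ℂ) = -2 := by linear_combination hr - h8
    rw [h9] at h8
    norm_num at h8

theorem jlocal_Dl_apply (τ : ℍ) : 1728 * Dl τ = E4 τ ^ 3 - E6 τ ^ 2 := by
  have := congrFun Dl_eq τ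
  simpa using this

theorem jan_I : jan I = 1728 := by
  have h := jlocal_Dl_apply I
  rw [jlocal_E6_I] at h
  unfold jan
  rw [div_eq_iff (Dl_ne_zero I)]
  linear_combination -h

theorem jan_rhoH : jan rhoH = 0 := by
  unfold jan
  rw [jlocal_E4_rhoH]
  simp

theorem jlocal_tendsto_Dl : Filter.Tendsto Dl atImInfty (𝓝 0) := by
  have := isCF_Dl.zero 1
  simpa [IsZeroAtImInfty, Filter.ZeroAtFilter] using this

theorem jan_surjective : Function.Surjective jan := by
  intro c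
  by_contra hcon
  push Not at hcon
  set u : ℍ → ℂ := E4 * E4 * E4 + (-c) • Dl with hu
  have hu12 : IsMF ⊤ 12 u :=
    (((isMF_E4.mul isMF_E4).mul' isMF_E4 (by norm_num))).add (isMF_Dl.smul (-c))
  have hune : ∀ τ, u τ ≠ 0 := by
    intro τ h0
    apply hcon τ
    unfold jan
    rw [div_eq_iff (Dl_ne_zero τ)]
    simp only [hu, Pi.add_apply, Pi.mul_apply, Pi.smul_apply, smul_eq_mul] at h0
    linear_combination h0
  have hlim : Filter.Tendsto u atImInfty (𝓝 1) := by
    have h1 := ((tendsto_E4.mul tendsto_E4).mul tendsto_E4).add (jlocal_tendsto_Dl.const_smul (-c))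
    rw [smul_zero, add_zero, mul_one, mul_one] at h1
    exact h1
  have hlim' : Filter.Tendsto (1 / u) atImInfty (𝓝 1) := by
    have := (tendsto_const_nhds (x := (1 : ℂ))).div hlim one_ne_zero
    rw [div_one] at this
    exact this
  have hinv : ∀ γ : SL(2, ℤ), (1 / u) ∣[(-12 : ℤ)] γ = 1 / u := by
    intro γ
    have := div_slash_SL2 0 12 γ 1 u
    rw [show (0 : ℤ) - 12 = -12 by norm_num] at this
    rw [this, hu12.top_slash, (isMF_one (Γ := ⊤)).top_slash]
  have hv : IsMF ⊤ (-12) (1 / u) :=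
    { holo := (isMF_one (Γ := ⊤)).holo.div hu12.holo hune
      inv := fun γ _ => hinv γ
      bdd := fun γ => by
        rw [hinv γ]
        exact hlim'.isBigO_one ℝ }
  have h0 := isMF_top_eq_zero_of_neg (by norm_num) hv
  have h1 := congrFun h0 I
  simp only [Pi.div_apply, Pi.one_apply, Pi.zero_apply, one_div, inv_eq_zero] at h1
  exact hune I h1

/-- `taylorH jan τ₀ - jan τ₀` in terms of the derivative. -/
theorem jlocal_order_eq (τ₀ : ℍ) :
    (taylorH jan τ₀ - PowerSeries.C (jan τ₀)).order =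
      analyticOrderAt (deriv (jan ∘ ofComplex)) (τ₀ : ℂ) + 1 := by
  have hJ := analyticAt_comp_ofComplex jlocal_mdiff_jan τ₀
  have h1 : taylorH jan τ₀ - PowerSeries.C (jan τ₀) =
      taylorH (jan + Function.const ℍ (-jan τ₀)) τ₀ := by
    have hc : MDiff (Function.const ℍ (-jan τ₀)) := mdifferentiable_const
    rw [taylorH_add jlocal_mdiff_jan hc, taylorH_const, map_neg, sub_eq_add_neg]
  have hJ' : AnalyticAt ℂ ((jan + Function.const ℍ (-jan τ₀)) ∘ ofComplex) τ₀ :=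
    analyticAt_comp_ofComplex
      (jlocal_mdiff_jan.add (mdifferentiable_const (c := -jan τ₀))) τ₀
  rw [h1, taylorH, order_taylorPS hJ', hJ.analyticOrderAt_deriv_add_one]
  congr 1
  ext z
  simp [sub_eq_add_neg]

/-- `D j · Δ = C E₄² E₆`. -/
theorem jlocal_D_jan : ∃ C : ℂ, ∀ τ, D jan τ * Dl τ = C * E4 τ ^ 2 * E6 τ := by
  have hs := serre_isMF isMF_E4
  obtain ⟨a, b, ha, hb, hab⟩ := hs.exists_eq_E4_mul_add_E6_mul (by norm_num)
  have ha0 : a = 0 := isMF_top_two_eq_zero (by simpa using ha)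
  obtain ⟨c, hc⟩ := isMF_top_zero_const (f := b) (by simpa using hb)
  refine ⟨3 * c, fun τ => ?_⟩
  have h1 : jan * Dl = E4 ^ 3 := by
    ext z
    simp only [Pi.mul_apply, Pi.pow_apply, jan]
    exact div_mul_cancel₀ _ (Dl_ne_zero z)
  have h2 := normalizedDerivOfComplex_mul jan Dl jlocal_mdiff_jan isCF_Dl.holo
  rw [h1, normalizedDerivOfComplex_pow E4 3 isMF_E4.holo, D_discriminant] at h2
  have h3 := congrFun h2 τ
  have h4 := congrFun hab τ
  have h5 := congrFun h1 τ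
  simp only [ha0, hc, serreDerivative_apply, Pi.add_apply, Pi.mul_apply, Pi.zero_apply, mul_zero,
    zero_add, Function.const_apply, Pi.pow_apply, Pi.natCast_apply] at h3 h4 h5
  push_cast at h3 h4
  linear_combination (-1 : ℂ) * h3 + 3 * E4 τ ^ 2 * h4 - E2 τ * h5

theorem jlocal_mdiff_jan_add (c : ℂ) : MDiff (jan + Function.const ℍ c) :=
  jlocal_mdiff_jan.add (mdifferentiable_const (c := c))

theorem jlocal_taylor_sub (τ₀ : ℍ) (c : ℂ) : taylorH jan τ₀ - PowerSeries.C c =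
    taylorH (jan + Function.const ℍ (-c)) τ₀ := by
  have hc : MDiff (Function.const ℍ (-c)) := mdifferentiable_const
  rw [taylorH_add jlocal_mdiff_jan hc, taylorH_const, map_neg, sub_eq_add_neg]

theorem jlocal_two_pi_I_ne : (2 * Real.pi * Complex.I : ℂ) ≠ 0 := by
  simp [Real.pi_ne_zero]

theorem jlocal_deriv_eq {C : ℂ} (hC : ∀ τ, D jan τ * Dl τ = C * E4 τ ^ 2 * E6 τ) (τ₀ : ℍ) :
    deriv (jan ∘ ofComplex) =ᶠ[𝓝 (τ₀ : ℂ)]
      ((fun z => 2 * Real.pi * Complex.I * C * ((Dl ∘ ofComplex) z)⁻¹) *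
        (E4 ∘ ofComplex) ^ 2) * (E6 ∘ ofComplex) := by
  filter_upwards [isOpen_upperHalfPlaneSet.mem_nhds τ₀.2] with z hz
  have h := hC ⟨z, hz⟩
  have hd := Dl_ne_zero ⟨z, hz⟩
  simp only [normalizedDerivOfComplex] at h
  simp only [Pi.mul_apply, Pi.pow_apply, Function.comp_apply, ofComplex_apply_of_im_pos hz]
  have h2 := jlocal_two_pi_I_ne
  change (2 * Real.pi * Complex.I : ℂ)⁻¹ * deriv (jan ∘ ofComplex) z * Dl ⟨z, hz⟩ = _ at h
  field_simp at h ⊢
  linear_combination h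

theorem jlocal_C_ne_zero {C : ℂ} (hC : ∀ τ, D jan τ * Dl τ = C * E4 τ ^ 2 * E6 τ) : C ≠ 0 := by
  rintro rfl
  have h1 : ∀ᶠ z in 𝓝 ((I : ℍ) : ℂ), deriv (jan ∘ ofComplex) z = 0 := by
    filter_upwards [jlocal_deriv_eq hC I] with z hz
    rw [hz]
    simp
  have h2 : analyticOrderAt (deriv (jan ∘ ofComplex)) ((I : ℍ) : ℂ) = ⊤ :=
    analyticOrderAt_eq_top.mpr h1
  have h3 := jlocal_order_eq I
  rw [h2, top_add, PowerSeries.order_eq_top, jlocal_taylor_sub,
    taylorH_eq_zero_iff (jlocal_mdiff_jan_add _)] at h3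
  have h4 := congrFun h3 rhoH
  simp only [Pi.add_apply, Function.const_apply, jan_rhoH, jan_I, Pi.zero_apply] at h4
  norm_num at h4

theorem jlocal_order_ne_top {f : ℍ → ℂ} (hf : MDiff f) (hf0 : f ≠ 0) (τ₀ : ℍ) :
    analyticOrderAt (f ∘ ofComplex) (τ₀ : ℂ) ≠ ⊤ := by
  rw [← order_taylorPS (analyticAt_comp_ofComplex hf τ₀), Ne, PowerSeries.order_eq_top]
  exact fun h => hf0 ((taylorH_eq_zero_iff hf τ₀).mp h)

theorem jlocal_E4_ne_zero : E4 ≠ 0 := by
  intro h
  have := jan_I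
  unfold jan at this
  rw [h] at this
  norm_num at this

theorem jlocal_E6_ne_zero : E6 ≠ 0 := by
  intro h
  have h1 := jlocal_Dl_apply rhoH
  rw [jlocal_E4_rhoH, h] at h1
  have := Dl_ne_zero rhoH
  simp at h1
  exact this h1

/-- `(Dj)^6 = j^4 (j-1728)^3 Δ` forces the local orders of `j`. -/
theorem order_taylorH_jan_sub (τ₀ : ℍ) :
    (taylorH jan τ₀ - PowerSeries.C (jan τ₀)).order =
      if jan τ₀ = 0 then 3 else if jan τ₀ = 1728 then 2 else 1 := by
  obtain ⟨C, hC⟩ := jlocal_D_jan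
  have hC0 := jlocal_C_ne_zero hC
  have hA := analyticAt_comp_ofComplex isMF_E4.holo τ₀
  have hB := analyticAt_comp_ofComplex isMF_E6.holo τ₀
  have hDd := analyticAt_comp_ofComplex isCF_Dl.holo τ₀
  have hDd0 : (Dl ∘ ofComplex) (τ₀ : ℂ) ≠ 0 := by
    simpa using Dl_ne_zero τ₀
  have hDi : AnalyticAt ℂ (fun z => ((Dl ∘ ofComplex) z)⁻¹) (τ₀ : ℂ) := hDd.fun_inv hDd0
  have hU : AnalyticAt ℂ (fun z => 2 * Real.pi * Complex.I * C * ((Dl ∘ ofComplex) z)⁻¹)
      (τ₀ : ℂ) := analyticAt_const.fun_mul hDi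
  have hU0 : analyticOrderAt (fun z => 2 * Real.pi * Complex.I * C * ((Dl ∘ ofComplex) z)⁻¹)
      (τ₀ : ℂ) = 0 := by
    rw [hU.analyticOrderAt_eq_zero]
    exact mul_ne_zero (mul_ne_zero jlocal_two_pi_I_ne hC0) (inv_ne_zero hDd0)
  have hDi0 : analyticOrderAt (fun z => ((Dl ∘ ofComplex) z)⁻¹) (τ₀ : ℂ) = 0 := by
    rw [hDi.analyticOrderAt_eq_zero]
    exact inv_ne_zero hDd0
  set a := analyticOrderAt (E4 ∘ ofComplex) (τ₀ : ℂ) with ha
  set b := analyticOrderAt (E6 ∘ ofComplex) (τ₀ : ℂ) with hb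
  have hatop : a ≠ ⊤ := jlocal_order_ne_top isMF_E4.holo jlocal_E4_ne_zero τ₀
  have hbtop : b ≠ ⊤ := jlocal_order_ne_top isMF_E6.holo jlocal_E6_ne_zero τ₀
  have hmain : (taylorH jan τ₀ - PowerSeries.C (jan τ₀)).order = 2 • a + b + 1 := by
    rw [jlocal_order_eq, analyticOrderAt_congr (jlocal_deriv_eq hC τ₀),
      analyticOrderAt_mul (hU.mul (hA.pow 2)) hB, analyticOrderAt_mul hU (hA.pow 2),
      analyticOrderAt_pow hA, hU0, zero_add]
  have hrel := jlocal_Dl_apply τ₀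
  have hd := Dl_ne_zero τ₀
  have ha0 : a = 0 ↔ E4 τ₀ ≠ 0 := by
    rw [ha, hA.analyticOrderAt_eq_zero]; simp
  have hb0 : b = 0 ↔ E6 τ₀ ≠ 0 := by
    rw [hb, hB.analyticOrderAt_eq_zero]; simp
  have hj0 : jan τ₀ = 0 ↔ E4 τ₀ = 0 := by
    unfold jan
    rw [div_eq_zero_iff]
    constructor
    · rintro (h | h)
      · exact pow_eq_zero_iff (by norm_num) |>.mp h
      · exact absurd h hd
    · intro h; left; rw [h]; norm_num
  have hj1 : jan τ₀ = 1728 ↔ E6 τ₀ = 0 := by
    unfold jan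
    rw [div_eq_iff hd]
    constructor
    · intro h
      have : E6 τ₀ ^ 2 = 0 := by linear_combination h + hrel
      exact pow_eq_zero_iff (by norm_num) |>.mp this
    · intro h
      rw [h] at hrel
      linear_combination -hrel
  lift a to ℕ using hatop with a' ha'
  lift b to ℕ using hbtop with b' hb'
  by_cases h0 : jan τ₀ = 0
  · rw [if_pos h0]
    have hE4 := hj0.mp h0
    have hE6 : E6 τ₀ ≠ 0 := by
      intro h
      rw [hE4, h] at hrel
      apply hd
      simpa using hrel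
    have hb1 : (b' : ℕ∞) = 0 := hb0.mpr hE6
    -- second computation of the order
    have h2 : (taylorH jan τ₀ - PowerSeries.C (jan τ₀)).order = 3 • (a' : ℕ∞) := by
      rw [h0, map_zero, sub_zero, taylorH,
        order_taylorPS (analyticAt_comp_ofComplex jlocal_mdiff_jan τ₀)]
      have : (jan ∘ ofComplex) = (E4 ∘ ofComplex) ^ 3 * (fun z => ((Dl ∘ ofComplex) z)⁻¹) := by
        ext z
        simp [jan, div_eq_mul_inv]
      rw [this, analyticOrderAt_mul (hA.pow 3) hDi, analyticOrderAt_pow hA, hDi0, add_zero, ← ha]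
    rw [hmain, hb1] at h2 ⊢
    have h3 : 2 * a' + 1 = 3 * a' := by
      have : ((2 * a' + 1 : ℕ) : ℕ∞) = ((3 * a' : ℕ) : ℕ∞) := by
        push_cast
        simpa using h2
      exact_mod_cast this
    have h4 : a' = 1 := by omega
    rw [h4]
    norm_num
  · rw [if_neg h0]
    have hE4 : E4 τ₀ ≠ 0 := fun h => h0 (hj0.mpr h)
    have ha1 : (a' : ℕ∞) = 0 := ha0.mpr hE4
    by_cases h1 : jan τ₀ = 1728
    · rw [if_pos h1]
      have h2 : (taylorH jan τ₀ - PowerSeries.C (jan τ₀)).order = 2 • (b' : ℕ∞) := by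
        rw [h1, jlocal_taylor_sub, taylorH,
          order_taylorPS (analyticAt_comp_ofComplex (jlocal_mdiff_jan_add _) τ₀)]
        have : ((jan + Function.const ℍ (-1728)) ∘ ofComplex) =
            (E6 ∘ ofComplex) ^ 2 * (fun z => ((Dl ∘ ofComplex) z)⁻¹) := by
          ext z
          have hr := jlocal_Dl_apply (ofComplex z)
          have hdz := Dl_ne_zero (ofComplex z)
          simp only [Function.comp_apply, Pi.add_apply, Function.const_apply, Pi.mul_apply,
            Pi.pow_apply, jan]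
          field_simp
          linear_combination -hr
        rw [this, analyticOrderAt_mul (hB.pow 2) hDi, analyticOrderAt_pow hB, hDi0, add_zero,
          ← hb]
      rw [hmain, ha1] at h2 ⊢
      have h3 : b' + 1 = 2 * b' := by
        have : ((b' + 1 : ℕ) : ℕ∞) = ((2 * b' : ℕ) : ℕ∞) := by
          push_cast
          simpa using h2
        exact_mod_cast this
      have h4 : b' = 1 := by omega
      rw [h4]
      norm_num
    · rw [if_neg h1]
      have hE6 : E6 τ₀ ≠ 0 := fun h => h1 (hj1.mpr h)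
      have hb1 : (b' : ℕ∞) = 0 := hb0.mpr hE6
      rw [hmain, ha1, hb1]
      norm_num

end

end Fermat.Agent.S24Lib
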