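import Mathlib
import Fermat.Agent.S21.GroupBound

/-!
# S24, piece (G): orbit counting for cyclic group actions
-/

set_option autoImplicit false

namespace Fermat.Agent.S24Lib

open Fermat.Agent.S21Lib

lemma G_card_orbit_eq_period {G X : Type*} [Group G] [MulAction G X] [Finite X] (ε : G) (x : X) :
    Nat.card {x' : X // MulAction.orbitRel (Subgroup.zpowers ε) X x x'} = MulAction.period ε x := by
  classical
  have e : {x' : X // MulAction.orbitRel (Subgroup.zpowers ε) X x x'} ≃
      MulAction.orbit (Subgroup.zpowers ε) x :=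
    Equiv.subtypeEquivRight fun x' => by
      rw [MulAction.orbitRel_apply]
      exact MulAction.mem_orbit_symm
  haveI : Fintype (MulAction.orbit (Subgroup.zpowers ε) x) := Fintype.ofFinite _
  rw [Nat.card_congr e, Nat.card_eq_fintype_card, ← MulAction.minimalPeriod_eq_card,
    MulAction.period_eq_minimalPeriod]

lemma G_fix_iff {G X : Type*} [Group G] [MulAction G X] (ε : G) (p : ℕ)
    (hp : p.Prime) (hε : ∀ x : X, ε ^ p • x = x) {i : ℕ} (hi : 0 < i) (hip : i < p) (x : X) :
    ε ^ i • x = x ↔ ε • x = x := by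
  rw [MulAction.pow_smul_eq_iff_period_dvd, ← MulAction.period_eq_one_iff]
  have h1 : MulAction.period ε x ∣ p := MulAction.pow_smul_eq_iff_period_dvd.1 (hε x)
  constructor
  · intro h
    rcases (Nat.dvd_prime hp).1 h1 with h2 | h2
    · exact h2
    · rw [h2] at h
      exact absurd (Nat.le_of_dvd hi h) (not_le.2 hip)
  · intro h
    rw [h]
    exact one_dvd _

theorem orbit_count_of_prime {G X : Type*} [Group G] [MulAction G X] [Finite X] (ε : G) (p : ℕ)
    (hp : p.Prime) (hε : ∀ x : X, ε ^ p • x = x) :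
    p * Nat.card (MulAction.orbitRel.Quotient (Subgroup.zpowers ε) X) =
      Nat.card X + (p - 1) * Nat.card {x : X // ε • x = x} := by
  classical
  haveI := Fintype.ofFinite X
  rw [← gb_finrank_inv_eq_card_orbits, gb_card_inv ε p hp.pos hε, Finset.range_eq_Ico,
    Finset.sum_eq_sum_Ico_succ_bot hp.pos]
  congr 1
  · rw [Nat.card_eq_fintype_card]
    exact Fintype.card_congr (Equiv.subtypeUnivEquiv fun x => by simp)
  · have : ∀ i ∈ Finset.Ico (0 + 1) p, Fintype.card {x : X // ε ^ i • x = x}
        = Nat.card {x : X // ε • x = x} := by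
      intro i hi
      rw [Finset.mem_Ico] at hi
      rw [Nat.card_eq_fintype_card]
      exact Fintype.card_congr (Equiv.subtypeEquivRight fun x => G_fix_iff ε p hp hε hi.1 hi.2 x)
    rw [Finset.sum_congr rfl this]
    simp

theorem le_card_orbit_of_prime {G X : Type*} [Group G] [MulAction G X] [Finite X] (ε : G) (p : ℕ)
    (hp : p.Prime) (hε : ∀ x : X, ε ^ p • x = x) (x : X) (hx : ε • x ≠ x) :
    p ≤ Nat.card {x' : X // MulAction.orbitRel (Subgroup.zpowers ε) X x x'} := by
  rw [G_card_orbit_eq_period]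
  have h1 : MulAction.period ε x ∣ p := MulAction.pow_smul_eq_iff_period_dvd.1 (hε x)
  rcases (Nat.dvd_prime hp).1 h1 with h2 | h2
  · exact absurd (MulAction.period_eq_one_iff.1 h2) hx
  · exact h2.ge

/-- the size `h` of the `⟨ε⟩`-orbit of `x` divides `n` if `ε ^ n` acts trivially, and `ε ^ h x = x` -/
theorem card_orbit_dvd {G X : Type*} [Group G] [MulAction G X] [Finite X] (ε : G) (n : ℕ)
    (hε : ∀ x : X, ε ^ n • x = x) (x : X) :
    Nat.card {x' : X // MulAction.orbitRel (Subgroup.zpowers ε) X x x'} ∣ n ∧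
      ε ^ Nat.card {x' : X // MulAction.orbitRel (Subgroup.zpowers ε) X x x'} • x = x := by
  rw [G_card_orbit_eq_period]
  exact ⟨MulAction.pow_smul_eq_iff_period_dvd.1 (hε x), MulAction.pow_period_smul ε x⟩

end Fermat.Agent.S24Lib
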