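import Fermat.Agent.S24.AlgDefs

/-!
# S24 library, piece (D1): Kähler differentials of a function field in one variable
-/

set_option autoImplicit false

open AlgebraicCurve IntermediateField KaehlerDifferential Polynomial

namespace Fermat.Agent.S24Lib

variable {K F : Type*} [Field K] [Field F] [Algebra K F]

/-- `F` is algebraic over `K(y)` for every transcendental `y`. -/
theorem D1_isAlgebraic (h : IsFF K F) {y : F} (hy : Transcendental K y) :
    Algebra.IsAlgebraic K⟮y⟯ F := by
  obtain ⟨x, hx, hfin⟩ := h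
  have halg : Algebra.IsAlgebraic K⟮x⟯ F := Algebra.IsAlgebraic.of_finite _ _
  have halg' : Algebra.IsAlgebraic (Algebra.adjoin K ({x} : Set F)) F :=
    IntermediateField.isAlgebraic_adjoin_iff_top.mp halg
  have hle : Algebra.trdeg K F ≤ Cardinal.mk ({x} : Set F) :=
    Algebra.IsAlgebraic.trdeg_le_cardinalMk K ({x} : Set F)
  have hind : AlgebraicIndependent K (fun _ : Unit => y) :=
    algebraicIndependent_unique_type_iff.mpr hy
  have hb : IsTranscendenceBasis K (fun _ : Unit => y) := by
    apply hind.isTranscendenceBasis_of_lift_trdeg_le_of_finite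
    simpa using hle
  have := hb.isAlgebraic_field
  rwa [Set.range_const] at this

open TensorProduct in
theorem D1_key [CharZero K] (h : IsFF K F) {y : F} (hy : Transcendental K y) :
    ∃ e : Ω[F⁄K] ≃ₗ[F] F, e (D K F y) = 1 := by
  have halg := D1_isAlgebraic h hy
  let i1 : Algebra K[X] F := (aeval y : K[X] →ₐ[K] F).toRingHom.toAlgebra
  have hmap1 : ∀ p : K[X], algebraMap K[X] F p = aeval y p := fun p => rfl
  have : IsScalarTower K K[X] F := IsScalarTower.of_algebraMap_eq (fun a => by
    rw [hmap1]; simp)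
  let i2 : Algebra K[X] K⟮y⟯ :=
    (aeval (AdjoinSimple.gen K y) : K[X] →ₐ[K] K⟮y⟯).toRingHom.toAlgebra
  have hmap2 : ∀ p : K[X], algebraMap K[X] K⟮y⟯ p = aeval (AdjoinSimple.gen K y) p := fun p => rfl
  have : IsScalarTower K[X] K⟮y⟯ F := IsScalarTower.of_algebraMap_eq (fun p => by
    rw [hmap1, hmap2]
    rw [← Polynomial.aeval_algebraMap_apply]
    simp)
  have : FaithfulSMul K[X] K⟮y⟯ := by
    rw [faithfulSMul_iff_algebraMap_injective]
    intro p q hpq
    have := congrArg (algebraMap K⟮y⟯ F) hpq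
    rw [← IsScalarTower.algebraMap_apply, ← IsScalarTower.algebraMap_apply, hmap1, hmap1] at this
    exact (transcendental_iff_injective.mp hy) this
  have : IsFractionRing K[X] K⟮y⟯ := by
    refine IsFractionRing.of_field _ _ fun z => ?_
    obtain ⟨r, s, hrs⟩ := (IntermediateField.mem_adjoin_simple_iff K z.1).mp z.2
    refine ⟨r, s, Subtype.ext ?_⟩
    rw [hrs, hmap2, hmap2]
    simp
  have : Algebra.FormallyEtale K[X] K⟮y⟯ :=
    Algebra.FormallyEtale.of_isLocalization (nonZeroDivisors K[X])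
  have : Algebra.FormallyEtale K⟮y⟯ F := Algebra.FormallyEtale.of_isSeparable _ _
  have : Algebra.FormallyEtale K[X] F := Algebra.FormallyEtale.comp K[X] K⟮y⟯ F
  let e1 := tensorKaehlerEquivOfFormallyEtale K K[X] F
  let e2 : F ⊗[K[X]] Ω[K[X]⁄K] ≃ₗ[F] F ⊗[K[X]] K[X] :=
    TensorProduct.AlgebraTensorModule.congr (LinearEquiv.refl F F)
      (KaehlerDifferential.polynomialEquiv K)
  let e3 : F ⊗[K[X]] K[X] ≃ₗ[F] F := TensorProduct.AlgebraTensorModule.rid K[X] F F
  refine ⟨e1.symm ≪≫ₗ e2 ≪≫ₗ e3, ?_⟩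
  have hy' : y = algebraMap K[X] F X := by rw [hmap1]; simp
  rw [hy']
  simp only [LinearEquiv.trans_apply]
  rw [show e1.symm (D K F (algebraMap K[X] F X)) = 1 ⊗ₜ D K K[X] X from
    tensorKaehlerEquivOfFormallyEtale_symm_D_algebraMap K K[X] F X]
  simp [e2, e3, KaehlerDifferential.polynomialEquiv_D]

section
variable [IsAlgClosed K] [CharZero K]

theorem span_D_eq_top (h : IsFF K F) {y : F} (hy : Transcendental K y) :
    Submodule.span F {D K F y} = ⊤ := by
  obtain ⟨e, he⟩ := D1_key h hy
  rw [eq_top_iff]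
  intro ω _
  rw [Submodule.mem_span_singleton]
  refine ⟨e ω, e.injective ?_⟩
  rw [map_smul, he, smul_eq_mul, mul_one]

theorem D_ne_zero (h : IsFF K F) {y : F} (hy : Transcendental K y) : D K F y ≠ 0 := by
  obtain ⟨e, he⟩ := D1_key h hy
  intro h0
  rw [h0, map_zero] at he
  exact zero_ne_one he

end

end Fermat.Agent.S24Lib
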