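import Fermat.Agent.S24.PlaceFibre
import Fermat.Agent.S24.Kaehler

/-!
# S24 library, piece (D2): order of a differential at a place
-/

set_option autoImplicit false

open AlgebraicCurve IntermediateField KaehlerDifferential

namespace Fermat.Agent.S24Lib

variable {K F : Type*} [Field K] [Field F] [Algebra K F]

/-- `x` has order at least `n` at `v` (with `0` having order `∞`). -/
def D2_ge (v : Place K F) (n : ℤ) (x : F) : Prop := x = 0 ∨ n ≤ v.ord x

namespace D2

variable (v : Place K F)

theorem ge_zero (n : ℤ) : D2_ge v n 0 := Or.inl rfl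

theorem ge_mono {n m : ℤ} (h : m ≤ n) {x : F} (hx : D2_ge v n x) : D2_ge v m x :=
  hx.imp id (fun h' => h.trans h')

theorem ge_add {n : ℤ} {x y : F} (hx : D2_ge v n x) (hy : D2_ge v n y) : D2_ge v n (x + y) := by
  rcases hx with rfl | hx
  · simpa using hy
  rcases hy with rfl | hy
  · rw [add_zero]; exact Or.inr hx
  by_cases h : x + y = 0
  · exact Or.inl h
  · exact Or.inr ((le_min hx hy).trans (min_le_ord_add v h))

theorem ge_mul {n m : ℤ} {x y : F} (hx : D2_ge v n x) (hy : D2_ge v m y) :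
    D2_ge v (n + m) (x * y) := by
  rcases hx with rfl | hx
  · simp [D2_ge]
  rcases hy with rfl | hy
  · simp [D2_ge]
  by_cases hx0 : x = 0
  · simp [D2_ge, hx0]
  by_cases hy0 : y = 0
  · simp [D2_ge, hy0]
  · right
    rw [v.ord_mul hx0 hy0]
    omega

theorem ord_neg (x : F) : v.ord (-x) = v.ord x := by
  by_cases hx : x = 0
  · simp [hx]
  have h1 : (-1 : F) = algebraMap K F (-1) := by simp
  rw [← neg_one_mul, v.ord_mul (by simp) hx, h1, ord_algebraMap, zero_add]

theorem ge_neg {n : ℤ} {x : F} (hx : D2_ge v n x) : D2_ge v n (-x) := by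
  rcases hx with rfl | hx
  · simp [D2_ge]
  · right; rwa [ord_neg]

theorem ge_sub {n : ℤ} {x y : F} (hx : D2_ge v n x) (hy : D2_ge v n y) : D2_ge v n (x - y) := by
  rw [sub_eq_add_neg]; exact ge_add v hx (ge_neg v hy)

theorem ge_of_ord {x : F} {n : ℤ} (h : n ≤ v.ord x) : D2_ge v n x := Or.inr h

theorem add_ne_zero_of_ge {a b : F} (hb : b ≠ 0) (ha : D2_ge v (v.ord b + 1) a) :
    a + b ≠ 0 := by
  rcases ha with rfl | ha
  · simpa using hb
  intro h
  have : a = -b := eq_neg_of_add_eq_zero_left h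
  rw [this, ord_neg] at ha
  omega

theorem ord_add_eq {a b : F} (hb : b ≠ 0) (ha : D2_ge v (v.ord b + 1) a) :
    v.ord (a + b) = v.ord b := by
  have hab : a + b ≠ 0 := add_ne_zero_of_ge v hb ha
  rcases ha with rfl | ha
  · simp
  have h1 := min_le_ord_add v hab
  have h2 : min (v.ord (a + b)) (v.ord (-a)) ≤ v.ord ((a + b) + -a) :=
    min_le_ord_add v (by simpa using hb)
  rw [ord_neg] at h2
  simp only [add_neg_cancel_comm] at h2
  rcases le_total (v.ord (a + b)) (v.ord a) with h | h
  · rw [min_eq_left h] at h2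
    rw [min_eq_right (by omega)] at h1
    omega
  · rw [min_eq_right h] at h2
    omega

section
variable [IsAlgClosed K] [CharZero K]

/-- a derivation is bounded below on the valuation ring -/
theorem exists_bound (h : IsFF K F) (δ : Derivation K F F) :
    ∃ C : ℕ, ∀ u : F, 0 ≤ v.ord u → D2_ge v (-(C : ℤ)) (δ u) := by
  obtain ⟨T, hT, hgen⟩ := exists_finset_generators h v
  -- a bound on the generators
  obtain ⟨C, hC⟩ : ∃ C : ℕ, ∀ b ∈ T, -(C : ℤ) ≤ v.ord (δ b) := by
    classical
    refine ⟨T.sup (fun b => (-(v.ord (δ b))).toNat), fun b hb => ?_⟩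
    have h1 : (-(v.ord (δ b))).toNat ≤ T.sup (fun b => (-(v.ord (δ b))).toNat) :=
      Finset.le_sup (f := fun b => (-(v.ord (δ b))).toNat) hb
    have h2 := Int.self_le_toNat (-(v.ord (δ b)))
    omega
  have hadj : ∀ a ∈ Algebra.adjoin K (T : Set F), D2_ge v 0 a ∧ D2_ge v (-(C : ℤ)) (δ a) := by
    intro a ha
    induction ha using Algebra.adjoin_induction with
    | mem x hx => exact ⟨Or.inr (hT x hx), Or.inr (hC x hx)⟩
    | algebraMap r =>
      refine ⟨Or.inr (ord_algebraMap v r).ge, ?_⟩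
      rw [Derivation.map_algebraMap]; exact ge_zero v _
    | add x y _ _ hx hy =>
      refine ⟨ge_add v hx.1 hy.1, ?_⟩
      rw [map_add]; exact ge_add v hx.2 hy.2
    | mul x y _ _ hx hy =>
      refine ⟨by simpa using ge_mul v hx.1 hy.1, ?_⟩
      rw [Derivation.leibniz, smul_eq_mul, smul_eq_mul]
      exact ge_add v (by simpa using ge_mul v hx.1 hy.2) (by simpa using ge_mul v hy.1 hx.2)
  refine ⟨C, fun u hu => ?_⟩
  obtain ⟨a, s, ha, hs, hs0, hsord, hus⟩ := hgen u hu
  -- δ u * s = δ a - u * δ s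
  have h1 : δ u * s = δ a - u * δ s := by
    have := congrArg δ hus
    rw [Derivation.leibniz, smul_eq_mul, smul_eq_mul] at this
    linear_combination this
  have h2 : D2_ge v (-(C : ℤ)) (δ u * s) := by
    rw [h1]
    exact ge_sub v (hadj a ha).2 (by simpa using ge_mul v (ge_of_ord v hu) (hadj s hs).2)
  rcases h2 with h2 | h2
  · left
    exact (mul_eq_zero.mp h2).resolve_right hs0
  · by_cases hδ : δ u = 0
    · exact Or.inl hδ
    · right
      rwa [v.ord_mul hδ hs0, hsord, add_zero] at h2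

/-- a derivation with `δ t = 1` (`t` a uniformizer) preserves the valuation ring -/
theorem ge_zero_of_derivation (h : IsFF K F) (δ : Derivation K F F) {t : F} (ht : v.ord t = 1)
    (hδt : δ t = 1) : ∀ u : F, 0 ≤ v.ord u → D2_ge v 0 (δ u) := by
  obtain ⟨C, hC⟩ := exists_bound v h δ
  have ht0 : t ≠ 0 := by rintro rfl; simp at ht
  have key : ∀ n : ℕ, ∀ u : F, 0 ≤ v.ord u → D2_ge v (min 0 ((n : ℤ) - C)) (δ u) := by
    intro n
    induction n with
    | zero =>
      intro u hu
      refine ge_mono v ?_ (hC u hu)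
      simp
    | succ n ih =>
      intro u hu
      obtain ⟨c, hc⟩ := exists_residue h v hu
      rcases hc with rfl | hc
      · rw [Derivation.map_algebraMap]; exact ge_zero v _
      · -- u = c + t * u'
        set u' := (u - algebraMap K F c) / t with hu'
        have hne : u - algebraMap K F c ≠ 0 := by
          intro h0; rw [h0] at hc; simp at hc
        have hu'ord : 0 ≤ v.ord u' := by
          rw [hu', div_eq_mul_inv, v.ord_mul hne (inv_ne_zero ht0), v.ord_inv, ht]
          omega
        have hu_eq : u = algebraMap K F c + t * u' := by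
          rw [hu']; field_simp; ring
        have hδu : δ u = u' + t * δ u' := by
          rw [hu_eq, map_add, Derivation.map_algebraMap, Derivation.leibniz, hδt]
          simp only [smul_eq_mul]; ring
        rw [hδu]
        refine ge_add v (ge_mono v (min_le_left _ _) (ge_of_ord v hu'ord)) ?_
        refine ge_mono v ?_ (ge_mul v (ge_of_ord v ht.ge) (ih u' hu'ord))
        push_cast
        omega
  intro u hu
  simpa using key C u hu

theorem ord_derivation_pos (h : IsFF K F) (δ : Derivation K F F) {t : F} (ht : v.ord t = 1)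
    (hδt : δ t = 1) {y : F} (hy : 0 < v.ord y) : δ y ≠ 0 ∧ v.ord (δ y) = v.ord y - 1 := by
  have ht0 : t ≠ 0 := by rintro rfl; simp at ht
  have hy0 : y ≠ 0 := by rintro rfl; simp at hy
  obtain ⟨m, hm⟩ : ∃ m : ℕ, v.ord y = (m : ℤ) + 1 := ⟨(v.ord y - 1).toNat, by omega⟩
  set u := y / t ^ (m + 1) with hu
  have htm : t ^ (m + 1) ≠ 0 := pow_ne_zero _ ht0
  have hordpow : ∀ k : ℕ, v.ord (t ^ k) = k := by
    intro k
    have := v.ord_zpow t (k : ℤ)
    rw [zpow_natCast, ht, mul_one] at this
    exact this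
  have huord : v.ord u = 0 := by
    rw [hu, div_eq_mul_inv, v.ord_mul hy0 (inv_ne_zero htm), v.ord_inv, hordpow, hm]
    push_cast; ring
  have hu0 : u ≠ 0 := div_ne_zero hy0 htm
  have hy_eq : y = u * t ^ (m + 1) := by rw [hu]; field_simp
  have hδy : δ y = t ^ (m + 1) * δ u + (algebraMap K F ((m : K) + 1)) * u * t ^ m := by
    rw [hy_eq, Derivation.leibniz, Derivation.leibniz_pow, hδt]
    simp only [smul_eq_mul, map_add, map_natCast, map_one, nsmul_eq_mul, add_tsub_cancel_right]
    push_cast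
    ring
  have hc0 : (algebraMap K F ((m : K) + 1)) ≠ 0 := by
    rw [Ne, map_eq_zero_iff _ (algebraMap K F).injective]
    exact_mod_cast Nat.succ_ne_zero m
  have hb0 : (algebraMap K F ((m : K) + 1)) * u * t ^ m ≠ 0 :=
    mul_ne_zero (mul_ne_zero hc0 hu0) (pow_ne_zero _ ht0)
  have hbord : v.ord ((algebraMap K F ((m : K) + 1)) * u * t ^ m) = m := by
    rw [v.ord_mul (mul_ne_zero hc0 hu0) (pow_ne_zero _ ht0), v.ord_mul hc0 hu0, ord_algebraMap,
      huord, hordpow]
    ring
  have hge : D2_ge v (v.ord ((algebraMap K F ((m : K) + 1)) * u * t ^ m) + 1)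
      (t ^ (m + 1) * δ u) := by
    rw [hbord]
    have := ge_mul v (ge_of_ord v (hordpow (m + 1)).ge)
      (ge_zero_of_derivation v h δ ht hδt u huord.ge)
    refine ge_mono v ?_ this
    push_cast; omega
  rw [hδy]
  refine ⟨add_ne_zero_of_ge v hb0 hge, ?_⟩
  rw [ord_add_eq v hb0 hge, hbord, hm]
  ring

theorem ord_derivation (h : IsFF K F) (δ : Derivation K F F) {t : F} (ht : v.ord t = 1)
    (hδt : δ t = 1) {y : F} (hy : v.ord y ≠ 0) : v.ord (δ y) = v.ord y - 1 := by
  rcases lt_or_gt_of_ne hy with hneg | hpos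
  · have hy0 : y ≠ 0 := by rintro rfl; simp at hy
    obtain ⟨h0, h1⟩ : δ y⁻¹ ≠ 0 ∧ v.ord (δ y⁻¹) = v.ord y⁻¹ - 1 :=
      ord_derivation_pos v h δ ht hδt (by rw [v.ord_inv]; omega)
    rw [Derivation.leibniz_inv, v.ord_inv, smul_eq_mul] at h1
    have hδy : δ y ≠ 0 := by
      intro h0'
      rw [Derivation.leibniz_inv, h0', smul_zero] at h0
      exact h0 rfl
    rw [v.ord_mul (by simpa using hy0) hδy, ord_neg, ← zpow_natCast,
      v.ord_zpow, v.ord_inv] at h1
    push_cast at h1
    omega
  · exact (ord_derivation_pos v h δ ht hδt hpos).2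

theorem exists_dCoord : ∃ π : v.toValuationSubring, Irreducible π ∧ v.dCoord = D K F (π : F) :=
  ⟨_, (IsDiscreteValuationRing.exists_irreducible _).choose_spec, rfl⟩

/-- the coordinate description of `differentialCoeff` -/
theorem exists_coord (h : IsFF K F) :
    ∃ (t : F) (e : Ω[F⁄K] ≃ₗ[F] F), v.ord t = 1 ∧ e (D K F t) = 1 ∧
      ∀ ω, v.differentialCoeff ω = e ω := by
  obtain ⟨π, hπ, hd⟩ := exists_dCoord v
  have ht : v.ord (π : F) = 1 := v.ord_coe_irreducible hπ
  have htr : Transcendental K (π : F) := transcendental_of_ord_ne_zero v (by rw [ht]; exact one_ne_zero)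
  obtain ⟨e, he⟩ := D1_key h htr
  have : v.DCoordGenerates := ⟨by rw [hd]; exact span_D_eq_top h htr⟩
  have : Nontrivial Ω[F⁄K] := ⟨⟨D K F (π : F), 0, D_ne_zero h htr⟩⟩
  refine ⟨π, e, ht, he, fun ω => ?_⟩
  apply v.differentialCoeff_unique
  apply e.injective
  rw [hd, map_smul, he, smul_eq_mul, mul_one]

end

end D2

section
variable [IsAlgClosed K] [CharZero K]

theorem ordDifferential_smul' (h : IsFF K F) (v : Place K F) {f : F} (hf : f ≠ 0) {ω : Ω[F⁄K]}
    (hω : ω ≠ 0) : v.ordDifferential (f • ω) = v.ord f + v.ordDifferential ω := by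
  obtain ⟨t, e, _, _, hcoef⟩ := D2.exists_coord v h
  rw [Place.ordDifferential, Place.ordDifferential, hcoef, hcoef, map_smul, smul_eq_mul,
    v.ord_mul hf (by simpa using hω)]

theorem ordDifferential_D (h : IsFF K F) (v : Place K F) {y : F} (hy : v.ord y ≠ 0) :
    v.ordDifferential (D K F y) = v.ord y - 1 := by
  obtain ⟨t, e, ht, het, hcoef⟩ := D2.exists_coord v h
  rw [Place.ordDifferential, hcoef]
  exact D2.ord_derivation v h (e.toLinearMap.compDer (D K F)) ht het hy

end

end Fermat.Agent.S24Lib
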