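import Fermat.Agent.S24.AlgDefs

/-!
# S24, piece P1 : basic facts on places of a function field
-/

set_option autoImplicit false

open AlgebraicCurve IntermediateField

namespace Fermat.Agent.S24Lib

variable {K F : Type*} [Field K] [Field F] [Algebra K F]

theorem mem_valuationSubring_iff (v : Place K F) (u : F) :
    u ∈ v.toValuationSubring ↔ 0 ≤ v.ord u := by
  rcases eq_or_ne u 0 with rfl | hu
  · simp [zero_mem]
  obtain ⟨π, hπ⟩ := IsDiscreteValuationRing.exists_irreducible v.toValuationSubring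
  obtain ⟨w, hw⟩ := v.exists_unit_mul_zpow hu hπ
  have hπF : (π : F) ≠ 0 := by
    simpa [ne_eq, ZeroMemClass.coe_eq_zero] using hπ.ne_zero
  constructor
  · intro hmem
    by_contra hneg
    push Not at hneg
    obtain ⟨k, hk⟩ : ∃ k : ℕ, v.ord u = -((k : ℤ) + 1) := ⟨(-(v.ord u) - 1).toNat, by omega⟩
    rw [hk] at hw
    have h1 : (⟨u, hmem⟩ : v.toValuationSubring) * π ^ (k + 1) = w := by
      apply Subtype.ext
      push_cast
      rw [hw, zpow_neg, mul_assoc]
      have : ((π : F) ^ ((k : ℤ) + 1))⁻¹ * (π : F) ^ (k + 1) = 1 := by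
        rw [← zpow_natCast]
        push_cast
        exact inv_mul_cancel₀ (zpow_ne_zero _ hπF)
      rw [this, mul_one]
    have h2 : IsUnit (π ^ (k + 1)) := isUnit_of_mul_isUnit_right (h1 ▸ w.isUnit)
    exact hπ.not_isUnit ((isUnit_pow_succ_iff).mp h2)
  · intro h
    obtain ⟨k, hk⟩ : ∃ k : ℕ, v.ord u = k := ⟨(v.ord u).toNat, by omega⟩
    rw [hw, hk, zpow_natCast]
    exact mul_mem (w : v.toValuationSubring).2 (pow_mem π.2 k)

theorem ord_algebraMap (v : Place K F) (a : K) : v.ord (algebraMap K F a) = 0 := by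
  rcases eq_or_ne a 0 with rfl | ha
  · simp
  have h1 := (mem_valuationSubring_iff v _).mp (v.algebraMap_mem' a)
  have h2 := (mem_valuationSubring_iff v _).mp (v.algebraMap_mem' a⁻¹)
  rw [map_inv₀, v.ord_inv] at h2
  omega

theorem exists_ord_eq_one (v : Place K F) : ∃ t : F, v.ord t = 1 := by
  obtain ⟨π, hπ⟩ := IsDiscreteValuationRing.exists_irreducible v.toValuationSubring
  exact ⟨π, v.ord_coe_irreducible hπ⟩

theorem min_le_ord_add (v : Place K F) {f g : F} (hfg : f + g ≠ 0) :
    min (v.ord f) (v.ord g) ≤ v.ord (f + g) := by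
  rcases eq_or_ne f 0 with rfl | hf
  · rw [zero_add]; exact min_le_right _ _
  rcases eq_or_ne g 0 with rfl | hg
  · rw [add_zero]; exact min_le_left _ _
  -- wlog ord f ≤ ord g
  have key : ∀ a b : F, a ≠ 0 → b ≠ 0 → a + b ≠ 0 → v.ord a ≤ v.ord b → v.ord a ≤ v.ord (a + b) := by
    intro a b ha hb hab hle
    have h1 : 0 ≤ v.ord (b / a) := by
      rw [div_eq_mul_inv, v.ord_mul hb (inv_ne_zero ha), v.ord_inv]; omega
    have h2 : 1 + b / a ∈ v.toValuationSubring :=
      add_mem (one_mem _) ((mem_valuationSubring_iff v _).mpr h1)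
    have h3 := (mem_valuationSubring_iff v _).mp h2
    have h4 : a + b = a * (1 + b / a) := by field_simp
    have h5 : 1 + b / a ≠ 0 := by
      intro h; rw [h4, h, mul_zero] at hab; exact hab rfl
    rw [h4, v.ord_mul ha h5]
    omega
  rcases le_total (v.ord f) (v.ord g) with h | h
  · rw [min_eq_left h]; exact key f g hf hg hfg h
  · rw [min_eq_right h, add_comm]; exact key g f hg hf (by rwa [add_comm]) h

theorem place_ext_of_ord {v w : Place K F} (h : ∀ f, 0 ≤ v.ord f → 0 ≤ w.ord f) : v = w := by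
  apply Place.ext
  apply le_antisymm
  · intro f hf
    exact (mem_valuationSubring_iff w f).mpr (h f ((mem_valuationSubring_iff v f).mp hf))
  · intro f hf
    by_contra hfv
    rw [mem_valuationSubring_iff] at hfv
    push Not at hfv
    have hf0 : f ≠ 0 := by
      rintro rfl; simp at hfv
    apply w.ne_top'
    rw [eq_top_iff]
    intro g _
    rcases eq_or_ne g 0 with rfl | hg
    · exact zero_mem _
    -- g = (g * f⁻¹ ^ k) * f ^ k
    set k : ℕ := (-(v.ord g)).toNat with hk
    have h1 : 0 ≤ v.ord (g * (f ^ k)⁻¹) := by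
      rw [v.ord_mul hg (inv_ne_zero (pow_ne_zero _ hf0)), v.ord_inv, ← zpow_natCast, v.ord_zpow]
      have : (k : ℤ) * (-(v.ord f)) ≥ k * 1 := mul_le_mul_of_nonneg_left (by omega) (by positivity)
      have h2 : -(v.ord g) ≤ k := by rw [hk]; exact Int.self_le_toNat _
      nlinarith
    have h2 := (mem_valuationSubring_iff w _).mpr (h _ h1)
    have h3 : g = (g * (f ^ k)⁻¹) * f ^ k := by
      field_simp
    rw [h3]
    exact mul_mem h2 (pow_mem hf k)

open scoped IntermediateField.algebraAdjoinAdjoin in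
theorem IsFF.finiteDimensional (h : IsFF K F) {y : F} (hy : Transcendental K y) :
    FiniteDimensional K⟮y⟯ F := by
  obtain ⟨x, hx, hfin⟩ := h
  -- `F` is algebraic over `K[x]`
  have h1 : Algebra.IsAlgebraic (Algebra.adjoin K {x}) F :=
    Algebra.IsAlgebraic.trans (Algebra.adjoin K {x}) K⟮x⟯ F
  have h2 : Algebra.trdeg K F ≤ 1 := by
    have := Algebra.IsAlgebraic.trdeg_le_cardinalMk K ({x} : Set F)
    simpa using this
  have h3 : AlgebraicIndependent K ((↑) : ({y} : Set F) → F) :=
    (algebraicIndependent_singleton_iff (⟨y, rfl⟩ : ({y} : Set F))).mpr hy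
  have h4 : IsTranscendenceBasis K ((↑) : ({y} : Set F) → F) :=
    h3.isTranscendenceBasis_of_trdeg_le_of_finite (by simpa using h2)
  have h5 : Algebra.IsAlgebraic (Algebra.adjoin K ({y} : Set F)) F := by
    have := h4.isAlgebraic
    rwa [Subtype.range_coe] at this
  have h6 : Algebra.IsAlgebraic K⟮y⟯ F :=
    ⟨fun f => (IsFractionRing.isAlgebraic_iff (Algebra.adjoin K ({y} : Set F)) K⟮y⟯ F).mp (h5.1 f)⟩
  -- finite generation
  have e1 : Algebra.EssFiniteType K K⟮x⟯ :=
    IntermediateField.essFiniteType_iff.mpr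
      (IntermediateField.fg_adjoin_of_finite (Set.finite_singleton x))
  have e2 : Algebra.EssFiniteType K F := Algebra.EssFiniteType.comp K K⟮x⟯ F
  have e3 : Algebra.EssFiniteType K⟮y⟯ F := Algebra.EssFiniteType.of_comp K K⟮y⟯ F
  obtain ⟨s, hs⟩ := IntermediateField.fg_top K⟮y⟯ F
  have e4 : FiniteDimensional K⟮y⟯ (IntermediateField.adjoin K⟮y⟯ (s : Set F)) :=
    IntermediateField.finiteDimensional_adjoin (fun f _ => (h6.1 f).isIntegral)
  rw [hs] at e4
  exact (IntermediateField.topEquiv (F := K⟮y⟯) (E := F)).toLinearEquiv.finiteDimensional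

theorem transcendental_of_not_mem_range [IsAlgClosed K] {y : F}
    (hy : y ∉ (algebraMap K F).range) : Transcendental K y := by
  intro halg
  apply hy
  apply minpoly.mem_range_of_degree_eq_one
  exact IsAlgClosed.degree_eq_one_of_irreducible K (minpoly.irreducible halg.isIntegral)

theorem transcendental_of_ord_ne_zero (v : Place K F) {y : F} (hy : v.ord y ≠ 0) :
    Transcendental K y := by
  intro halg
  apply hy
  have key : ∀ z : F, IsAlgebraic K z → 0 ≤ v.ord z := by
    intro z hz
    have h1 : IsIntegral v.toValuationSubring z := hz.isIntegral.tower_top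
    obtain ⟨a, ha⟩ := IsIntegrallyClosed.isIntegral_iff.mp h1
    rw [← mem_valuationSubring_iff, ← ha]
    exact a.2
  have h1 := key y halg
  have h2 := key y⁻¹ halg.inv
  rw [v.ord_inv] at h2
  omega

namespace P1

open Polynomial

open scoped IntermediateField.algebraAdjoinAdjoin in
/-- a polynomial relation between `t` and an element algebraic over `K(t)`. -/
theorem exists_rel (t u : F) (halg : IsAlgebraic K⟮t⟯ u) :
    ∃ P : K[X][X], P ≠ 0 ∧ P.eval₂ (aeval t : K[X] →ₐ[K] F).toRingHom u = 0 := by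
  have h1 : IsAlgebraic (Algebra.adjoin K ({t} : Set F)) u :=
    (IsFractionRing.isAlgebraic_iff (Algebra.adjoin K ({t} : Set F)) K⟮t⟯ F).mpr halg
  obtain ⟨p, hp0, hp⟩ := h1
  have hmem : ∀ q : K[X], aeval t q ∈ Algebra.adjoin K ({t} : Set F) := by
    intro q
    rw [Algebra.adjoin_singleton_eq_range_aeval]
    exact ⟨q, rfl⟩
  set φ0 : K[X] →ₐ[K] Algebra.adjoin K ({t} : Set F) :=
    (aeval t : K[X] →ₐ[K] F).codRestrict _ hmem with hφ0
  have hsurj : Function.Surjective φ0.toRingHom := by
    rintro ⟨z, hz⟩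
    rw [Algebra.adjoin_singleton_eq_range_aeval] at hz
    obtain ⟨q, hq⟩ := hz
    exact ⟨q, Subtype.ext hq⟩
  obtain ⟨P, hP⟩ := Polynomial.map_surjective φ0.toRingHom hsurj p
  refine ⟨P, ?_, ?_⟩
  · rintro rfl
    rw [Polynomial.map_zero] at hP
    exact hp0 hP.symm
  · rw [← hP, aeval_def, eval₂_map] at hp
    exact hp

/-- divide a relation by the largest power of `X`. -/
theorem exists_rel' (t u : F) (ht : t ≠ 0) (halg : IsAlgebraic K⟮t⟯ u) :
    ∃ P : K[X][X], P.map (constantCoeff : K[X] →+* K) ≠ 0 ∧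
      P.eval₂ (aeval t : K[X] →ₐ[K] F).toRingHom u = 0 := by
  obtain ⟨P, hP0, hP⟩ := exists_rel t u halg
  have hnu : ¬ IsUnit (C X : K[X][X]) := by
    intro h
    have := (Polynomial.isUnit_C.mp h)
    exact Polynomial.not_isUnit_X this
  obtain ⟨Q, hQ, hdvd⟩ := (FiniteMultiplicity.of_not_isUnit hnu hP0).exists_eq_pow_mul_and_not_dvd
  refine ⟨Q, ?_, ?_⟩
  · intro h
    apply hdvd
    rw [C_dvd_iff_dvd_coeff]
    intro i
    rw [X_dvd_iff]
    have := congrArg (fun q => coeff q i) h
    simpa using this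
  · rw [hQ, eval₂_mul, eval₂_pow, eval₂_C] at hP
    have h1 : (aeval t : K[X] →ₐ[K] F).toRingHom X = t := by simp
    rw [h1] at hP
    exact (mul_eq_zero.mp hP).resolve_left (pow_ne_zero _ ht)

theorem not_isUnit_of_ord_pos (v : Place K F) (a : v.toValuationSubring) (ha : 0 < v.ord (a : F)) :
    ¬ IsUnit a := by
  intro h
  have := v.ord_coe_unit h.unit
  rw [IsUnit.unit_spec] at this
  omega

theorem ord_pos_of_not_isUnit (v : Place K F) (a : v.toValuationSubring) (ha0 : a ≠ 0)
    (ha : ¬ IsUnit a) : 0 < v.ord (a : F) := by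
  have h1 := (mem_valuationSubring_iff v _).mp a.2
  rcases h1.lt_or_eq with h | h
  · exact h
  exfalso
  apply ha
  have h2 : (a : F)⁻¹ ∈ v.toValuationSubring := by
    rw [mem_valuationSubring_iff, v.ord_inv]; omega
  have ha0' : (a : F) ≠ 0 := by simpa using ha0
  exact IsUnit.of_mul_eq_one ⟨(a : F)⁻¹, h2⟩ (Subtype.ext (by simp [ha0']))

theorem residue_mem_range [IsAlgClosed K] (h : IsFF K F) (v : Place K F) (w : v.ResidueField) :
    ∃ c : K, algebraMap K v.ResidueField c = w := by
  obtain ⟨u', rfl⟩ := IsLocalRing.residue_surjective w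
  obtain ⟨t, ht⟩ := exists_ord_eq_one v
  have htt : Transcendental K t := transcendental_of_ord_ne_zero v (by omega)
  have hfin := h.finiteDimensional htt
  have ht0 : t ≠ 0 := by rintro rfl; simp at ht
  have halg : Algebra.IsAlgebraic K⟮t⟯ F := Algebra.IsAlgebraic.of_finite K⟮t⟯ F
  obtain ⟨P, hP0, hP⟩ := exists_rel' (K := K) t (u' : F) ht0 (halg.1 _)
  have htm : t ∈ v.toValuationSubring := (mem_valuationSubring_iff v t).mpr (by omega)
  set t' : v.toValuationSubring := ⟨t, htm⟩ with ht'
  have hres : IsLocalRing.residue v.toValuationSubring t' = 0 := by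
    rw [IsLocalRing.residue_eq_zero_iff, IsLocalRing.mem_maximalIdeal, mem_nonunits_iff]
    exact not_isUnit_of_ord_pos v t' (by rw [ht']; simp only; omega)
  -- the relation holds in the valuation ring
  have h1 : P.eval₂ (aeval t' : K[X] →ₐ[K] v.toValuationSubring).toRingHom u' = 0 := by
    apply Subtype.val_injective
    have := Polynomial.hom_eval₂ P (aeval t' : K[X] →ₐ[K] v.toValuationSubring).toRingHom
      v.toValuationSubring.subtype u'
    change v.toValuationSubring.subtype _ = _
    rw [this]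
    have h2 : v.toValuationSubring.subtype.comp
        (aeval t' : K[X] →ₐ[K] v.toValuationSubring).toRingHom
        = (aeval t : K[X] →ₐ[K] F).toRingHom := by
      apply Polynomial.ringHom_ext
      · intro a; simp
      · simp [ht']
    rw [h2]
    exact hP
  have h3 := congrArg (IsLocalRing.residue v.toValuationSubring) h1
  rw [Polynomial.hom_eval₂, map_zero] at h3
  have h4 : (IsLocalRing.residue v.toValuationSubring).comp
      (aeval t' : K[X] →ₐ[K] v.toValuationSubring).toRingHom
      = (algebraMap K v.ResidueField).comp (constantCoeff : K[X] →+* K) := by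
    apply Polynomial.ringHom_ext
    · intro a; simp; rfl
    · simp [hres]
  rw [h4, ← eval₂_map] at h3
  have h5 : IsAlgebraic K (IsLocalRing.residue v.toValuationSubring u') := ⟨_, hP0, h3⟩
  by_contra hcon
  exact transcendental_of_not_mem_range (K := K) (F := v.ResidueField)
    (y := IsLocalRing.residue v.toValuationSubring u') (fun ⟨c, hc⟩ => hcon ⟨c, hc⟩) h5

end P1

theorem deg_eq_one [IsAlgClosed K] (h : IsFF K F) (v : Place K F) : v.deg = 1 := by
  rw [Place.deg, finrank_eq_one_iff_of_nonzero' (1 : v.ResidueField) one_ne_zero]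
  intro w
  obtain ⟨c, hc⟩ := P1.residue_mem_range h v w
  exact ⟨c, by rw [Algebra.smul_def, mul_one, hc]⟩

/-- every element of the valuation ring is congruent to a constant -/
theorem exists_residue [IsAlgClosed K] (h : IsFF K F) (v : Place K F) {u : F} (hu : 0 ≤ v.ord u) :
    ∃ c : K, u = algebraMap K F c ∨ 0 < v.ord (u - algebraMap K F c) := by
  have hum := (mem_valuationSubring_iff v u).mpr hu
  obtain ⟨c, hc⟩ := P1.residue_mem_range h v (IsLocalRing.residue _ ⟨u, hum⟩)
  refine ⟨c, ?_⟩
  by_cases h0 : u = algebraMap K F c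
  · exact Or.inl h0
  right
  have h1 : IsLocalRing.residue v.toValuationSubring
      ((⟨u, hum⟩ : v.toValuationSubring) - algebraMap K v.toValuationSubring c) = 0 := by
    rw [map_sub, ← hc, sub_eq_zero]
    rfl
  rw [IsLocalRing.residue_eq_zero_iff, IsLocalRing.mem_maximalIdeal, mem_nonunits_iff] at h1
  have h2 := P1.ord_pos_of_not_isUnit v _ (by
    intro h3
    apply h0
    have := congrArg Subtype.val h3
    simpa [sub_eq_zero] using this) h1
  simpa using h2

end Fermat.Agent.S24Lib
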