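import Fermat.Agent.S24.AlgDefs
import Fermat.Agent.S24.PlaceBasic

/-!
# S24 (P2): the fibre of a function field over a point of the line
-/

set_option autoImplicit false

open AlgebraicCurve IntermediateField IsDedekindDomain

namespace Fermat.Agent.S24Lib

namespace PF

section Dedekind

variable {K F : Type*} [Field K] [Field F] [Algebra K F]
variable {B : Type*} [CommRing B] [IsDedekindDomain B] [Algebra B F] [IsFractionRing B F]
  [Algebra K B] [IsScalarTower K B F]

/-- the order function of the place attached to a height one prime -/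
theorem ord_ofHeightOneSpectrum (w : HeightOneSpectrum B) (f : F) :
    (Place.ofHeightOneSpectrum (K := K) (F := F) w).ord f = -(WithZero.log (w.valuation F f)) := by
  rcases eq_or_ne f 0 with rfl | hf
  · simp
  set v : Place K F := Place.ofHeightOneSpectrum (K := K) w with hv
  obtain ⟨ϖ, hϖ⟩ := w.valuation_exists_uniformizer F
  have hϖ0 : ϖ ≠ 0 := by
    intro h
    rw [h, map_zero] at hϖ
    exact WithZero.exp_ne_zero.symm hϖ
  have hmem : ∀ x : F, x ∈ v.toValuationSubring ↔ w.valuation F x ≤ 1 := fun x => by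
    rw [hv, Place.ofHeightOneSpectrum_toValuationSubring, Valuation.mem_valuationSubring_iff]
  have hϖmem : ϖ ∈ v.toValuationSubring := by
    rw [hmem, hϖ, ← WithZero.exp_zero, WithZero.exp_le_exp]; norm_num
  -- units of the valuation ring
  have hunit : ∀ x : v.toValuationSubring, w.valuation F (x : F) = 1 → IsUnit x := by
    intro x hx
    have hx0 : (x : F) ≠ 0 := by
      intro h
      rw [h, map_zero] at hx
      exact zero_ne_one hx
    have hxi : (x : F)⁻¹ ∈ v.toValuationSubring := by
      rw [hmem, map_inv₀, hx, inv_one]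
    refine IsUnit.of_mul_eq_one ⟨(x : F)⁻¹, hxi⟩ ?_
    ext
    simp [hx0]
  have hirr : Irreducible (⟨ϖ, hϖmem⟩ : v.toValuationSubring) := by
    rw [IsDiscreteValuationRing.irreducible_iff_uniformizer]
    apply le_antisymm
    · intro x hx
      rw [IsLocalRing.mem_maximalIdeal, mem_nonunits_iff] at hx
      rw [Ideal.mem_span_singleton]
      have hx1 : w.valuation F (x : F) ≤ 1 := (hmem _).1 x.2
      have hx2 : w.valuation F (x : F) ≠ 1 := fun h => hx (hunit x h)
      have hx3 : w.valuation F (x : F) < 1 := lt_of_le_of_ne hx1 hx2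
      have hq : (x : F) * ϖ⁻¹ ∈ v.toValuationSubring := by
        rw [hmem, map_mul, map_inv₀, hϖ]
        rcases eq_or_ne (w.valuation F (x : F)) 0 with h0 | h0
        · rw [h0, zero_mul]; exact zero_le_one
        · rw [← WithZero.exp_log h0] at hx3 ⊢
          rw [← WithZero.exp_zero, WithZero.exp_lt_exp] at hx3
          rw [← WithZero.exp_neg, ← WithZero.exp_add, ← WithZero.exp_zero, WithZero.exp_le_exp]
          omega
      refine ⟨⟨_, hq⟩, ?_⟩
      ext
      simp only [MulMemClass.coe_mul]
      field_simp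
    · rw [Ideal.span_singleton_le_iff_mem, IsLocalRing.mem_maximalIdeal, mem_nonunits_iff]
      intro hu
      obtain ⟨z, hz⟩ := hu.exists_right_inv
      have hz' : ϖ * (z : F) = 1 := by
        have := congrArg Subtype.val hz
        simpa using this
      have h1 : w.valuation F ϖ * w.valuation F (z : F) = 1 := by
        rw [← map_mul, hz', map_one]
      have h2 : w.valuation F (z : F) ≤ 1 := (hmem _).1 z.2
      have h3 : w.valuation F ϖ < 1 := by
        rw [hϖ, ← WithZero.exp_zero, WithZero.exp_lt_exp]; norm_num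
      have h4 : w.valuation F ϖ * w.valuation F (z : F) < 1 :=
        lt_of_le_of_lt (mul_le_of_le_one_right zero_le h2) h3
      exact absurd h1 h4.ne
  have hf0 : w.valuation F f ≠ 0 := (Valuation.ne_zero_iff _).2 hf
  set n : ℤ := -(WithZero.log (w.valuation F f)) with hn
  have hval : w.valuation F (f * (ϖ ^ n)⁻¹) = 1 := by
    rw [map_mul, map_inv₀, map_zpow₀, hϖ, ← WithZero.exp_zsmul, ← WithZero.exp_neg]
    conv_lhs => rw [← WithZero.exp_log hf0]
    rw [← WithZero.exp_add, ← WithZero.exp_zero]
    congr 1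
    simp only [smul_eq_mul, hn]
    ring
  have humem : f * (ϖ ^ n)⁻¹ ∈ v.toValuationSubring := by rw [hmem, hval]
  have hu := hunit ⟨_, humem⟩ hval
  have key : f = ((hu.unit : v.toValuationSubring) : F) *
      (((⟨ϖ, hϖmem⟩ : v.toValuationSubring) : F) ^ n) := by
    rw [IsUnit.unit_spec]
    simp only
    field_simp
  conv_lhs => rw [key]
  exact v.ord_unit_smul_zpow hu.unit hirr n

theorem ord_algebraMap_nonneg (w : HeightOneSpectrum B) (b : B) :
    0 ≤ (Place.ofHeightOneSpectrum (K := K) (F := F) w).ord (algebraMap B F b) := by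
  rw [← mem_valuationSubring_iff, Place.ofHeightOneSpectrum_toValuationSubring,
    Valuation.mem_valuationSubring_iff]
  exact w.valuation_le_one b

theorem ord_algebraMap_pos_iff (w : HeightOneSpectrum B) {b : B} (hb : b ≠ 0) :
    0 < (Place.ofHeightOneSpectrum (K := K) (F := F) w).ord (algebraMap B F b) ↔
      b ∈ w.asIdeal := by
  have hb' : w.valuation F (algebraMap B F b) ≠ 0 :=
    (Valuation.ne_zero_iff _).2 ((map_ne_zero_iff _ (IsFractionRing.injective B F)).2 hb)
  rw [ord_ofHeightOneSpectrum, ← w.valuation_lt_one_iff_mem (K := F)]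
  conv_rhs => rw [← WithZero.exp_log hb', ← WithZero.exp_zero, WithZero.exp_lt_exp]
  omega

theorem le_ord_algebraMap_iff (w : HeightOneSpectrum B) {b : B} (hb : b ≠ 0) (n : ℕ) :
    (n : ℤ) ≤ (Place.ofHeightOneSpectrum (K := K) (F := F) w).ord (algebraMap B F b) ↔
      b ∈ w.asIdeal ^ n := by
  have hb' : w.valuation F (algebraMap B F b) ≠ 0 :=
    (Valuation.ne_zero_iff _).2 ((map_ne_zero_iff _ (IsFractionRing.injective B F)).2 hb)
  rw [ord_ofHeightOneSpectrum, ← w.intValuation_le_pow_iff_mem, ← w.valuation_of_algebraMap (K := F)]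
  conv_rhs => rw [← WithZero.exp_log hb', WithZero.exp_le_exp]
  omega

theorem ofHeightOneSpectrum_injective :
    Function.Injective (Place.ofHeightOneSpectrum (K := K) (F := F) (R := B)) := by
  intro w w' h
  ext b
  rcases eq_or_ne b 0 with rfl | hb
  · simp
  · rw [← ord_algebraMap_pos_iff (K := K) (F := F) w hb,
      ← ord_algebraMap_pos_iff (K := K) (F := F) w' hb, h]

/-- a place whose valuation ring contains `B` comes from a height one prime of `B` -/
theorem exists_heightOneSpectrum (v : Place K F) (hB : ∀ b : B, 0 ≤ v.ord (algebraMap B F b)) :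
    ∃ w : HeightOneSpectrum B, Place.ofHeightOneSpectrum (K := K) w = v := by
  have hB' : ∀ b : B, algebraMap B F b ∈ v.toValuationSubring.toSubring := fun b =>
    (mem_valuationSubring_iff v _).2 (hB b)
  let φ : B →+* v.toValuationSubring := (algebraMap B F).codRestrict _ hB'
  have hφ : ∀ b, ((φ b : v.toValuationSubring) : F) = algebraMap B F b := fun b => rfl
  let P : Ideal B := (IsLocalRing.maximalIdeal v.toValuationSubring).comap φ
  have hPprime : P.IsPrime := Ideal.comap_isPrime _ _
  have hunit : ∀ b : B, b ∉ P → (algebraMap B F b)⁻¹ ∈ v.toValuationSubring := by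
    intro b hb
    have hu : IsUnit (φ b) := by
      by_contra hcon
      exact hb ((IsLocalRing.mem_maximalIdeal _).2 hcon)
    obtain ⟨z, hz⟩ := hu.exists_right_inv
    have hz' : algebraMap B F b * (z : F) = 1 := by
      have := congrArg Subtype.val hz
      simpa [hφ] using this
    rw [← eq_inv_of_mul_eq_one_right hz']
    exact z.2
  have hPbot : P ≠ ⊥ := by
    intro hbot
    apply v.ne_top'
    refine SetLike.ext fun x => ⟨fun _ => ValuationSubring.mem_top x, fun _ => ?_⟩
    obtain ⟨a, s, hs, rfl⟩ := IsFractionRing.div_surjective (A := B) x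
    have hs0 : s ≠ 0 := nonZeroDivisors.ne_zero hs
    have : s ∉ P := by rw [hbot]; simpa using hs0
    rw [div_eq_mul_inv]
    exact v.toValuationSubring.mul_mem _ _ (hB' a) (hunit s this)
  refine ⟨⟨P, hPprime, hPbot⟩, ?_⟩
  apply place_ext_of_ord
  intro f hf
  rw [← mem_valuationSubring_iff, Place.ofHeightOneSpectrum_toValuationSubring,
    Valuation.mem_valuationSubring_iff] at hf
  obtain ⟨n, d, hnd⟩ := HeightOneSpectrum.exists_primeCompl_mul_eq_of_integer _ f hf
  rw [← mem_valuationSubring_iff]
  have hd : (d : B) ∉ P := d.2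
  have hd0 : algebraMap B F d ≠ 0 := by
    intro h0
    apply hd
    have : (d : B) = 0 := (map_eq_zero_iff _ (IsFractionRing.injective B F)).1 h0
    rw [this]; exact P.zero_mem
  have : f = algebraMap B F n * (algebraMap B F d)⁻¹ := by
    rw [← hnd]; field_simp
  rw [this]
  exact v.toValuationSubring.mul_mem _ _ (hB' n) (hunit d hd)

end Dedekind

section Integral

variable {K F : Type*} [Field K] [Field F] [Algebra K F]

/-- valuation rings of places are integrally closed in `F` -/
theorem ord_nonneg_of_isIntegral {R : Type*} [CommRing R] [Algebra R F] (v : Place K F)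
    (hR : ∀ r : R, 0 ≤ v.ord (algebraMap R F r)) {x : F} (hx : IsIntegral R x) : 0 ≤ v.ord x := by
  have hR' : ∀ r : R, algebraMap R F r ∈ v.toValuationSubring.toSubring := fun r =>
    (mem_valuationSubring_iff v _).2 (hR r)
  let ψ : R →+* v.toValuationSubring := (algebraMap R F).codRestrict _ hR'
  obtain ⟨q, hq, hq0⟩ := hx
  have hint : IsIntegral v.toValuationSubring x := by
    refine ⟨q.map ψ, hq.map ψ, ?_⟩
    rw [Polynomial.eval₂_map]
    exact hq0
  obtain ⟨z, hz⟩ := IsIntegrallyClosed.algebraMap_eq_of_integral hint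
  rw [← mem_valuationSubring_iff, ← hz]
  exact z.2

end Integral

section Abstract

variable {K F : Type*} [Field K] [Field F] [Algebra K F]
variable {R : Type*} (L B : Type*) [CommRing R] [IsDedekindDomain R] [Field L] [Algebra R L]
  [IsFractionRing R L] [Algebra L F] [Algebra R F] [IsScalarTower R L F]
  [CommRing B] [IsDedekindDomain B] [Algebra R B] [Algebra B F] [IsFractionRing B F]
  [IsScalarTower R B F] [Module.Finite R B] [Module.IsTorsionFree R B]
  [Algebra K B] [IsScalarTower K B F]

/-- the height one primes of `B` containing `y'` -/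
def primesAbove (y' : R) : Set (HeightOneSpectrum B) := {w | algebraMap R B y' ∈ w.asIdeal}

omit [IsDedekindDomain R] [Module.IsTorsionFree R B] in
theorem zerosOf_eq_image (y' : R) (hy0 : algebraMap R F y' ≠ 0)
    (hR : ∀ v : Place K F, 0 ≤ v.ord (algebraMap R F y') → ∀ r : R, 0 ≤ v.ord (algebraMap R F r)) :
    zerosOf K (algebraMap R F y') =
      Place.ofHeightOneSpectrum (K := K) (F := F) '' primesAbove B y' := by
  have hyB0 : algebraMap R B y' ≠ 0 := by
    intro h
    apply hy0
    rw [IsScalarTower.algebraMap_apply R B F, h, map_zero]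
  ext v
  constructor
  · intro hv
    have hv' : 0 < v.ord (algebraMap R F y') := hv
    have hB : ∀ b : B, 0 ≤ v.ord (algebraMap B F b) := fun b =>
      ord_nonneg_of_isIntegral v (hR v hv'.le)
        ((Algebra.IsIntegral.isIntegral (R := R) b).map (IsScalarTower.toAlgHom R B F))
    obtain ⟨w, rfl⟩ := exists_heightOneSpectrum v hB
    refine ⟨w, ?_, rfl⟩
    rw [IsScalarTower.algebraMap_apply R B F, ord_algebraMap_pos_iff w hyB0] at hv'
    exact hv'
  · rintro ⟨w, hw, rfl⟩
    rw [mem_zerosOf, IsScalarTower.algebraMap_apply R B F, ord_algebraMap_pos_iff w hyB0]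
    exact hw

omit [Module.Finite R B] in
theorem asIdeal_image_primesAbove (y' : R) (hy0 : y' ≠ 0) [hmax : (Ideal.span {y'}).IsMaximal] :
    HeightOneSpectrum.asIdeal '' primesAbove B y' =
      (IsDedekindDomain.primesOverFinset (Ideal.span {y'}) B : Set (Ideal B)) := by
  have hp0 : Ideal.span {y'} ≠ ⊥ := by simpa using hy0
  rw [IsDedekindDomain.coe_primesOverFinset hp0]
  ext P
  constructor
  · rintro ⟨w, hw, rfl⟩
    refine ⟨w.isPrime, ⟨?_⟩⟩
    refine hmax.eq_of_le (Ideal.comap_ne_top _ w.isPrime.ne_top) ?_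
    rw [Ideal.span_singleton_le_iff_mem]
    exact hw
  · rintro ⟨hP, ⟨hover⟩⟩
    have hmem : algebraMap R B y' ∈ P := by
      have : y' ∈ Ideal.span {y'} := Ideal.mem_span_singleton_self y'
      rw [hover] at this
      exact this
    have hPbot : P ≠ ⊥ := by
      rintro rfl
      apply hy0
      exact (map_eq_zero_iff _ (FaithfulSMul.algebraMap_injective R B)).1 (by simpa using hmem)
    exact ⟨⟨P, hP, hPbot⟩, hmem, rfl⟩

omit [Module.Finite R B] in
theorem finite_primesAbove (y' : R) (hy0 : y' ≠ 0) [hmax : (Ideal.span {y'}).IsMaximal] :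
    (primesAbove B y').Finite := by
  have h : (HeightOneSpectrum.asIdeal '' primesAbove B y').Finite := by
    rw [asIdeal_image_primesAbove B y' hy0]
    exact Finset.finite_toSet _
  exact h.of_finite_image (fun w _ w' _ hww => HeightOneSpectrum.ext hww)

omit [Module.Finite R B] [Module.IsTorsionFree R B] [IsDedekindDomain R] in
theorem ramificationIdx_eq_ord (y' : R) (hyB0 : algebraMap R B y' ≠ 0) (w : HeightOneSpectrum B) :
    ((Ideal.span {y'}).ramificationIdx' w.asIdeal : ℤ) =
      (Place.ofHeightOneSpectrum (K := K) (F := F) w).ord (algebraMap R F y') := by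
  have h0 := ord_algebraMap_nonneg (K := K) (F := F) w (algebraMap R B y')
  rw [IsScalarTower.algebraMap_apply R B F]
  obtain ⟨n, hn⟩ := Int.eq_ofNat_of_zero_le h0
  rw [hn]
  congr 1
  apply Ideal.ramificationIdx'_spec
  · rw [Ideal.map_span, Set.image_singleton, Ideal.span_singleton_le_iff_mem,
      ← le_ord_algebraMap_iff (K := K) (F := F) w hyB0, hn]
  · rw [Ideal.map_span, Set.image_singleton, Ideal.span_singleton_le_iff_mem,
      ← le_ord_algebraMap_iff (K := K) (F := F) w hyB0, hn]
    push_cast
    omega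

omit [IsDedekindDomain R] [IsDedekindDomain B] [Module.Finite R B] [Module.IsTorsionFree R B] in
theorem inertiaDeg_eq_one (p : Ideal R) [hmax : p.IsMaximal] (P : Ideal B) [hP : P.IsPrime]
    [P.LiesOver p] (hres : ∀ b : B, ∃ r : R, b - algebraMap R B r ∈ P) :
    p.inertiaDeg' P = 1 := by
  rw [Ideal.inertiaDeg'_algebraMap]
  letI := Ideal.Quotient.field p
  have hnt : Nontrivial (B ⧸ P) := Ideal.Quotient.nontrivial_iff.2 hP.ne_top
  rw [finrank_eq_one_iff_of_nonzero' (1 : B ⧸ P) one_ne_zero]
  intro x
  obtain ⟨b, rfl⟩ := Ideal.Quotient.mk_surjective x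
  obtain ⟨r, hr⟩ := hres b
  refine ⟨Ideal.Quotient.mk p r, ?_⟩
  rw [Algebra.smul_def, mul_one, Ideal.Quotient.algebraMap_mk_of_liesOver]
  exact ((Ideal.Quotient.mk_eq_mk_iff_sub_mem _ _).2 hr).symm

theorem sum_ord_abstract (y' : R) (hy0 : y' ≠ 0) [hmax : (Ideal.span {y'}).IsMaximal]
    (hR : ∀ v : Place K F, 0 ≤ v.ord (algebraMap R F y') → ∀ r : R, 0 ≤ v.ord (algebraMap R F r))
    (hres : ∀ (w : HeightOneSpectrum B) (b : B), ∃ r : R, b - algebraMap R B r ∈ w.asIdeal) :
    ∑ᶠ v ∈ zerosOf K (algebraMap R F y'), v.ord (algebraMap R F y') =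
      (Module.finrank L F : ℤ) := by
  have hp0 : Ideal.span {y'} ≠ ⊥ := by simpa using hy0
  have hyB0 : algebraMap R B y' ≠ 0 :=
    (map_ne_zero_iff _ (FaithfulSMul.algebraMap_injective R B)).2 hy0
  have hyF0 : algebraMap R F y' ≠ 0 := by
    rw [IsScalarTower.algebraMap_apply R B F]
    exact (map_ne_zero_iff _ (IsFractionRing.injective B F)).2 hyB0
  rw [zerosOf_eq_image B y' hyF0 hR,
    finsum_mem_image (fun w _ w' _ h => ofHeightOneSpectrum_injective h),
    ← Ideal.sum_ramification_inertia B L F hp0]
  push_cast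
  rw [← finsum_mem_coe_finset, ← asIdeal_image_primesAbove B y' hy0,
    finsum_mem_image (fun w _ w' _ hww => HeightOneSpectrum.ext hww)]
  apply finsum_mem_congr rfl
  intro w hw
  have hw' : w.asIdeal ∈ (IsDedekindDomain.primesOverFinset (Ideal.span {y'}) B : Set (Ideal B)) := by
    rw [← asIdeal_image_primesAbove B y' hy0]
    exact ⟨w, hw, rfl⟩
  rw [IsDedekindDomain.coe_primesOverFinset hp0] at hw'
  haveI : w.asIdeal.LiesOver (Ideal.span {y'}) := hw'.2
  haveI : w.asIdeal.IsPrime := w.isPrime
  rw [inertiaDeg_eq_one B (Ideal.span {y'}) w.asIdeal (hres w),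
    ramificationIdx_eq_ord (K := K) (F := F) B y' hyB0 w]
  simp

end Abstract

section Concrete

open scoped IntermediateField.algebraAdjoinAdjoin

variable {K F : Type*} [Field K] [Field F] [Algebra K F]

/-- the polynomial ring `K[y]` inside `F` -/
abbrev RR (K : Type*) {F : Type*} [Field K] [Field F] [Algebra K F] (y : F) : Subalgebra K F :=
  Algebra.adjoin K {y}

/-- the integral closure of `K[y]` in `F` -/
abbrev BB (K : Type*) {F : Type*} [Field K] [Field F] [Algebra K F] (y : F) :
    Subalgebra (RR K y) F :=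
  integralClosure (RR K y) F

/-- `y` as an element of `K[y]` -/
abbrev yR (K : Type*) {F : Type*} [Field K] [Field F] [Algebra K F] (y : F) : RR K y :=
  ⟨y, Algebra.self_mem_adjoin_singleton K y⟩

theorem isPrincipalIdealRing_RR {y : F} (hy : Transcendental K y) :
    IsPrincipalIdealRing (RR K y) :=
  IsPrincipalIdealRing.of_surjective (Polynomial.algEquivOfTranscendental K y hy).toRingEquiv
    (Polynomial.algEquivOfTranscendental K y hy).surjective

theorem irreducible_yR {y : F} (hy : Transcendental K y) : Irreducible (yR K y) := by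
  have h := (MulEquiv.irreducible_iff
    (Polynomial.algEquivOfTranscendental K y hy).toMulEquiv).2 (Polynomial.irreducible_X (R := K))
  have h2 : (Polynomial.algEquivOfTranscendental K y hy).toMulEquiv Polynomial.X = yR K y := by
    simp [Polynomial.algEquivOfTranscendental]
  rwa [h2] at h

theorem ord_RR_nonneg {y : F} (v : Place K F) (hv : 0 ≤ v.ord y) (r : RR K y) :
    0 ≤ v.ord (algebraMap (RR K y) F r) := by
  let O : Subalgebra K F :=
    { v.toValuationSubring.toSubring with algebraMap_mem' := v.algebraMap_mem' }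
  have hle : RR K y ≤ O := by
    apply Algebra.adjoin_le
    rintro _ rfl
    exact (mem_valuationSubring_iff v _).2 hv
  exact (mem_valuationSubring_iff v _).1 (hle r.2)

theorem isMaximal_span_yR {y : F} (hy : Transcendental K y) :
    (Ideal.span {yR K y}).IsMaximal := by
  have := isPrincipalIdealRing_RR hy
  exact PrincipalIdealRing.isMaximal_of_irreducible (irreducible_yR hy)

theorem isDedekindDomain_RR {y : F} (hy : Transcendental K y) : IsDedekindDomain (RR K y) := by
  have := isPrincipalIdealRing_RR hy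
  infer_instance

theorem isSeparable_adjoin [CharZero K] (y : F) [FiniteDimensional K⟮y⟯ F] :
    Algebra.IsSeparable K⟮y⟯ F := by
  have : CharZero K⟮y⟯ := charZero_of_injective_algebraMap (algebraMap K K⟮y⟯).injective
  infer_instance

theorem isDedekindDomain_BB [CharZero K] (h : IsFF K F) {y : F} (hy : Transcendental K y) :
    IsDedekindDomain (BB K y) := by
  have := isDedekindDomain_RR hy
  have := h.finiteDimensional hy
  have := isSeparable_adjoin (K := K) y
  exact integralClosure.isDedekindDomain (RR K y) K⟮y⟯ F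

theorem finite_BB [CharZero K] (h : IsFF K F) {y : F} (hy : Transcendental K y) :
    Module.Finite (RR K y) (BB K y) := by
  have := isDedekindDomain_RR hy
  have := h.finiteDimensional hy
  have := isSeparable_adjoin (K := K) y
  exact IsIntegralClosure.finite (RR K y) K⟮y⟯ F (integralClosure (RR K y) F)

theorem isFractionRing_BB (h : IsFF K F) {y : F} (hy : Transcendental K y) :
    IsFractionRing (BB K y) F := by
  have := h.finiteDimensional hy
  exact integralClosure.isFractionRing_of_finite_extension K⟮y⟯ F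

theorem exists_residue_BB [IsAlgClosed K] [CharZero K] (h : IsFF K F) {y : F}
    (hy : Transcendental K y) :
    letI := isDedekindDomain_BB h hy
    ∀ (w : HeightOneSpectrum (BB K y)) (b : BB K y),
      ∃ r : RR K y, b - algebraMap (RR K y) (BB K y) r ∈ w.asIdeal := by
  letI := isDedekindDomain_BB h hy
  have := isFractionRing_BB h hy
  intro w b
  obtain ⟨c, hc⟩ := exists_residue h (Place.ofHeightOneSpectrum (K := K) (F := F) w)
    (ord_algebraMap_nonneg w b)
  refine ⟨algebraMap K (RR K y) c, ?_⟩
  have hmap : algebraMap (BB K y) F (b - algebraMap (RR K y) (BB K y) (algebraMap K (RR K y) c)) =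
      algebraMap (BB K y) F b - algebraMap K F c := rfl
  rcases eq_or_ne (b - algebraMap (RR K y) (BB K y) (algebraMap K (RR K y) c)) 0 with h0 | h0
  · rw [h0]; exact Ideal.zero_mem _
  · rcases hc with hc | hc
    · exfalso
      apply h0
      apply IsFractionRing.injective (BB K y) F
      rw [hmap, hc, sub_self, map_zero]
    · rw [← hmap, ord_algebraMap_pos_iff w h0] at hc
      exact hc

end Concrete

end PF

section
variable {K F : Type*} [Field K] [Field F] [Algebra K F]
variable [IsAlgClosed K] [CharZero K]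

open scoped IntermediateField.algebraAdjoinAdjoin

theorem finite_zerosOf (h : IsFF K F) {y : F} (hy : Transcendental K y) :
    (zerosOf K y).Finite := by
  have := PF.isDedekindDomain_RR hy
  have := PF.isDedekindDomain_BB h hy
  have := PF.isFractionRing_BB h hy
  have := PF.finite_BB h hy
  have := PF.isMaximal_span_yR hy
  have hy0 : y ≠ 0 := fun h0 => hy (h0 ▸ isAlgebraic_zero)
  have hyR0 : PF.yR K y ≠ 0 := fun h0 => hy0 (congrArg Subtype.val h0)
  have h1 := PF.zerosOf_eq_image (K := K) (F := F) (PF.BB K y) (PF.yR K y) hy0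
    (fun v hv r => PF.ord_RR_nonneg v hv r)
  have h2 : zerosOf K y = zerosOf K (algebraMap (PF.RR K y) F (PF.yR K y)) := rfl
  rw [h2, h1]
  exact (PF.finite_primesAbove (PF.BB K y) (PF.yR K y) hyR0).image _

theorem sum_ord_zerosOf (h : IsFF K F) {y : F} (hy : Transcendental K y) :
    ∑ᶠ v ∈ zerosOf K y, v.ord y = (Module.finrank K⟮y⟯ F : ℤ) := by
  have := PF.isDedekindDomain_RR hy
  have := PF.isDedekindDomain_BB h hy
  have := PF.isFractionRing_BB h hy
  have := PF.finite_BB h hy
  have := PF.isMaximal_span_yR hy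
  have hy0 : y ≠ 0 := fun h0 => hy (h0 ▸ isAlgebraic_zero)
  have hyR0 : PF.yR K y ≠ 0 := fun h0 => hy0 (congrArg Subtype.val h0)
  exact PF.sum_ord_abstract (K := K) (F := F) K⟮y⟯ (PF.BB K y) (PF.yR K y) hyR0
    (fun v hv r => PF.ord_RR_nonneg v hv r) (PF.exists_residue_BB h hy)

/-- the valuation ring of a place is a localisation of a finitely generated `K`-algebra -/
theorem exists_finset_generators (h : IsFF K F) (v : Place K F) :
    ∃ T : Finset F, (∀ b ∈ T, 0 ≤ v.ord b) ∧
      ∀ u : F, 0 ≤ v.ord u → ∃ a s : F, a ∈ Algebra.adjoin K (T : Set F) ∧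
        s ∈ Algebra.adjoin K (T : Set F) ∧ s ≠ 0 ∧ v.ord s = 0 ∧ u * s = a := by
  classical
  obtain ⟨y, hy1⟩ := exists_ord_eq_one v
  have hy : Transcendental K y := transcendental_of_ord_ne_zero v (by rw [hy1]; exact one_ne_zero)
  have := PF.isDedekindDomain_RR hy
  have := PF.isDedekindDomain_BB h hy
  have := PF.isFractionRing_BB h hy
  have hfin := PF.finite_BB h hy
  have hyv : 0 ≤ v.ord y := by rw [hy1]; exact zero_le_one
  have hB : ∀ b : PF.BB K y, 0 ≤ v.ord (algebraMap (PF.BB K y) F b) := fun b =>
    PF.ord_nonneg_of_isIntegral v (fun r => PF.ord_RR_nonneg v hyv r) b.2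
  obtain ⟨w, hw⟩ := PF.exists_heightOneSpectrum v hB
  obtain ⟨S, hS⟩ := hfin.fg_top
  refine ⟨insert y (S.image (algebraMap (PF.BB K y) F)), ?_, ?_⟩
  · intro b hb
    rw [Finset.mem_insert, Finset.mem_image] at hb
    rcases hb with rfl | ⟨b, -, rfl⟩
    · exact hyv
    · exact hB b
  · set T : Finset F := insert y (S.image (algebraMap (PF.BB K y) F)) with hT
    have hRT : ∀ r : PF.RR K y, (r : F) ∈ Algebra.adjoin K (T : Set F) := by
      intro r
      have hle : PF.RR K y ≤ Algebra.adjoin K (T : Set F) := by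
        apply Algebra.adjoin_mono
        rintro _ rfl
        simp [hT]
      exact hle r.2
    have hBT : ∀ b : PF.BB K y, algebraMap (PF.BB K y) F b ∈ Algebra.adjoin K (T : Set F) := by
      intro b
      have hb : b ∈ Submodule.span (PF.RR K y) (S : Set (PF.BB K y)) := by rw [hS]; trivial
      induction hb using Submodule.span_induction with
      | mem x hx =>
        apply Algebra.subset_adjoin
        simp only [hT, Finset.coe_insert, Finset.coe_image]
        exact Or.inr ⟨x, hx, rfl⟩
      | zero => rw [RingHom.map_zero]; exact Subalgebra.zero_mem _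
      | add x z _ _ hx hz => rw [RingHom.map_add]; exact Subalgebra.add_mem _ hx hz
      | smul r x _ hx =>
        have : algebraMap (PF.BB K y) F (r • x) = (r : F) * algebraMap (PF.BB K y) F x := rfl
        rw [this]
        exact Subalgebra.mul_mem _ (hRT r) hx
    intro u hu
    rw [← hw, ← mem_valuationSubring_iff, Place.ofHeightOneSpectrum_toValuationSubring,
      Valuation.mem_valuationSubring_iff] at hu
    obtain ⟨n, d, hnd⟩ := HeightOneSpectrum.exists_primeCompl_mul_eq_of_integer _ u hu
    have hd : (d : PF.BB K y) ∉ w.asIdeal := d.2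
    have hd0 : (d : PF.BB K y) ≠ 0 := fun h0 => hd (h0 ▸ Ideal.zero_mem _)
    refine ⟨algebraMap (PF.BB K y) F n, algebraMap (PF.BB K y) F d, hBT n, hBT d,
      (map_ne_zero_iff _ (IsFractionRing.injective (PF.BB K y) F)).2 hd0, ?_, hnd⟩
    have h1 := hB d
    have h2 : ¬ 0 < v.ord (algebraMap (PF.BB K y) F d) := by
      rw [← hw, PF.ord_algebraMap_pos_iff w hd0]
      exact hd
    omega

end

end Fermat.Agent.S24Lib
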