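import Fermat.Agent.S24.PlaceBasic
import Fermat.Agent.S24.PlaceFibre
import Fermat.Agent.S24.Kaehler
import Fermat.Agent.S24.OrdDiff

/-!
# S24 library, piece D3: Riemann-Hurwitz over the projective line
-/

set_option autoImplicit false
set_option linter.unusedSectionVars false

open AlgebraicCurve IntermediateField KaehlerDifferential

namespace Fermat.Agent.S24Lib

variable {K F : Type*} [Field K] [Field F] [Algebra K F]

theorem D3_ord_neg (v : Place K F) (f : F) : v.ord (-f) = v.ord f := by
  rcases eq_or_ne f 0 with rfl | hf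
  · simp
  have h1 : (-f) = algebraMap K F (-1) * f := by simp
  have h2 : algebraMap K F (-1) ≠ 0 := by simp
  rw [h1, v.ord_mul h2 hf, ord_algebraMap, zero_add]

section
variable [IsAlgClosed K] [CharZero K]

theorem D3_degree_eq_sum (h : IsFF K F) (D : Divisor K F) (T : Finset (Place K F))
    (hT : D.support ⊆ T) : Divisor.degree D = ∑ v ∈ T, D v := by
  have h1 : Divisor.degree D = D.sum fun v n => n * (v.deg : ℤ) := by
    simp [Divisor.degree, Finsupp.liftAddHom_apply]
  rw [h1, Finsupp.sum_of_support_subset D hT _ (by simp)]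
  refine Finset.sum_congr rfl fun v _ => ?_
  rw [deg_eq_one h v]; simp

theorem D3_sum_toFinset (h : IsFF K F) {y : F} (hy : Transcendental K y) :
    ∑ v ∈ (finite_zerosOf h hy).toFinset, v.ord y = (Module.finrank K⟮y⟯ F : ℤ) := by
  rw [← sum_ord_zerosOf h hy, finsum_mem_eq_finite_toFinset_sum _ (finite_zerosOf h hy)]

theorem D3_transcendental_inv {y : F} (hy : Transcendental K y) : Transcendental K y⁻¹ := by
  intro hal
  exact hy (by simpa using hal.inv)

theorem D3_adjoin_inv (y : F) : K⟮y⁻¹⟯ = K⟮y⟯ := by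
  apply le_antisymm
  · rw [adjoin_simple_le_iff]
    exact inv_mem (mem_adjoin_simple_self K y)
  · rw [adjoin_simple_le_iff]
    have := inv_mem (mem_adjoin_simple_self K y⁻¹)
    simpa using this

theorem D3_transcendental_sub {y : F} (hy : Transcendental K y) (c : K) :
    Transcendental K (y - algebraMap K F c) := by
  intro hal
  apply hy
  have := hal.add (isAlgebraic_algebraMap (A := F) c)
  simpa using this

theorem D3_adjoin_sub (y : F) (c : K) : K⟮y - algebraMap K F c⟯ = K⟮y⟯ := by
  apply le_antisymm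
  · rw [adjoin_simple_le_iff]
    exact sub_mem (mem_adjoin_simple_self K y) (IntermediateField.algebraMap_mem _ c)
  · rw [adjoin_simple_le_iff]
    have := add_mem (mem_adjoin_simple_self K (y - algebraMap K F c))
      (IntermediateField.algebraMap_mem K⟮y - algebraMap K F c⟯ c)
    simpa using this

theorem degree_eq_zero_of_forall_ord (h : IsFF K F) {f : F} (hf : f ≠ 0) (D : Divisor K F)
    (hD : ∀ v : Place K F, D v = v.ord f) : Divisor.degree D = 0 := by
  classical
  by_cases hr : f ∈ (algebraMap K F).range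
  · obtain ⟨a, rfl⟩ := hr
    have : D = 0 := by
      ext v
      rw [hD v, ord_algebraMap]; rfl
    rw [this, map_zero]
  have hy := transcendental_of_not_mem_range hr
  have hy' := D3_transcendental_inv hy
  set Z := (finite_zerosOf h hy).toFinset with hZ
  set P := (finite_zerosOf h hy').toFinset with hP
  have hdisj : Disjoint Z P := by
    rw [Finset.disjoint_left]
    intro v hv hv'
    simp only [hZ, hP, Set.Finite.mem_toFinset, mem_zerosOf, Place.ord_inv] at hv hv'
    omega
  have hsupp : D.support ⊆ Z ∪ P := by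
    intro v hv
    rw [Finsupp.mem_support_iff, hD v] at hv
    simp only [hZ, hP, Finset.mem_union, Set.Finite.mem_toFinset, mem_zerosOf, Place.ord_inv]
    omega
  rw [D3_degree_eq_sum h D _ hsupp, Finset.sum_union hdisj]
  have h1 : ∑ v ∈ Z, D v = (Module.finrank K⟮f⟯ F : ℤ) := by
    rw [← D3_sum_toFinset h hy]
    exact Finset.sum_congr rfl fun v _ => hD v
  have h2 : ∑ v ∈ P, D v = - (Module.finrank K⟮f⟯ F : ℤ) := by
    have := D3_sum_toFinset h hy'
    rw [D3_adjoin_inv] at this
    rw [← this, ← Finset.sum_neg_distrib]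
    refine Finset.sum_congr rfl fun v _ => ?_
    rw [hD v, Place.ord_inv, neg_neg]
  rw [h1, h2, add_neg_cancel]

/-- the divisor of a nonzero function -/
theorem D3_exists_divisor (h : IsFF K F) {f : F} (hf : f ≠ 0) :
    ∃ D : Divisor K F, ∀ v : Place K F, D v = v.ord f := by
  by_cases hr : f ∈ (algebraMap K F).range
  · obtain ⟨a, rfl⟩ := hr
    exact ⟨0, fun v => by rw [ord_algebraMap]; rfl⟩
  have hy := transcendental_of_not_mem_range hr
  have hy' := D3_transcendental_inv hy
  have hfin : (Function.support fun v : Place K F => v.ord f).Finite := by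
    refine ((finite_zerosOf h hy).union (finite_zerosOf h hy')).subset ?_
    intro v hv
    simp only [Function.mem_support] at hv
    simp only [Set.mem_union, mem_zerosOf, Place.ord_inv]
    omega
  exact ⟨Finsupp.ofSupportFinite _ hfin, fun v => rfl⟩

theorem D3_ordDifferential_D_of_pole (h : IsFF K F) (v : Place K F) {x : F}
    (hv : v ∈ zerosOf K x⁻¹) : v.ordDifferential (D K F x) = - v.ord x⁻¹ - 1 := by
  rw [mem_zerosOf, Place.ord_inv] at hv
  rw [ordDifferential_D h v (by omega), Place.ord_inv, neg_neg]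

theorem D3_ordDifferential_D_of_zero (h : IsFF K F) (v : Place K F) {x : F} {c : K}
    (hv : v ∈ zerosOf K (x - algebraMap K F c)) :
    v.ordDifferential (D K F x) = v.ord (x - algebraMap K F c) - 1 := by
  rw [mem_zerosOf] at hv
  rw [← ordDifferential_D h v (by omega), map_sub, Derivation.map_algebraMap, sub_zero]

theorem D3_disjoint_zeros (x : F) {c c' : K} (hc : c ≠ c') (v : Place K F)
    (hv : v ∈ zerosOf K (x - algebraMap K F c)) (hv' : v ∈ zerosOf K (x - algebraMap K F c')) :
    False := by
  rw [mem_zerosOf] at hv hv'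
  have h1 : (x - algebraMap K F c') + -(x - algebraMap K F c) = algebraMap K F (c - c') := by
    rw [map_sub]; ring
  have h2 : algebraMap K F (c - c') ≠ 0 := by
    rw [Ne, map_eq_zero_iff _ (algebraMap K F).injective]
    exact sub_ne_zero.mpr hc
  have h3 := min_le_ord_add v (h1 ▸ h2)
  rw [h1, ord_algebraMap, D3_ord_neg] at h3
  have := lt_min hv' hv
  omega

theorem D3_disjoint_pole (x : F) (c : K) (v : Place K F)
    (hv : v ∈ zerosOf K x⁻¹) (hv' : v ∈ zerosOf K (x - algebraMap K F c)) : False := by
  rw [mem_zerosOf] at hv hv'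
  rw [Place.ord_inv] at hv
  have hx : x ≠ 0 := by
    rintro rfl
    simp at hv
  have h1 : (x - algebraMap K F c) + algebraMap K F c = x := by ring
  have h3 := min_le_ord_add v (h1.symm ▸ hx)
  rw [h1, ord_algebraMap] at h3
  have : 0 ≤ min (v.ord (x - algebraMap K F c)) 0 := le_min hv'.le le_rfl
  omega

theorem D3_cover (h : IsFF K F) {x : F} (hx : Transcendental K x) (v : Place K F) :
    v ∈ zerosOf K x⁻¹ ∨ ∃ c : K, v ∈ zerosOf K (x - algebraMap K F c) := by
  by_cases hv : 0 ≤ v.ord x
  · right
    obtain ⟨c, hc | hc⟩ := exists_residue h v hv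
    · exact absurd (hc ▸ isAlgebraic_algebraMap (A := F) c) hx
    · exact ⟨c, hc⟩
  · left
    rw [mem_zerosOf, Place.ord_inv]
    omega

/-- **Riemann-Hurwitz over the projective line.** -/
theorem degree_canonicalDivisorOf (h : IsFF K F) [HasCanonicalDivisor (K := K) (F := F)]
    {x : F} (hx : Transcendental K x) (S : Finset K)
    (hS : ∀ c : K, c ∉ S → ∀ v ∈ zerosOf K (x - algebraMap K F c),
      v.ord (x - algebraMap K F c) = 1)
    {ω : Ω[F⁄K]} (hω : ω ≠ 0) :
    Divisor.degree (canonicalDivisorOf hω) =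
      - (Module.finrank K⟮x⟯ F : ℤ) - (Nat.card (zerosOf K x⁻¹) : ℤ)
        + ∑ c ∈ S, ((Module.finrank K⟮x⟯ F : ℤ) - (Nat.card (zerosOf K (x - algebraMap K F c)) : ℤ)) := by
  classical
  -- write `ω = g • dx`
  have hmem : ω ∈ Submodule.span F {D K F x} := by rw [span_D_eq_top h hx]; trivial
  obtain ⟨g, rfl⟩ := Submodule.mem_span_singleton.mp hmem
  have hg : g ≠ 0 := by
    rintro rfl
    exact hω (zero_smul _ _)
  have hdx := D_ne_zero h hx
  obtain ⟨G, hG⟩ := D3_exists_divisor h hg
  have hGdeg := degree_eq_zero_of_forall_ord h hg G hG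
  set W := canonicalDivisorOf hω with hW
  set E : Divisor K F := W - G with hE
  have hEv : ∀ v : Place K F, E v = v.ordDifferential (D K F x) := by
    intro v
    rw [hE, Finsupp.sub_apply, hW, canonicalDivisorOf_apply, hG, ordDifferential_smul' h v hg hdx]
    ring
  have hWE : Divisor.degree W = Divisor.degree E := by
    rw [hE, map_sub, hGdeg, sub_zero]
  rw [hWE]
  have hxi := D3_transcendental_inv hx
  have hxc := fun c : K => D3_transcendental_sub hx c
  set P := (finite_zerosOf h hxi).toFinset with hP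
  set Z : K → Finset (Place K F) := fun c => (finite_zerosOf h (hxc c)).toFinset with hZ
  have hmemP : ∀ v, v ∈ P ↔ v ∈ zerosOf K x⁻¹ := fun v => by rw [hP, Set.Finite.mem_toFinset]
  have hmemZ : ∀ c v, v ∈ Z c ↔ v ∈ zerosOf K (x - algebraMap K F c) := fun c v => by
    simp only [hZ, Set.Finite.mem_toFinset]
  have hsupp : E.support ⊆ P ∪ S.biUnion Z := by
    intro v hv
    rw [Finsupp.mem_support_iff, hEv v] at hv
    rw [Finset.mem_union, Finset.mem_biUnion]
    rcases D3_cover h hx v with hv' | ⟨c, hc⟩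
    · exact Or.inl ((hmemP v).mpr hv')
    · right
      refine ⟨c, ?_, (hmemZ c v).mpr hc⟩
      by_contra hcS
      apply hv
      rw [D3_ordDifferential_D_of_zero h v hc, hS c hcS v hc, sub_self]
  have hdisj1 : Disjoint P (S.biUnion Z) := by
    rw [Finset.disjoint_left]
    intro v hv hv'
    rw [Finset.mem_biUnion] at hv'
    obtain ⟨c, _, hc⟩ := hv'
    exact D3_disjoint_pole x c v ((hmemP v).mp hv) ((hmemZ c v).mp hc)
  have hdisj2 : (S : Set K).PairwiseDisjoint Z := by
    intro c _ c' _ hcc
    rw [Function.onFun, Finset.disjoint_left]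
    intro v hv hv'
    exact D3_disjoint_zeros x hcc v ((hmemZ c v).mp hv) ((hmemZ c' v).mp hv')
  rw [D3_degree_eq_sum h E _ hsupp, Finset.sum_union hdisj1, Finset.sum_biUnion hdisj2]
  congr 1
  · have h1 := D3_sum_toFinset h hxi
    rw [D3_adjoin_inv] at h1
    have h2 : (Nat.card (zerosOf K x⁻¹) : ℤ) = ∑ v ∈ P, (1 : ℤ) := by
      rw [Finset.sum_const, Nat.card_eq_card_finite_toFinset (finite_zerosOf h hxi)]
      simp [hP]
    rw [← h1, h2, ← Finset.sum_neg_distrib, ← Finset.sum_sub_distrib]
    refine Finset.sum_congr rfl fun v hv => ?_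
    rw [hEv v, D3_ordDifferential_D_of_pole h v ((hmemP v).mp hv)]
  · refine Finset.sum_congr rfl fun c _ => ?_
    have h1 := D3_sum_toFinset h (hxc c)
    rw [D3_adjoin_sub] at h1
    have h2 : (Nat.card (zerosOf K (x - algebraMap K F c)) : ℤ) = ∑ v ∈ Z c, (1 : ℤ) := by
      rw [Finset.sum_const, Nat.card_eq_card_finite_toFinset (finite_zerosOf h (hxc c))]
      simp [hZ]
    rw [← h1, h2, ← Finset.sum_sub_distrib]
    refine Finset.sum_congr rfl fun v hv => ?_
    rw [hEv v, D3_ordDifferential_D_of_zero h v ((hmemZ c v).mp hv)]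

end

end Fermat.Agent.S24Lib
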