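import Fermat.Agent.S24.FibreLemma
import Fermat.Agent.S24.RiemannHurwitz
import Fermat.Agent.S24.JLocal
import Fermat.Agent.S24.FormalLink
import Fermat.Agent.S24.Theta
import Fermat.Agent.S24.Degree
import Fermat.Agent.S24.EmbAt
import Fermat.Agent.S24.EmbInf
import Fermat.Agent.S24.Orbits
import Fermat.Agent.S20.Cosets

/-!
# S24: the fibres of `j` on the function field of `X₀(N)`
-/

set_option autoImplicit false

open UpperHalfPlane ModularForm Matrix.SpecialLinearGroup CongruenceSubgroup ModularCurve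
open AlgebraicCurve IntermediateField
open scoped MatrixGroups Manifold
open Fermat.Agent.S20Lib Fermat.Agent.S28Lib

namespace Fermat.Agent.S24Lib

noncomputable section

local notation "Kb" => AlgebraicClosure ℚ

namespace Fib

/-! ### Hahn series orders -/

lemma order_eq_of {x : LaurentSeries ℂ} {a : ℤ} (h1 : x.coeff a ≠ 0)
    (h2 : ∀ b < a, x.coeff b = 0) : x.order = a := by
  refine le_antisymm (HahnSeries.order_le_of_coeff_ne_zero h1) ?_
  by_contra hlt
  push Not at hlt
  have hx : x ≠ 0 := by rintro rfl; simp at h1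
  exact hx (HahnSeries.coeff_order_eq_zero.mp (h2 _ hlt))

lemma order_ofPowerSeries {P : PowerSeries ℂ} {n : ℕ} (hP : P.order = n) :
    (HahnSeries.ofPowerSeries ℤ ℂ P).order = n := by
  apply order_eq_of
  · rw [HahnSeries.ofPowerSeries_apply_coeff]
    exact (PowerSeries.order_eq_nat.mp hP).1
  · intro b hb
    rcases lt_or_ge b 0 with hb0 | hb0
    · exact ofPowerSeries_coeff_of_neg _ hb0
    · obtain ⟨m, rfl⟩ := Int.eq_ofNat_of_zero_le hb0
      rw [HahnSeries.ofPowerSeries_apply_coeff]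
      exact PowerSeries.coeff_of_lt_order _ (by rw [hP]; exact_mod_cast hb)

lemma order_inv' {x : LaurentSeries ℂ} (hx : x ≠ 0) : (x⁻¹).order = -x.order := by
  have h := HahnSeries.order_mul hx (inv_ne_zero hx)
  rw [mul_inv_cancel₀ hx, HahnSeries.order_one] at h
  linarith

lemma div_dvd_of {N h : ℕ} {o : ℤ} (h1 : h ∣ N) (hN : 0 < N) (h3 : (N : ℤ) ∣ h * o) :
    ((N / h : ℕ) : ℤ) ∣ o := by
  obtain ⟨q, rfl⟩ := h1
  have hpos : 0 < h := Nat.pos_of_ne_zero (by rintro rfl; simp at hN)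
  rw [Nat.mul_div_cancel_left _ hpos]
  push_cast at h3
  exact (mul_dvd_mul_iff_left (by exact_mod_cast hpos.ne')).mp h3

/-! ### general field lemmas -/

section general
variable {K F : Type*} [Field K] [Field F] [Algebra K F]

lemma adjoin_sub_algebraMap (x : F) (c : K) : K⟮x - algebraMap K F c⟯ = K⟮x⟯ := by
  apply le_antisymm
  · rw [adjoin_simple_le_iff]
    exact sub_mem (mem_adjoin_simple_self K x) (IntermediateField.algebraMap_mem _ c)
  · rw [adjoin_simple_le_iff]
    have : x = (x - algebraMap K F c) + algebraMap K F c := by ring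
    have h2 : (x - algebraMap K F c) + algebraMap K F c ∈ K⟮x - algebraMap K F c⟯ :=
      add_mem (mem_adjoin_simple_self K _) (IntermediateField.algebraMap_mem _ c)
    rwa [← this] at h2

lemma adjoin_inv (x : F) : K⟮x⁻¹⟯ = K⟮x⟯ := by
  apply le_antisymm
  · rw [adjoin_simple_le_iff]
    exact inv_mem (mem_adjoin_simple_self K x)
  · rw [adjoin_simple_le_iff]
    have h2 : (x⁻¹)⁻¹ ∈ K⟮x⁻¹⟯ := inv_mem (mem_adjoin_simple_self K _)
    rwa [inv_inv] at h2

lemma transcendental_sub {x : F} (hx : Transcendental K x) (c : K) :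
    Transcendental K (x - algebraMap K F c) := by
  intro h
  apply hx
  have : x = (x - algebraMap K F c) + algebraMap K F c := by ring
  rw [this]
  exact h.add (isAlgebraic_algebraMap c)

lemma transcendental_inv {x : F} (hx : Transcendental K x) : Transcendental K x⁻¹ := by
  intro h
  apply hx
  have : x = (x⁻¹)⁻¹ := (inv_inv x).symm
  rw [this]
  exact h.inv

end general

/-! ### the action on cosets -/

open ModularGroup in
lemma S_pow_two_smul (N : ℕ) (x : SL(2, ℤ) ⧸ Gamma0 N) : S ^ 2 • x = x := by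
  induction x using QuotientGroup.induction_on with
  | H g =>
    rw [pow_two, mul_smul, smul_mk, smul_mk, mk_eq_mk_iff, (S_mul_apply (S * g)).1,
      (S_mul_apply (S * g)).2, (S_mul_apply g).1, (S_mul_apply g).2]
    exact ⟨0, by ring⟩

open ModularGroup in
lemma ST_pow_three_smul (N : ℕ) (x : SL(2, ℤ) ⧸ Gamma0 N) : (S * T) ^ 3 • x = x := by
  induction x using QuotientGroup.induction_on with
  | H g =>
    rw [pow_succ, pow_two, mul_smul, mul_smul, smul_mk, smul_mk, smul_mk, mk_eq_mk_iff,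
      (ST_mul_apply (S * T * (S * T * g))).1, (ST_mul_apply (S * T * (S * T * g))).2,
      (ST_mul_apply (S * T * g)).1, (ST_mul_apply (S * T * g)).2,
      (ST_mul_apply g).1, (ST_mul_apply g).2]
    exact ⟨0, by ring⟩

open ModularGroup in
lemma T_pow_N_smul (N : ℕ) (x : SL(2, ℤ) ⧸ Gamma0 N) : T ^ N • x = x := by
  induction x using QuotientGroup.induction_on with
  | H g =>
    rw [smul_mk, mk_eq_mk_iff, ← zpow_natCast, (T_zpow_mul_apply _ _).1, (T_zpow_mul_apply _ _).2]
    exact ⟨g 1 0 ^ 2, by ring⟩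

end Fib

/-! ### degree -/

variable (N : ℕ) [NeZero N]

theorem Fib.embeddings_at (τ₀ : ℍ) :
    ∃ σ : (SL(2, ℤ) ⧸ Gamma0 N) → modularFunctionFieldBar N →+* LaurentSeries ℂ,
      Function.Injective σ ∧
      (∀ x (a : Kb), σ x (algebraMap Kb (modularFunctionFieldBar N) a) = HahnSeries.C (iotaC a)) ∧
      (∀ x, σ x (jBar N) = HahnSeries.ofPowerSeries ℤ ℂ (taylorH jan τ₀)) ∧
      (∀ ε : SL(2, ℤ), ε • τ₀ = τ₀ → ∀ x f, (σ (ε • x) f).order = (σ x f).order) ∧
      (∀ ε : SL(2, ℤ), ε • τ₀ = τ₀ → ∀ x, ε • x = x → ∀ f, f ≠ 0 →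
        (denom ε τ₀ ^ 2) ^ (σ x f).order = 1) := by
  obtain ⟨Θ, h1, h2⟩ := exists_theta N
  exact W8.exists_embeddings_at_of N τ₀ Θ h1 h2

theorem Fib.embeddings_inf :
    ∃ σ : (SL(2, ℤ) ⧸ Gamma0 N) → modularFunctionFieldBar N →+* LaurentSeries ℂ,
      Function.Injective σ ∧
      (∀ x (a : Kb), σ x (algebraMap Kb (modularFunctionFieldBar N) a) = HahnSeries.C (iotaC a)) ∧
      (∀ x, σ x (jBar N) = laurentFun N jan) ∧
      (∀ x f, (σ (ModularGroup.T • x) f).order = (σ x f).order) ∧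
      (∀ x (k : ℕ), ModularGroup.T ^ k • x = x → ∀ f, f ≠ 0 →
        (N : ℤ) ∣ k * (σ x f).order) := by
  obtain ⟨Θ, h1, h2⟩ := exists_theta N
  exact W9.exists_embeddings_inf_of N Θ h1 h2

theorem isFF_bar : IsFF Kb (modularFunctionFieldBar N) :=
  ⟨jBar N, transcendental_jBar N, (finrank_le_index N).1⟩

theorem finrank_eq_index :
    Module.finrank Kb⟮jBar N⟯ (modularFunctionFieldBar N) = (Gamma0 N).index := by
  apply le_antisymm (finrank_le_index N).2
  obtain ⟨σ, hinj, hK, hj, -, -⟩ := Fib.embeddings_at N I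
  have := (finrank_le_index N).1
  exact card_le_finrank_of_embeddings (K := Kb) (y := jBar N) σ hinj
    (fun γ γ' a => by rw [hK, hK]) (fun γ γ' => by rw [hj, hj])

theorem card_eq_finrank_sub (c : Kb) :
    Nat.card (SL(2, ℤ) ⧸ Gamma0 N) =
      Module.finrank Kb⟮jBar N - algebraMap Kb (modularFunctionFieldBar N) c⟯
        (modularFunctionFieldBar N) := by
  rw [Fib.adjoin_sub_algebraMap, finrank_eq_index]; rfl

theorem card_eq_finrank_inv :
    Nat.card (SL(2, ℤ) ⧸ Gamma0 N) =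
      Module.finrank Kb⟮(jBar N)⁻¹⟯ (modularFunctionFieldBar N) := by
  rw [Fib.adjoin_inv, finrank_eq_index]; rfl

/-! ### fibres over finite points -/

theorem ord_eq_one_of_generic (c : Kb) (τ₀ : ℍ) (hc : iotaC c = jan τ₀) (h0 : jan τ₀ ≠ 0)
    (h1 : jan τ₀ ≠ 1728) :
    ∀ v ∈ zerosOf Kb (jBar N - algebraMap Kb (modularFunctionFieldBar N) c),
      v.ord (jBar N - algebraMap Kb (modularFunctionFieldBar N) c) = 1 := by
  obtain ⟨σ, hinj, hK, hj, -, -⟩ := Fib.embeddings_at N τ₀
  have hs : (taylorH jan τ₀ - PowerSeries.C (jan τ₀)).order = ((1 : ℕ) : ℕ∞) := by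
    rw [order_taylorH_jan_sub, if_neg h0, if_neg h1]; rfl
  have hy : ∀ x, σ x (jBar N - algebraMap Kb (modularFunctionFieldBar N) c) =
      HahnSeries.ofPowerSeries ℤ ℂ (taylorH jan τ₀ - PowerSeries.C (jan τ₀)) := by
    intro x
    rw [map_sub, hj, hK, hc, map_sub, HahnSeries.ofPowerSeries_C]
  have key := fibre_lemma (isFF_bar N) (Fib.transcendental_sub (transcendental_jBar N) c)
    (card_eq_finrank_sub N c) σ hinj (fun γ γ' a => by rw [hK, hK])
    (fun γ γ' => by rw [hy, hy]) (fun γ a _ => by rw [hK]; exact HahnSeries.order_C)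
    1 one_pos (fun γ => by rw [hy]; exact Fib.order_ofPowerSeries hs)
    ⊥ (fun γ γ' h f => by
      have : γ = γ' := h
      rw [this])
    (fun _ => 1) (fun γ f _ => by simp)
    (fun γ => by
      rw [one_mul]
      have : Nonempty {γ' // (⊥ : Setoid (SL(2, ℤ) ⧸ Gamma0 N)) γ γ'} := ⟨⟨γ, rfl⟩⟩
      exact Nat.card_pos)
  intro v hv
  exact Int.eq_one_of_dvd_one (le_of_lt hv) (by simpa using key.2 v hv)

theorem card_zerosOf_special (c : Kb) (τ₀ : ℍ) (hc : iotaC c = jan τ₀) (ε : SL(2, ℤ))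
    (hε : ε • τ₀ = τ₀) (p : ℕ) (hp : p.Prime) (hεp : ∀ x : SL(2, ℤ) ⧸ Gamma0 N, ε ^ p • x = x)
    (hs : (taylorH jan τ₀ - PowerSeries.C (jan τ₀)).order = (p : ℕ∞))
    (hdvd : ∀ k : ℤ, (denom ε τ₀ ^ 2) ^ k = 1 → (p : ℤ) ∣ k) :
    Nat.card (zerosOf Kb (jBar N - algebraMap Kb (modularFunctionFieldBar N) c)) =
      Nat.card (MulAction.orbitRel.Quotient (Subgroup.zpowers ε) (SL(2, ℤ) ⧸ Gamma0 N)) := by
  classical
  obtain ⟨σ, hinj, hK, hj, hord, hpow⟩ := Fib.embeddings_at N τ₀
  have hy : ∀ x, σ x (jBar N - algebraMap Kb (modularFunctionFieldBar N) c) =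
      HahnSeries.ofPowerSeries ℤ ℂ (taylorH jan τ₀ - PowerSeries.C (jan τ₀)) := by
    intro x
    rw [map_sub, hj, hK, hc, map_sub, HahnSeries.ofPowerSeries_C]
  have key := fibre_lemma (isFF_bar N) (Fib.transcendental_sub (transcendental_jBar N) c)
    (card_eq_finrank_sub N c) σ hinj (fun γ γ' a => by rw [hK, hK])
    (fun γ γ' => by rw [hy, hy]) (fun γ a _ => by rw [hK]; exact HahnSeries.order_C)
    p hp.pos (fun γ => by rw [hy]; exact Fib.order_ofPowerSeries hs)
    (MulAction.orbitRel (Subgroup.zpowers ε) (SL(2, ℤ) ⧸ Gamma0 N))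
    (fun γ γ' h f => by
      obtain ⟨⟨g, hg⟩, rfl⟩ := h
      have hg' : g • τ₀ = τ₀ := by
        have : Subgroup.zpowers ε ≤ MulAction.stabilizer SL(2, ℤ) τ₀ := by
          rw [Subgroup.zpowers_le]; exact hε
        exact this hg
      exact hord g hg' γ' f)
    (fun γ => if ε • γ = γ then p else 1)
    (fun γ f hf => by
      by_cases h : ε • γ = γ
      · rw [if_pos h]; exact hdvd _ (hpow ε hε γ h f hf)
      · rw [if_neg h]; simp)
    (fun γ => by
      by_cases h : ε • γ = γ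
      · rw [if_pos h]
        have : Nonempty {γ' // MulAction.orbitRel (Subgroup.zpowers ε)
            (SL(2, ℤ) ⧸ Gamma0 N) γ γ'} := ⟨⟨γ, Setoid.refl' _ γ⟩⟩
        exact Nat.le_mul_of_pos_right _ Nat.card_pos
      · rw [if_neg h, one_mul]
        exact le_card_orbit_of_prime ε p hp hεp γ h)
  exact key.1

/-! ### the fibre over `∞` -/

open ModularGroup in
theorem card_zerosOf_inv :
    Nat.card (zerosOf Kb (jBar N)⁻¹) =
      Nat.card (MulAction.orbitRel.Quotient (Subgroup.zpowers T) (SL(2, ℤ) ⧸ Gamma0 N)) := by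
  obtain ⟨σ, hinj, hK, hj, hord, hdvd⟩ := Fib.embeddings_inf N
  have hNpos : 0 < N := Nat.pos_of_ne_zero (NeZero.ne N)
  have hjne : laurentFun N jan ≠ 0 := by
    intro h
    have := order_laurentFun_jan hNpos
    rw [h, HahnSeries.order_zero] at this
    omega
  have hy : ∀ x, σ x (jBar N)⁻¹ = (laurentFun N jan)⁻¹ := by
    intro x
    rw [map_inv₀, hj]
  have hordz : ∀ (k : ℤ) x f, (σ (T ^ k • x) f).order = (σ x f).order := by
    intro k
    induction k using Int.induction_on with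
    | zero => intro x f; simp
    | succ n ih =>
      intro x f
      rw [zpow_add, zpow_one, mul_smul, ih, hord]
    | pred n ih =>
      intro x f
      rw [zpow_sub, zpow_one, mul_smul, ih, ← hord (T⁻¹ • x) f, smul_inv_smul]
  have key := fibre_lemma (isFF_bar N) (Fib.transcendental_inv (transcendental_jBar N))
    (card_eq_finrank_inv N) σ hinj (fun γ γ' a => by rw [hK, hK])
    (fun γ γ' => by rw [hy, hy]) (fun γ a _ => by rw [hK]; exact HahnSeries.order_C)
    N hNpos (fun γ => by rw [hy, Fib.order_inv' hjne, order_laurentFun_jan hNpos, neg_neg])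
    (MulAction.orbitRel (Subgroup.zpowers T) (SL(2, ℤ) ⧸ Gamma0 N))
    (fun γ γ' h f => by
      obtain ⟨⟨g, k, rfl⟩, rfl⟩ := h
      exact hordz k γ' f)
    (fun γ => N / Nat.card {x' // MulAction.orbitRel (Subgroup.zpowers T)
      (SL(2, ℤ) ⧸ Gamma0 N) γ x'})
    (fun γ f hf => by
      obtain ⟨h1, h2⟩ := card_orbit_dvd T N (Fib.T_pow_N_smul N) γ
      exact Fib.div_dvd_of h1 hNpos (hdvd γ _ h2 f hf))
    (fun γ => by
      obtain ⟨h1, -⟩ := card_orbit_dvd T N (Fib.T_pow_N_smul N) γ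
      exact le_of_eq (Nat.div_mul_cancel h1).symm)
  exact key.1

end

end Fermat.Agent.S24Lib
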