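import Fermat.Agent.S24.AlgDefs

/-!
# S24, piece P0 : a place from an order function
-/

set_option autoImplicit false

open AlgebraicCurve IntermediateField

namespace Fermat.Agent.S24Lib

variable {K F : Type*} [Field K] [Field F] [Algebra K F]

theorem exists_place_of_order (w : F → ℤ)
    (hmul : ∀ f g, f ≠ 0 → g ≠ 0 → w (f * g) = w f + w g)
    (hadd : ∀ f g, f ≠ 0 → g ≠ 0 → f + g ≠ 0 → min (w f) (w g) ≤ w (f + g))
    (hK : ∀ a : K, a ≠ 0 → w (algebraMap K F a) = 0)
    (hnt : ∃ f, f ≠ 0 ∧ w f ≠ 0) :
    ∃ (v : Place K F) (m : ℕ), 0 < m ∧ ∀ f, f ≠ 0 → w f = m * v.ord f := by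
  classical
  have w1 : w 1 = 0 := by
    have := hmul 1 1 one_ne_zero one_ne_zero
    rw [one_mul] at this
    omega
  have wneg1 : w (-1) = 0 := by
    have := hmul (-1) (-1) (by simp) (by simp)
    rw [neg_one_mul, neg_neg, w1] at this
    omega
  have wneg : ∀ f, f ≠ 0 → w (-f) = w f := by
    intro f hf
    rw [← neg_one_mul, hmul _ _ (by simp) hf, wneg1, zero_add]
  have winv : ∀ f, f ≠ 0 → w f⁻¹ = - w f := by
    intro f hf
    have := hmul f f⁻¹ hf (inv_ne_zero hf)
    rw [mul_inv_cancel₀ hf, w1] at this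
    omega
  have wpow : ∀ f, f ≠ 0 → ∀ n : ℕ, w (f ^ n) = n * w f := by
    intro f hf n
    induction n with
    | zero => simp [w1]
    | succ n ih =>
      rw [pow_succ, hmul _ _ (pow_ne_zero _ hf) hf, ih]
      push_cast; ring
  have wzpow : ∀ f, f ≠ 0 → ∀ n : ℤ, w (f ^ n) = n * w f := by
    intro f hf n
    obtain ⟨k, rfl | rfl⟩ := n.eq_nat_or_neg
    · rw [zpow_natCast, wpow f hf]
    · rw [zpow_neg, zpow_natCast, winv _ (pow_ne_zero _ hf), wpow f hf]; ring
  let O : ValuationSubring F :=
    { carrier := {f | f = 0 ∨ 0 ≤ w f}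
      mul_mem' := by
        rintro a b (rfl | ha) (rfl | hb)
        · left; simp
        · left; simp
        · left; simp
        · by_cases ha0 : a = 0
          · left; simp [ha0]
          by_cases hb0 : b = 0
          · left; simp [hb0]
          right
          rw [hmul a b ha0 hb0]; omega
      one_mem' := Or.inr w1.ge
      add_mem' := by
        rintro a b ha hb
        by_cases ha0 : a = 0
        · rw [ha0, zero_add]; exact hb
        by_cases hb0 : b = 0
        · rw [hb0, add_zero]; exact ha
        by_cases hab : a + b = 0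
        · left; exact hab
        right
        have h1 := hadd a b ha0 hb0 hab
        have h2 := ha.resolve_left ha0
        have h3 := hb.resolve_left hb0
        exact le_trans (le_min h2 h3) h1
      zero_mem' := Or.inl rfl
      neg_mem' := by
        rintro a ha
        by_cases ha0 : a = 0
        · left; simp [ha0]
        right
        rw [wneg a ha0]; exact ha.resolve_left ha0
      mem_or_inv_mem' := by
        intro a
        by_cases ha0 : a = 0
        · left; left; exact ha0
        rcases le_total 0 (w a) with h | h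
        · left; right; exact h
        · right; right; rw [winv a ha0]; omega }
  have hO : ∀ f, f ∈ O ↔ f = 0 ∨ 0 ≤ w f := fun f => Iff.rfl
  have hpid : IsPrincipalIdealRing O := by
    constructor
    intro I
    by_cases hI : I = ⊥
    · exact ⟨0, by rw [hI]; simp⟩
    obtain ⟨a, haI, ha0⟩ := Submodule.exists_mem_ne_zero_of_ne_bot hI
    have hex : ∃ n : ℕ, ∃ a ∈ I, a ≠ 0 ∧ w (a : F) = n := by
      have ha0' : (a : F) ≠ 0 := by simpa using ha0
      have := ((hO a).mp a.2).resolve_left ha0'
      exact ⟨(w a).toNat, a, haI, ha0, by omega⟩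
    obtain ⟨a0, ha0I, ha00, hwa0⟩ := Nat.find_spec hex
    have ha00' : (a0 : F) ≠ 0 := by simpa using ha00
    refine ⟨a0, le_antisymm ?_ ?_⟩
    · intro b hb
      by_cases hb0 : b = 0
      · rw [hb0]; exact zero_mem _
      have hb0' : (b : F) ≠ 0 := by simpa using hb0
      have hwb := ((hO b).mp b.2).resolve_left hb0'
      have hmin : Nat.find hex ≤ (w b).toNat :=
        Nat.find_min' hex ⟨b, hb, hb0, by omega⟩
      have hc : (b : F) * (a0 : F)⁻¹ ∈ O := by
        right
        rw [hmul _ _ hb0' (inv_ne_zero ha00'), winv _ ha00', hwa0]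
        omega
      change b ∈ Ideal.span {a0}
      rw [Ideal.mem_span_singleton']
      exact ⟨⟨_, hc⟩, Subtype.ext (by simp [ha00'])⟩
    · change Ideal.span {a0} ≤ I
      rw [Ideal.span_singleton_le_iff_mem]
      exact ha0I
  have hne : O ≠ ⊤ := by
    intro htop
    obtain ⟨f, hf0, hwf⟩ := hnt
    have h1 : f ∈ O := by rw [htop]; exact ValuationSubring.mem_top f
    have h2 : f⁻¹ ∈ O := by rw [htop]; exact ValuationSubring.mem_top _
    have h3 := ((hO f).mp h1).resolve_left hf0
    have h4 := ((hO _).mp h2).resolve_left (inv_ne_zero hf0)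
    rw [winv f hf0] at h4
    omega
  obtain ⟨v, hv⟩ : ∃ v : Place K F, v.toValuationSubring = O :=
    ⟨{ toValuationSubring := O
       algebraMap_mem' := by
        intro a
        by_cases ha : a = 0
        · left; simp [ha]
        · right; rw [hK a ha]
       ne_top' := hne
       isPrincipalIdealRing' := hpid }, rfl⟩
  replace hO : ∀ f, f ∈ v.toValuationSubring ↔ f = 0 ∨ 0 ≤ w f := by
    intro f; rw [hv]; exact hO f
  clear hpid hne
  clear_value O
  obtain ⟨π, hπ⟩ := IsDiscreteValuationRing.exists_irreducible v.toValuationSubring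
  have hπF : (π : F) ≠ 0 := by
    simpa [ne_eq, ZeroMemClass.coe_eq_zero] using hπ.ne_zero
  have hwπ0 : 0 ≤ w (π : F) := ((hO π).mp π.2).resolve_left hπF
  have hunit : ∀ u : v.toValuationSubringˣ, w ((u : v.toValuationSubring) : F) = 0 := by
    intro u
    have hu0 : ((u : v.toValuationSubring) : F) ≠ 0 := by simp
    have h1 := ((hO _).mp (u : v.toValuationSubring).2).resolve_left hu0
    have hu0' : ((u⁻¹ : v.toValuationSubringˣ) : F) ≠ 0 := by simp
    have h2 := ((hO _).mp ((u⁻¹ : v.toValuationSubringˣ) : v.toValuationSubring).2).resolve_left hu0'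
    have h3 : (((u⁻¹ : v.toValuationSubringˣ) : v.toValuationSubring) : F)
        = ((u : v.toValuationSubring) : F)⁻¹ := by
      apply eq_inv_of_mul_eq_one_left
      have h4 : ((u⁻¹ : v.toValuationSubringˣ) : v.toValuationSubring) * (u : v.toValuationSubring)
          = 1 := u.inv_mul
      exact congrArg Subtype.val h4
    rw [h3, winv _ hu0] at h2
    omega
  have hwπ : 0 < w (π : F) := by
    rcases hwπ0.lt_or_eq with h | h
    · exact h
    exfalso
    apply hπ.not_isUnit
    have h2 : (π : F)⁻¹ ∈ v.toValuationSubring := by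
      rw [hO]; right; rw [winv _ hπF]; omega
    exact IsUnit.of_mul_eq_one ⟨(π : F)⁻¹, h2⟩ (Subtype.ext (by simp [hπF]))
  refine ⟨v, (w (π : F)).toNat, by omega, ?_⟩
  intro f hf
  obtain ⟨u, hu⟩ := v.exists_unit_mul_zpow hf hπ
  have hu0 : ((u : v.toValuationSubring) : F) ≠ 0 := by simp
  conv_lhs => rw [hu]
  rw [hmul _ _ hu0 (zpow_ne_zero _ hπF), hunit u, wzpow _ hπF, zero_add, Int.toNat_of_nonneg hwπ0]
  ring

end Fermat.Agent.S24Lib
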