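import Mathlib
import Fermat.Prelude.Def_ModularCurve_ArithmeticGalois
import Fermat.Agent.S20.LevelOne
import Fermat.Agent.S28.Translate

/-!
# S24 library: analytic definitions

* `iotaC : Q̄ →+* ℂ`
* `jan`, `janD d` : the analytic `j`-function and `τ ↦ j(dτ)`
* `IsWH Γ g` : `g` is a weakly holomorphic modular function (weight `0`) for `Γ`
* `taylorPS`, `taylorH` : Taylor series at a point
* `IsMerInf h g`, `laurentFun h g` : Laurent expansion at `i∞` in `exp(2πiτ/h)`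
-/

set_option autoImplicit false

open UpperHalfPlane ModularForm Matrix.SpecialLinearGroup
open scoped MatrixGroups Manifold
open Fermat.Agent.S20Lib Fermat.Agent.S28Lib

namespace Fermat.Agent.S24Lib

noncomputable section

/-- a fixed embedding `Q̄ → ℂ` -/
def iotaC : AlgebraicClosure ℚ →+* ℂ :=
  haveI : Algebra.IsAlgebraic ℚ (AlgebraicClosure ℚ) := AlgebraicClosure.isAlgebraic ℚ
  (IsAlgClosed.lift (R := ℚ) (S := AlgebraicClosure ℚ) (M := ℂ) : AlgebraicClosure ℚ →ₐ[ℚ] ℂ)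

/-- the analytic `j`-function `E₄³/Δ` -/
def jan (τ : ℍ) : ℂ := E4 τ ^ 3 / Dl τ

/-- `τ ↦ j(dτ)` -/
def janD (d : ℕ) (τ : ℍ) : ℂ := jan (utr d 0 1 τ)

/-- weakly holomorphic modular functions (weight `0`, holomorphic on `ℍ`, meromorphic at the
cusps) for `Γ`. -/
structure IsWH (Γ : Subgroup SL(2, ℤ)) (g : ℍ → ℂ) : Prop where
  holo : MDiff g
  inv : ∀ γ ∈ Γ, g ∣[(0 : ℤ)] γ = g
  bdd : ∃ M : ℕ, ∀ γ : SL(2, ℤ), IsBoundedAtImInfty ((g ∣[(0 : ℤ)] γ) * Dl ^ M)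

/-- Taylor series of `G` at `p`. -/
def taylorPS (G : ℂ → ℂ) (p : ℂ) : PowerSeries ℂ :=
  .mk fun m ↦ (↑m.factorial)⁻¹ * iteratedDeriv m G p

/-- Taylor series of `g : ℍ → ℂ` at `τ₀` (in the variable `τ - τ₀`). -/
def taylorH (g : ℍ → ℂ) (τ₀ : ℍ) : PowerSeries ℂ := taylorPS (g ∘ ofComplex) (τ₀ : ℂ)

/-- holomorphic on `ℍ`, `h`-periodic, meromorphic at `i∞`. -/
structure IsMerInf (h : ℕ) (g : ℍ → ℂ) : Prop where
  holo : MDiff g
  per : Function.Periodic (g ∘ ofComplex) h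
  bdd : ∃ M : ℕ, IsBoundedAtImInfty (g * Dl ^ M)

open Classical in
/-- Laurent expansion at `i∞` in the variable `exp(2πiτ/h)`
(junk `0` if `g` is not meromorphic at `i∞`). -/
def laurentFun (h : ℕ) (g : ℍ → ℂ) : LaurentSeries ℂ :=
  if hM : ∃ M : ℕ, IsBoundedAtImInfty (g * Dl ^ M) then
    HahnSeries.ofPowerSeries ℤ ℂ (qExpansion h (g * Dl ^ (Nat.find hM))) /
      (HahnSeries.ofPowerSeries ℤ ℂ (qExpansion h Dl)) ^ (Nat.find hM)
  else 0

/-! ### the ring of weakly holomorphic modular functions -/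

lemma mul_slash_zero (f g : ℍ → ℂ) (γ : SL(2, ℤ)) :
    (f * g) ∣[(0 : ℤ)] γ = f ∣[(0 : ℤ)] γ * g ∣[(0 : ℤ)] γ := by
  have := mul_slash_SL2 0 0 γ f g
  rwa [add_zero] at this

lemma isBoundedAtImInfty_Dl_pow (M : ℕ) : IsBoundedAtImInfty (Dl ^ M) := by
  have h : IsBoundedAtImInfty Dl := by simpa using isMF_Dl.bdd 1
  induction M with
  | zero => rw [pow_zero]; exact Filter.const_boundedAtFilter _ (1 : ℂ)
  | succ n ih => rw [pow_succ]; exact ih.mul h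

variable {Γ : Subgroup SL(2, ℤ)} {f g : ℍ → ℂ}

lemma IsWH.bdd_of_le (hg : IsWH Γ g) : ∃ M₀ : ℕ, ∀ M, M₀ ≤ M → ∀ γ : SL(2, ℤ),
    IsBoundedAtImInfty ((g ∣[(0 : ℤ)] γ) * Dl ^ M) := by
  obtain ⟨M₀, h⟩ := hg.bdd
  refine ⟨M₀, fun M hM γ => ?_⟩
  obtain ⟨k, rfl⟩ := Nat.exists_eq_add_of_le hM
  rw [pow_add, ← mul_assoc]
  exact (h γ).mul (isBoundedAtImInfty_Dl_pow k)

lemma isWH_const (c : ℂ) : IsWH Γ (Function.const ℍ c) where
  holo := mdifferentiable_const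
  inv γ _ := is_invariant_const γ c
  bdd := ⟨0, fun γ => by
    rw [is_invariant_const, pow_zero, mul_one]
    exact Filter.const_boundedAtFilter _ c⟩

lemma IsWH.add (hf : IsWH Γ f) (hg : IsWH Γ g) : IsWH Γ (f + g) where
  holo := hf.holo.add hg.holo
  inv γ hγ := by rw [SlashAction.add_slash, hf.inv γ hγ, hg.inv γ hγ]
  bdd := by
    obtain ⟨M₁, h₁⟩ := hf.bdd_of_le
    obtain ⟨M₂, h₂⟩ := hg.bdd_of_le
    refine ⟨max M₁ M₂, fun γ => ?_⟩
    rw [SlashAction.add_slash, add_mul]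
    exact (h₁ _ (le_max_left _ _) γ).add (h₂ _ (le_max_right _ _) γ)

lemma IsWH.neg (hf : IsWH Γ f) : IsWH Γ (-f) where
  holo := hf.holo.neg
  inv γ hγ := by rw [SlashAction.neg_slash, hf.inv γ hγ]
  bdd := by
    obtain ⟨M, h⟩ := hf.bdd
    refine ⟨M, fun γ => ?_⟩
    rw [SlashAction.neg_slash, neg_mul]
    exact (h γ).neg

lemma IsWH.mul (hf : IsWH Γ f) (hg : IsWH Γ g) : IsWH Γ (f * g) where
  holo := hf.holo.mul hg.holo
  inv γ hγ := by rw [mul_slash_zero, hf.inv γ hγ, hg.inv γ hγ]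
  bdd := by
    obtain ⟨M₁, h₁⟩ := hf.bdd
    obtain ⟨M₂, h₂⟩ := hg.bdd
    refine ⟨M₁ + M₂, fun γ => ?_⟩
    rw [mul_slash_zero, pow_add, mul_mul_mul_comm]
    exact (h₁ γ).mul (h₂ γ)

/-- the ring of weakly holomorphic modular functions for `Γ` -/
def WH (Γ : Subgroup SL(2, ℤ)) : Subring (ℍ → ℂ) where
  carrier := {g | IsWH Γ g}
  mul_mem' := IsWH.mul
  one_mem' := isWH_const 1
  add_mem' := IsWH.add
  zero_mem' := isWH_const 0
  neg_mem' := IsWH.neg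

@[simp] lemma mem_WH : g ∈ WH Γ ↔ IsWH Γ g := Iff.rfl

instance : IsDomain (WH Γ) := by
  have : Nontrivial (WH Γ) := ⟨⟨0, 1, fun h => by
    have := congrFun (congrArg Subtype.val h) UpperHalfPlane.I
    simp at this⟩⟩
  have : NoZeroDivisors (WH Γ) := ⟨fun {a b} hab => by
    have h := (UpperHalfPlane.mul_eq_zero_iff a.2.holo b.2.holo).mp (congrArg Subtype.val hab)
    exact h.imp (fun h => Subtype.ext h) (fun h => Subtype.ext h)⟩
  exact NoZeroDivisors.to_isDomain _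

/-- constants as elements of `WH Γ` -/
def whConst (Γ : Subgroup SL(2, ℤ)) : ℂ →+* WH Γ where
  toFun c := ⟨Function.const ℍ c, isWH_const c⟩
  map_one' := rfl
  map_mul' _ _ := rfl
  map_zero' := rfl
  map_add' _ _ := rfl

/-! ### the special point `ρ` -/

/-- `ρ = e^{2πi/3}`, the fixed point of `S * T`. -/
def rhoH : ℍ := ⟨⟨-1 / 2, Real.sqrt 3 / 2⟩, by
  show 0 < Real.sqrt 3 / 2
  positivity⟩

/-! ### named elements of the function field -/

open ModularCurve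

/-- `j(q^d)` as an element of `Q̄(j(q^d) : d ∣ N)`. -/
def jBarD (N d : ℕ) [NeZero d] (hd : d ∣ N) : modularFunctionFieldBar N :=
  ⟨coeffEmb (AlgebraicClosure ℚ) (qExpand ℚ d jq),
    coeffEmb_mem_laurentBaseChange (AlgebraicClosure ℚ) (jqd_mem_full N hd)⟩

/-- `j` as an element of `Q̄(j(q^d) : d ∣ N)`. -/
def jBar (N : ℕ) : modularFunctionFieldBar N := jBarD N 1 (one_dvd N)

/-- the generators of `modularFunctionFieldBar N` over `Q̄`. -/
def gensBar (N : ℕ) : Set (LaurentSeries (AlgebraicClosure ℚ)) :=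
  ⇑(coeffEmb (AlgebraicClosure ℚ)) '' divisorExpansions N

end

end Fermat.Agent.S24Lib
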