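import Fermat.Agent.S24.JFun

/-!
# S24, pieces W8/W9 : common part (embeddings of the function field from expansions)
-/

set_option autoImplicit false

open UpperHalfPlane ModularForm Matrix.SpecialLinearGroup CongruenceSubgroup ModularCurve
open scoped MatrixGroups Manifold
open Fermat.Agent.S20Lib Fermat.Agent.S28Lib

namespace Fermat.Agent.S24Lib

noncomputable section

namespace Emb

/-- order of a power series viewed as a Laurent series -/
theorem order_ofPowerSeries {p : PowerSeries ℂ} (hp : p ≠ 0) :
    (HahnSeries.ofPowerSeries ℤ ℂ p).order = (p.order.toNat : ℤ) := by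
  have hy : HahnSeries.ofPowerSeries ℤ ℂ p ≠ 0 := by
    intro h
    apply hp
    exact HahnSeries.ofPowerSeries_injective (by rw [h, map_zero])
  have hfin : p.order ≠ ⊤ := by
    rwa [Ne, PowerSeries.order_eq_top]
  have hcoe : (p.order.toNat : ℕ∞) = p.order := ENat.natCast_toNat hfin
  have hc : ∀ i : ℤ, (HahnSeries.ofPowerSeries ℤ ℂ p).coeff i
      = if i < 0 then 0 else PowerSeries.coeff i.natAbs p := fun i => PowerSeries.coeff_coe p i
  apply le_antisymm
  · apply HahnSeries.order_le_of_coeff_ne_zero
    rw [hc, if_neg (by omega)]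
    simp only [Int.natAbs_natCast]
    exact PowerSeries.coeff_order hp
  · by_contra hlt
    push Not at hlt
    apply hy
    rw [← HahnSeries.coeff_order_eq_zero, hc]
    split_ifs with h
    · rfl
    · apply PowerSeries.coeff_of_lt_order
      rw [← hcoe]
      norm_cast
      omega

variable {R : Type*} [CommRing R] [IsDomain R]

/-- extension of an injective ring hom to the fraction field -/
def lift (E : R →+* LaurentSeries ℂ) (hE : Function.Injective E) :
    FractionRing R →+* LaurentSeries ℂ := IsFractionRing.lift hE

theorem lift_algebraMap (E : R →+* LaurentSeries ℂ) (hE : Function.Injective E) (a : R) :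
    lift E hE (algebraMap R (FractionRing R) a) = E a := IsFractionRing.lift_algebraMap hE a

theorem exists_lift_eq (z : FractionRing R) (hz : z ≠ 0) :
    ∃ a b : R, a ≠ 0 ∧ b ≠ 0 ∧ z = algebraMap R _ a / algebraMap R _ b := by
  obtain ⟨a, b, hb, rfl⟩ := IsFractionRing.div_surjective (A := R) z
  refine ⟨a, b, ?_, nonZeroDivisors.ne_zero hb, rfl⟩
  rintro rfl
  simp at hz

theorem order_lift_div (E : R →+* LaurentSeries ℂ) (hE : Function.Injective E) {a b : R}
    (ha : a ≠ 0) (hb : b ≠ 0) :
    (lift E hE (algebraMap R _ a / algebraMap R _ b)).order = (E a).order - (E b).order := by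
  rw [map_div₀, lift_algebraMap, lift_algebraMap]
  have hEa : E a ≠ 0 := fun h => ha (hE (by rw [h, map_zero]))
  have hEb : E b ≠ 0 := fun h => hb (hE (by rw [h, map_zero]))
  have h1 : (E a / E b) * E b = E a := div_mul_cancel₀ _ hEb
  have h2 := HahnSeries.order_mul (div_ne_zero hEa hEb) hEb
  rw [h1] at h2
  omega

/-- equality of orders passes to the fraction field -/
theorem order_lift_eq (E E' : R →+* LaurentSeries ℂ) (hE : Function.Injective E)
    (hE' : Function.Injective E') (h : ∀ a, (E a).order = (E' a).order) (z : FractionRing R) :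
    (lift E hE z).order = (lift E' hE' z).order := by
  by_cases hz : z = 0
  · rw [hz, map_zero, map_zero]
  obtain ⟨a, b, ha, hb, rfl⟩ := exists_lift_eq z hz
  rw [order_lift_div E hE ha hb, order_lift_div E' hE' ha hb, h, h]

/-- a property of the orders which is stable under subtraction passes to the fraction field -/
theorem order_lift_prop (E : R →+* LaurentSeries ℂ) (hE : Function.Injective E) (P : ℤ → Prop)
    (hP : ∀ m n, P m → P n → P (m - n)) (h : ∀ a, a ≠ 0 → P (E a).order)
    (z : FractionRing R) (hz : z ≠ 0) : P (lift E hE z).order := by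
  obtain ⟨a, b, ha, hb, rfl⟩ := exists_lift_eq z hz
  rw [order_lift_div E hE ha hb]
  exact hP _ _ (h a ha) (h b hb)

end Emb

end

end Fermat.Agent.S24Lib
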