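import Fermat.Agent.S24.AlgDefs
import Fermat.Agent.S24.PlaceBasic
import Fermat.Agent.S24.PlaceOfOrder
import Fermat.Agent.S24.PlaceFibre

/-!
# S24 (AL): counting the places in a fibre by means of embeddings into Laurent series
-/

set_option autoImplicit false

open AlgebraicCurve IntermediateField IsDedekindDomain

namespace Fermat.Agent.S24Lib

namespace AL

/-- ring homomorphisms agreeing on `K` and on `y` agree on `K(y)` -/
theorem agree_on_adjoin {K F M : Type*} [Field K] [Field F] [Algebra K F] [Field M] {y : F}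
    (σ τ : F →+* M) (hK : ∀ a : K, σ (algebraMap K F a) = τ (algebraMap K F a))
    (hy : σ y = τ y) (z : K⟮y⟯) : σ (algebraMap K⟮y⟯ F z) = τ (algebraMap K⟮y⟯ F z) := by
  obtain ⟨z, hz⟩ := z
  show σ z = τ z
  induction hz using IntermediateField.adjoin_induction with
  | mem x hx => rw [Set.mem_singleton_iff.1 hx]; exact hy
  | algebraMap x => exact hK x
  | add x y _ _ hx hy => rw [map_add, map_add, hx, hy]
  | inv x _ hx => rw [map_inv₀, map_inv₀, hx]
  | mul x y _ _ hx hy => rw [map_mul, map_mul, hx, hy]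

/-- a family of ring homomorphisms agreeing on `L`, as `L`-algebra homomorphisms -/
theorem card_le_finrank {L F M : Type*} [Field L] [Field F] [Field M] [Algebra L F]
    [FiniteDimensional L F] {X : Type*} [Finite X] (σ : X → F →+* M)
    (hinj : Function.Injective σ)
    (hagree : ∀ γ γ' (z : L), σ γ (algebraMap L F z) = σ γ' (algebraMap L F z)) :
    Nat.card X ≤ Module.finrank L F := by
  rcases isEmpty_or_nonempty X with hX | ⟨⟨γ₀⟩⟩
  · simp
  letI : Algebra L M := ((σ γ₀).comp (algebraMap L F)).toAlgebra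
  let τ : X → (F →ₐ[L] M) := fun γ => { σ γ with commutes' := fun z => hagree γ γ₀ z }
  have hτ : Function.Injective τ := by
    intro γ γ' h
    apply hinj
    ext x
    exact DFunLike.congr_fun h x
  exact (Nat.card_le_card_of_injective τ hτ).trans (card_algHom_le_finrank L F M)

theorem norm_eq_prod {L F M : Type*} [Field L] [Field F] [Field M] [Algebra L F]
    [FiniteDimensional L F] [Algebra.IsSeparable L F] {X : Type*} [Fintype X] (σ : X → F →+* M)
    (hinj : Function.Injective σ)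
    (hagree : ∀ γ γ' (z : L), σ γ (algebraMap L F z) = σ γ' (algebraMap L F z))
    (hcard : Fintype.card X = Module.finrank L F) (γ₀ : X) (x : F) :
    σ γ₀ (algebraMap L F (Algebra.norm L x)) = ∏ γ, σ γ x := by
  let E := AlgebraicClosure M
  letI : Algebra L E := ((algebraMap M E).comp ((σ γ₀).comp (algebraMap L F))).toAlgebra
  let τ : X → (F →ₐ[L] E) := fun γ =>
    { (algebraMap M E).comp (σ γ) with
      commutes' := fun z => congrArg (algebraMap M E) (hagree γ γ₀ z) }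
  have hτ : Function.Injective τ := by
    intro γ γ' h
    apply hinj
    ext x
    exact (algebraMap M E).injective (DFunLike.congr_fun h x)
  have hbij : Function.Bijective τ := by
    rw [Fintype.bijective_iff_injective_and_card]
    exact ⟨hτ, by rw [hcard, AlgHom.card L F E]⟩
  have h1 := Algebra.norm_eq_prod_embeddings L E x
  rw [← Fintype.prod_bijective τ hbij (fun γ => algebraMap M E (σ γ x)) (fun φ => φ x)
    (fun γ => rfl), ← map_prod] at h1
  exact (algebraMap M E).injective h1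

/-- a surjection which does not increase a positive weighted count is injective -/
theorem injective_of_sum_le {Q Z : Type*} [Fintype Q] [Fintype Z] (Φ : Q → Z)
    (hΦ : Function.Surjective Φ) (g : Z → ℤ) (hg : ∀ z, 0 < g z)
    (h : ∑ q, g (Φ q) ≤ ∑ z, g z) : Function.Injective Φ := by
  classical
  let ψ := Function.surjInv hΦ
  have hψ : Function.Injective ψ := Function.injective_surjInv hΦ
  have hΦψ : ∀ z, Φ (ψ z) = z := Function.surjInv_eq hΦ
  have h1 : ∑ z, g z = ∑ q ∈ Finset.univ.image ψ, g (Φ q) := by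
    rw [Finset.sum_image (fun a _ b _ hab => hψ hab)]
    exact Finset.sum_congr rfl (fun z _ => by rw [hΦψ])
  have hsurj : ∀ q, q ∈ Finset.univ.image ψ := by
    intro q
    by_contra hq
    have := Finset.sum_lt_sum_of_subset (f := fun q => g (Φ q)) (Finset.subset_univ _)
      (Finset.mem_univ q) hq (hg _) (fun j _ _ => (hg _).le)
    rw [← h1] at this
    exact absurd h (not_le.2 this)
  intro q₁ q₂ hq
  obtain ⟨z₁, -, rfl⟩ := Finset.mem_image.1 (hsurj q₁)
  obtain ⟨z₂, -, rfl⟩ := Finset.mem_image.1 (hsurj q₂)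
  rw [hΦψ, hΦψ] at hq
  rw [hq]

theorem order_prod_eq_zero {X : Type*} (s : Finset X) (f : X → LaurentSeries ℂ)
    (h : ∀ γ ∈ s, f γ ≠ 0 ∧ (f γ).order = 0) :
    (∏ γ ∈ s, f γ) ≠ 0 ∧ (∏ γ ∈ s, f γ).order = 0 := by
  apply Finset.prod_induction f (fun x => x ≠ 0 ∧ x.order = 0)
  · rintro a b ⟨ha, ha'⟩ ⟨hb, hb'⟩
    exact ⟨mul_ne_zero ha hb, by rw [HahnSeries.order_mul ha hb, ha', hb', add_zero]⟩
  · exact ⟨one_ne_zero, HahnSeries.order_one⟩
  · exact h

open scoped IntermediateField.algebraAdjoinAdjoin in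
/-- every place over `y = 0` is induced by one of the embeddings -/
theorem exists_eq_place {K F : Type*} [Field K] [Field F] [Algebra K F] [IsAlgClosed K] [CharZero K]
    (h : IsFF K F) {y : F} (hy : Transcendental K y)
    {X : Type*} [Fintype X] (hX : Fintype.card X = Module.finrank K⟮y⟯ F)
    (σ : X → F →+* LaurentSeries ℂ) (hσinj : Function.Injective σ)
    (hσK : ∀ γ γ' (a : K), σ γ (algebraMap K F a) = σ γ' (algebraMap K F a))
    (hσy : ∀ γ γ', σ γ y = σ γ' y)
    (s : ℕ) (hs : 0 < s) (hwy : ∀ γ, (σ γ y).order = s)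
    (v : X → Place K F) (m' : X → ℕ)
    (hv : ∀ γ f, f ≠ 0 → (σ γ f).order = m' γ * (v γ).ord f)
    (v₀ : Place K F) (hv₀ : v₀ ∈ zerosOf K y) : ∃ γ, v γ = v₀ := by
  classical
  by_contra hne
  push Not at hne
  have := PF.isDedekindDomain_RR hy
  have := PF.isDedekindDomain_BB h hy
  have := PF.isFractionRing_BB h hy
  have := PF.finite_BB h hy
  have hmax := PF.isMaximal_span_yR hy
  have := h.finiteDimensional hy
  have := PF.isSeparable_adjoin (K := K) y
  have hy0 : y ≠ 0 := fun h0 => hy (h0 ▸ isAlgebraic_zero)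
  have hXpos : 0 < Fintype.card X := by rw [hX]; exact Module.finrank_pos
  obtain ⟨γ₀⟩ : Nonempty X := Fintype.card_pos_iff.1 hXpos
  have hz : zerosOf K y =
      Place.ofHeightOneSpectrum (K := K) (F := F) '' PF.primesAbove (PF.BB K y) (PF.yR K y) :=
    PF.zerosOf_eq_image (K := K) (F := F) (PF.BB K y) (PF.yR K y) hy0
      (fun v hv r => PF.ord_RR_nonneg v hv r)
  have hvz : ∀ γ, v γ ∈ zerosOf K y := by
    intro γ
    rw [mem_zerosOf]
    have h1 := hv γ y hy0
    rw [hwy γ] at h1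
    by_contra hcon
    have h2 : (m' γ : ℤ) * (v γ).ord y ≤ 0 :=
      mul_nonpos_of_nonneg_of_nonpos (Int.natCast_nonneg _) (not_lt.1 hcon)
    have h3 : (0 : ℤ) < s := by exact_mod_cast hs
    omega
  rw [hz] at hv₀
  obtain ⟨w₀, hw₀mem, hw₀⟩ := hv₀
  have hvz' : ∀ γ, ∃ w : HeightOneSpectrum (PF.BB K y),
      Place.ofHeightOneSpectrum (K := K) (F := F) w = v γ := by
    intro γ
    have := hvz γ
    rw [hz] at this
    obtain ⟨w, -, hw⟩ := this
    exact ⟨w, hw⟩
  choose w hw using hvz'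
  -- prime avoidance
  have hnot : ¬ ((w₀.asIdeal : Set (PF.BB K y)) ⊆
      ⋃ γ ∈ ((Finset.univ : Finset X) : Set X), ((w γ).asIdeal : Set (PF.BB K y))) := by
    rw [Ideal.subset_union_prime γ₀ γ₀ (fun γ _ _ _ => (w γ).isPrime)]
    rintro ⟨γ, -, hle⟩
    have h1 : w₀.asIdeal = (w γ).asIdeal := w₀.isMaximal.eq_of_le (w γ).isPrime.ne_top hle
    have h2 : w₀ = w γ := HeightOneSpectrum.ext h1
    exact hne γ (by rw [← hw γ, ← h2, hw₀])
  obtain ⟨b, hb0, hb⟩ := Set.not_subset.1 hnot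
  have hb' : ∀ γ, b ∉ (w γ).asIdeal := by
    intro γ hγ
    apply hb
    simp only [Finset.coe_univ, Set.mem_univ, Set.iUnion_true, Set.mem_iUnion]
    exact ⟨γ, hγ⟩
  have hbne : b ≠ 0 := fun h0 => hb' γ₀ (h0 ▸ Ideal.zero_mem _)
  have hbF : algebraMap (PF.BB K y) F b ≠ 0 :=
    (map_ne_zero_iff _ (IsFractionRing.injective (PF.BB K y) F)).2 hbne
  -- the norm
  set N : PF.RR K y := Algebra.intNorm (PF.RR K y) (PF.BB K y) b with hN
  have hNmem : algebraMap (PF.RR K y) (PF.BB K y) N ∈ w₀.asIdeal := by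
    obtain ⟨c, hc⟩ := Algebra.dvd_algebraMap_intNorm_self (PF.RR K y) (PF.BB K y) b
    rw [hN, hc]
    exact Ideal.mul_mem_right c _ hb0
  have hcomap : Ideal.span {PF.yR K y} = w₀.asIdeal.comap (algebraMap (PF.RR K y) (PF.BB K y)) :=
    hmax.eq_of_le (Ideal.comap_ne_top _ w₀.isPrime.ne_top)
      ((Ideal.span_singleton_le_iff_mem _).2 hw₀mem)
  have hNspan : N ∈ Ideal.span {PF.yR K y} := by rw [hcomap]; exact hNmem
  obtain ⟨c, hc⟩ := Ideal.mem_span_singleton'.1 hNspan
  have hnorm : algebraMap (PF.RR K y) K⟮y⟯ N =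
      Algebra.norm K⟮y⟯ (algebraMap (PF.BB K y) F b) :=
    Algebra.algebraMap_intNorm (A := PF.RR K y) (K := K⟮y⟯) (L := F) (B := PF.BB K y) b
  have hprod := norm_eq_prod (L := K⟮y⟯) σ hσinj
    (fun γ γ' z => agree_on_adjoin (σ γ) (σ γ') (hσK γ γ') (hσy γ γ') z) hX γ₀
    (algebraMap (PF.BB K y) F b)
  rw [← hnorm] at hprod
  have hNF : algebraMap K⟮y⟯ F (algebraMap (PF.RR K y) K⟮y⟯ N) = (c : F) * y := by
    rw [← hc]; rfl
  rw [hNF, map_mul] at hprod
  have hfac : ∀ γ ∈ (Finset.univ : Finset X), σ γ (algebraMap (PF.BB K y) F b) ≠ 0 ∧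
      (σ γ (algebraMap (PF.BB K y) F b)).order = 0 := by
    intro γ _
    refine ⟨(map_ne_zero_iff _ (σ γ).injective).2 hbF, ?_⟩
    rw [hv γ _ hbF, ← hw γ]
    have h1 := PF.ord_algebraMap_nonneg (K := K) (F := F) (w γ) b
    have h2 : ¬ 0 < (Place.ofHeightOneSpectrum (K := K) (F := F) (w γ)).ord
        (algebraMap (PF.BB K y) F b) := by
      rw [PF.ord_algebraMap_pos_iff (w γ) hbne]
      exact hb' γ
    have h3 : (Place.ofHeightOneSpectrum (K := K) (F := F) (w γ)).ord
        (algebraMap (PF.BB K y) F b) = 0 := by omega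
    rw [h3, mul_zero]
  obtain ⟨hP0, hPord⟩ := order_prod_eq_zero Finset.univ _ hfac
  rw [← hprod] at hP0 hPord
  have hc0 : σ γ₀ (c : F) ≠ 0 := left_ne_zero_of_mul hP0
  have hcF : (c : F) ≠ 0 := fun h0 => hc0 (by rw [h0, map_zero])
  have hy0' : σ γ₀ y ≠ 0 := right_ne_zero_of_mul hP0
  rw [HahnSeries.order_mul hc0 hy0', hwy γ₀, hv γ₀ _ hcF] at hPord
  have h4 : 0 ≤ (v γ₀).ord (c : F) := PF.ord_RR_nonneg (v γ₀) (hvz γ₀).le c
  have h5 : (0 : ℤ) ≤ (m' γ₀ : ℤ) * (v γ₀).ord (c : F) := mul_nonneg (Int.natCast_nonneg _) h4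
  have h6 : (0 : ℤ) < s := by exact_mod_cast hs
  omega

end AL

section
variable {K F : Type*} [Field K] [Field F] [Algebra K F]
variable [IsAlgClosed K] [CharZero K]

theorem card_le_finrank_of_embeddings {y : F} {X : Type*} [Finite X] {M : Type*} [Field M]
    (σ : X → F →+* M) (hσinj : Function.Injective σ)
    (hσK : ∀ γ γ' (a : K), σ γ (algebraMap K F a) = σ γ' (algebraMap K F a))
    (hσy : ∀ γ γ', σ γ y = σ γ' y) [FiniteDimensional K⟮y⟯ F] :
    Nat.card X ≤ Module.finrank K⟮y⟯ F :=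
  AL.card_le_finrank σ hσinj
    (fun γ γ' z => AL.agree_on_adjoin (σ γ) (σ γ') (hσK γ γ') (hσy γ γ') z)

theorem fibre_lemma (h : IsFF K F) {y : F} (hy : Transcendental K y)
    {X : Type*} [Finite X] (hX : Nat.card X = Module.finrank K⟮y⟯ F)
    (σ : X → F →+* LaurentSeries ℂ) (hσinj : Function.Injective σ)
    (hσK : ∀ γ γ' (a : K), σ γ (algebraMap K F a) = σ γ' (algebraMap K F a))
    (hσy : ∀ γ γ', σ γ y = σ γ' y)
    (hwK : ∀ γ (a : K), a ≠ 0 → (σ γ (algebraMap K F a)).order = 0)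
    (s : ℕ) (hs : 0 < s) (hwy : ∀ γ, (σ γ y).order = s)
    (r : Setoid X) (hr : ∀ γ γ', r γ γ' → ∀ f, (σ γ f).order = (σ γ' f).order)
    (m : X → ℕ) (hm : ∀ γ f, f ≠ 0 → (m γ : ℤ) ∣ (σ γ f).order)
    (hms : ∀ γ, s ≤ m γ * Nat.card {γ' // r γ γ'}) :
    Nat.card (zerosOf K y) = Nat.card (Quotient r) ∧
      ∀ v ∈ zerosOf K y, v.ord y ∣ (s : ℤ) := by
  classical
  have := Fintype.ofFinite X
  have hy0 : y ≠ 0 := fun h0 => hy (h0 ▸ isAlgebraic_zero)
  have hsZ : (0 : ℤ) < s := by exact_mod_cast hs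
  have hne : ∀ γ f, f ≠ 0 → σ γ f ≠ 0 := fun γ f hf => (map_ne_zero_iff _ (σ γ).injective).2 hf
  -- Step A: the places
  have hA : ∀ γ, ∃ (v : Place K F) (m' : ℕ), 0 < m' ∧
      ∀ f, f ≠ 0 → (σ γ f).order = m' * v.ord f := by
    intro γ
    apply exists_place_of_order (fun f => (σ γ f).order)
    · intro f g hf hg
      simp only [map_mul]
      exact HahnSeries.order_mul (hne γ f hf) (hne γ g hg)
    · intro f g _ _ hfg
      simp only [map_add]
      apply HahnSeries.min_order_le_order_add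
      rw [← map_add]
      exact hne γ _ hfg
    · exact hwK γ
    · exact ⟨y, hy0, by simp only [hwy γ]; omega⟩
  choose v m' hm'pos hv using hA
  have hm'Z : ∀ γ, (0 : ℤ) < m' γ := fun γ => by exact_mod_cast hm'pos γ
  -- Step B
  have hsy : ∀ γ, (s : ℤ) = m' γ * (v γ).ord y := fun γ => by rw [← hv γ y hy0, hwy γ]
  have hvz : ∀ γ, v γ ∈ zerosOf K y := by
    intro γ
    rw [mem_zerosOf]
    have h1 := hsy γ
    have h2 := hm'Z γ
    by_contra hcon
    have h3 : (m' γ : ℤ) * (v γ).ord y ≤ 0 :=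
      mul_nonpos_of_nonneg_of_nonpos h2.le (not_lt.1 hcon)
    omega
  -- Step C
  have hC : ∀ γ γ', r γ γ' → v γ = v γ' := by
    intro γ γ' hγ
    apply place_ext_of_ord
    intro f hf
    rcases eq_or_ne f 0 with rfl | hf0
    · simp
    have h1 := hr γ γ' hγ f
    rw [hv γ f hf0, hv γ' f hf0] at h1
    have h2 : (0 : ℤ) ≤ m' γ * (v γ).ord f := mul_nonneg (hm'Z γ).le hf
    rw [h1] at h2
    exact nonneg_of_mul_nonneg_right h2 (hm'Z γ')
  -- Step D
  have hD : ∀ v₀ ∈ zerosOf K y, ∃ γ, v γ = v₀ := fun v₀ hv₀ =>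
    AL.exists_eq_place h hy (by rw [← hX, Nat.card_eq_fintype_card]) σ hσinj hσK hσy s hs hwy
      v m' hv v₀ hv₀
  -- Step E
  have hE : ∀ γ, (v γ).ord y ≤ (Nat.card {γ' // r γ γ'} : ℤ) := by
    intro γ
    obtain ⟨t, ht⟩ := exists_ord_eq_one (v γ)
    have ht0 : t ≠ 0 := by
      rintro rfl
      simp at ht
    have h1 := hm γ t ht0
    rw [hv γ t ht0, ht, mul_one] at h1
    have h2 : (m γ : ℤ) ≤ m' γ := Int.le_of_dvd (hm'Z γ) h1
    have h3 : (s : ℤ) ≤ (m γ : ℤ) * (Nat.card {γ' // r γ γ'} : ℤ) := by exact_mod_cast hms γ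
    have h4 : (m γ : ℤ) * (Nat.card {γ' // r γ γ'} : ℤ) ≤
        (m' γ : ℤ) * (Nat.card {γ' // r γ γ'} : ℤ) :=
      mul_le_mul_of_nonneg_right h2 (Int.natCast_nonneg _)
    have h5 : (m' γ : ℤ) * (v γ).ord y ≤ (m' γ : ℤ) * (Nat.card {γ' // r γ γ'} : ℤ) := by
      rw [← hsy γ]; exact h3.trans h4
    exact le_of_mul_le_mul_left h5 (hm'Z γ)
  refine ⟨?_, ?_⟩
  · -- Step F
    have hfin := finite_zerosOf h hy
    have := hfin.fintype
    let Φ : Quotient r → zerosOf K y :=
      Quotient.lift (fun γ => (⟨v γ, hvz γ⟩ : zerosOf K y)) (fun γ γ' hγ => Subtype.ext (hC γ γ' hγ))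
    have hΦsurj : Function.Surjective Φ := by
      rintro ⟨v₀, hv₀⟩
      obtain ⟨γ, hγ⟩ := hD v₀ hv₀
      exact ⟨Quotient.mk r γ, Subtype.ext hγ⟩
    have hsum1 : ∑ z : zerosOf K y, (z : Place K F).ord y = (Module.finrank K⟮y⟯ F : ℤ) := by
      rw [← sum_ord_zerosOf h hy, ← finsum_set_coe_eq_finsum_mem, finsum_eq_sum_of_fintype]
    have hsum2 : (Nat.card X : ℤ) =
        ∑ q : Quotient r, (Nat.card {γ // Quotient.mk r γ = q} : ℤ) := by
      rw [← Nat.card_congr (Equiv.sigmaFiberEquiv (Quotient.mk r)), Nat.card_sigma]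
      push_cast
      rfl
    have hle : ∀ q : Quotient r, ((Φ q : zerosOf K y) : Place K F).ord y ≤
        (Nat.card {γ // Quotient.mk r γ = q} : ℤ) := by
      intro q
      induction q using Quotient.inductionOn with
      | _ γ =>
        refine (hE γ).trans (le_of_eq ?_)
        congr 1
        apply Nat.card_congr
        apply Equiv.subtypeEquivRight
        intro γ'
        rw [Quotient.eq]
        exact ⟨fun h => r.symm h, fun h => r.symm h⟩
    have hinj : Function.Injective Φ := by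
      apply AL.injective_of_sum_le Φ hΦsurj (fun z => (z : Place K F).ord y) (fun z => z.2)
      rw [hsum1, ← hX, hsum2]
      exact Finset.sum_le_sum (fun q _ => hle q)
    exact (Nat.card_congr (Equiv.ofBijective Φ ⟨hinj, hΦsurj⟩)).symm
  · intro v₀ hv₀
    obtain ⟨γ, rfl⟩ := hD v₀ hv₀
    exact ⟨m' γ, by rw [hsy γ]; ring⟩

end

end Fermat.Agent.S24Lib
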